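/-
T1B / TORIC50 (helper50), file 1: the ABSTRACT tower layer (Mathlib only).

Setting (all groups commutative, written multiplicatively, as `Pkg.Jhat` and `PicX` are):
* a tower `J n` (`= Ĵ(O/𝔪^n, 𝔪/𝔪^n)`, the Čech formal group of the nodal datum), a tower `B n` (the Čech
  formal group of the good-reduction target `J₀(M')²`), a tower `T n` (`= (1 + 𝔪/𝔪^n)^r`, the formal torus),
  transition maps `pJ, pB, pT`, the formal push-forward `β n : J n →* B n` and the formal toric map
  `ι n : T n →* J n`;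
* FIRST ORDER input (`step_exact`, `step_inj`): on the kernels of the transition maps the sequence
  `1 → T → J → B` is exact (this is the cotangent computation `ker (Tr₁, Tr₂) = H¹(Γ) ⊗ I`).

Results:
* `Hyp.exists_of_β_eq_one`, `Hyp.ι_injective` : `ker β n = range ι n` and `ι n` injective, for all `n`
  (induction on `n`; no power series, no inverse function theorem needed in this form).
* `LimHyp` : honest points `A` (`= J̃¹(O)`, `O` complete) with jointly injective coordinates `u n : A →* J n`;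
  `Tinf = (1 + 𝔪)^r = lim T n`.  `toricCoord : βA.ker →* Tinf` is an injective homomorphism
  (`toricCoord_spec`, `toricCoord_injective`), equivariant for every compatible group action
  (`toricCoord_smul`), hence `p`-torsion of `ker βA` carries the character `χ` as soon as the `p`-torsion of
  `Tinf` does (`smul_eq_pow_of_pow_eq_one`) — this is `KL46.LocalData.toric`.
* with ALGEBRAISATION of toric classes (`halg`) : `toricPoint : Tinf →* A`, `u n (toricPoint w) = ι n (q n w)`,
  injective, equivariant, `βA ∘ toricPoint = 1`, `range toricPoint = ker βA`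
  — this is the map `ι` of `KL46.exists_toric_correction`.
-/
import Mathlib

set_option autoImplicit false
set_option linter.unusedSectionVars false
set_option linter.unusedVariables false

namespace Fermat.Agent.T1B.Toric50.Tower

variable {J B T : ℕ → Type*} [∀ n, CommGroup (J n)] [∀ n, CommGroup (B n)] [∀ n, CommGroup (T n)]
  (pJ : ∀ n, J (n + 1) →* J n) (pB : ∀ n, B (n + 1) →* B n) (pT : ∀ n, T (n + 1) →* T n)
  (β : ∀ n, J n →* B n) (ι : ∀ n, T n →* J n)

/-- Hypotheses of the tower kernel lemma. -/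
structure Hyp : Prop where
  β_pJ : ∀ n (y : J (n + 1)), β n (pJ n y) = pB n (β (n + 1) y)
  ι_pT : ∀ n (z : T (n + 1)), ι n (pT n z) = pJ n (ι (n + 1) z)
  pT_surj : ∀ n, Function.Surjective (pT n)
  β_ι : ∀ n (z : T n), β n (ι n z) = 1
  base_J : ∀ y : J 0, y = 1
  base_T : ∀ z : T 0, z = 1
  /-- first order exactness at `J` -/
  step_exact : ∀ n (y : J (n + 1)), pJ n y = 1 → β (n + 1) y = 1 →
    ∃ w : T (n + 1), pT n w = 1 ∧ ι (n + 1) w = y
  /-- first order injectivity of `ι` -/
  step_inj : ∀ n (w : T (n + 1)), pT n w = 1 → ι (n + 1) w = 1 → w = 1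

variable {pJ pB pT β ι}

/-- `ker β n ⊆ range ι n`. -/
theorem Hyp.exists_of_β_eq_one (h : Hyp pJ pB pT β ι) :
    ∀ n (y : J n), β n y = 1 → ∃ z : T n, ι n z = y := by
  intro n
  induction n with
  | zero => intro y _; exact ⟨1, by rw [map_one, h.base_J y]⟩
  | succ n ih =>
    intro y hy
    have h1 : β n (pJ n y) = 1 := by rw [h.β_pJ, hy, map_one]
    obtain ⟨z0, hz0⟩ := ih _ h1
    obtain ⟨z, rfl⟩ := h.pT_surj n z0
    have h2 : pJ n (y * (ι (n + 1) z)⁻¹) = 1 := by
      rw [map_mul, map_inv, ← h.ι_pT, hz0, mul_inv_cancel]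
    have h3 : β (n + 1) (y * (ι (n + 1) z)⁻¹) = 1 := by
      rw [map_mul, map_inv, hy, h.β_ι, inv_one, mul_one]
    obtain ⟨w, -, hw⟩ := h.step_exact n _ h2 h3
    exact ⟨w * z, by rw [map_mul, hw, inv_mul_cancel_right]⟩

/-- `ι n` is injective. -/
theorem Hyp.ι_injective (h : Hyp pJ pB pT β ι) : ∀ n, Function.Injective (ι n) := by
  intro n
  induction n with
  | zero => intro a b _; rw [h.base_T a, h.base_T b]
  | succ n ih =>
    rw [injective_iff_map_eq_one]
    intro z hz
    have h1 : ι n (pT n z) = 1 := by rw [h.ι_pT, hz, map_one]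
    have h2 : pT n z = 1 := (injective_iff_map_eq_one (ι n)).1 ih _ h1
    exact h.step_inj n z h2 hz

/-- `ker β n = range ι n`. -/
theorem Hyp.ker_eq_range (h : Hyp pJ pB pT β ι) (n : ℕ) : (β n).ker = (ι n).range := by
  ext y
  rw [MonoidHom.mem_ker, MonoidHom.mem_range]
  exact ⟨h.exists_of_β_eq_one n y, by rintro ⟨z, rfl⟩; exact h.β_ι n z⟩

/-! ### Passage to the limit -/

section Limit

variable {A AB Tinf : Type*} [CommGroup A] [CommGroup AB] [CommGroup Tinf]
  (pJ pT β ι)
  (u : ∀ n, A →* J n) (uB : ∀ n, AB →* B n) (q : ∀ n, Tinf →* T n) (βA : A →* AB)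

/-- Hypotheses for the passage to the limit: `A` = honest points (kernel of reduction over a complete
base), `u n` their Čech coordinates modulo `𝔪^n`, `Tinf = lim T n`. -/
structure LimHyp : Prop where
  u_compat : ∀ n (y : A), pJ n (u (n + 1) y) = u n y
  q_compat : ∀ n (w : Tinf), pT n (q (n + 1) w) = q n w
  /-- formal functions: a class all of whose truncations are trivial is trivial -/
  u_inj : ∀ y : A, (∀ n, u n y = 1) → y = 1
  uB_β : ∀ n (y : A), uB n (βA y) = β n (u n y)
  /-- `Tinf` is complete -/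
  q_complete : ∀ z : ∀ n, T n, (∀ n, pT n (z (n + 1)) = z n) → ∃ w : Tinf, ∀ n, q n w = z n
  /-- `Tinf` is separated -/
  q_inj : ∀ w : Tinf, (∀ n, q n w = 1) → w = 1

variable {pJ pT β ι u uB q βA}

theorem LimHyp.q_ext (hl : LimHyp pJ pT β u uB q βA) {w w' : Tinf} (hww : ∀ n, q n w = q n w') :
    w = w' := by
  have : w * w'⁻¹ = 1 := hl.q_inj _ fun n => by rw [map_mul, map_inv, hww n, mul_inv_cancel]
  exact mul_inv_eq_one.1 this

theorem LimHyp.u_ext (hl : LimHyp pJ pT β u uB q βA) {y y' : A} (hyy : ∀ n, u n y = u n y') :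
    y = y' := by
  have : y * y'⁻¹ = 1 := hl.u_inj _ fun n => by rw [map_mul, map_inv, hyy n, mul_inv_cancel]
  exact mul_inv_eq_one.1 this

/-- Existence and uniqueness of the toric coordinate of a point of `ker βA`. -/
theorem LimHyp.existsUnique_toricCoord (h : Hyp pJ pB pT β ι) (hl : LimHyp pJ pT β u uB q βA)
    (y : A) (hy : βA y = 1) : ∃! w : Tinf, ∀ n, u n y = ι n (q n w) := by
  have hex : ∀ n, ∃ z : T n, ι n z = u n y := fun n =>
    h.exists_of_β_eq_one n _ (by rw [← hl.uB_β, hy, map_one])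
  choose z hz using hex
  have hcompat : ∀ n, pT n (z (n + 1)) = z n := fun n => by
    apply h.ι_injective n
    rw [h.ι_pT, hz, hz, hl.u_compat]
  obtain ⟨w, hw⟩ := hl.q_complete z hcompat
  refine ⟨w, fun n => by rw [hw, hz], fun w' hw' => hl.q_ext fun n => ?_⟩
  apply h.ι_injective n
  rw [← hw' n, hw, hz]

/-- The toric coordinate of a point of `ker βA`, as a function. -/
noncomputable def LimHyp.toricCoordFun (h : Hyp pJ pB pT β ι) (hl : LimHyp pJ pT β u uB q βA)
    (y : βA.ker) : Tinf :=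
  (hl.existsUnique_toricCoord h y.1 y.2).choose

theorem LimHyp.toricCoordFun_spec (h : Hyp pJ pB pT β ι) (hl : LimHyp pJ pT β u uB q βA)
    (y : βA.ker) (n : ℕ) : u n (y : A) = ι n (q n (hl.toricCoordFun h y)) :=
  (hl.existsUnique_toricCoord h y.1 y.2).choose_spec.1 n

theorem LimHyp.toricCoordFun_unique (h : Hyp pJ pB pT β ι) (hl : LimHyp pJ pT β u uB q βA)
    (y : βA.ker) {w : Tinf} (hw : ∀ n, u n (y : A) = ι n (q n w)) : hl.toricCoordFun h y = w :=
  ((hl.existsUnique_toricCoord h y.1 y.2).choose_spec.2 w hw).symm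

/-- **The toric coordinate** `ker βA →* Tinf`. -/
noncomputable def LimHyp.toricCoord (h : Hyp pJ pB pT β ι) (hl : LimHyp pJ pT β u uB q βA) :
    βA.ker →* Tinf where
  toFun := hl.toricCoordFun h
  map_one' := hl.toricCoordFun_unique h 1 fun n => by simp
  map_mul' y y' := hl.toricCoordFun_unique h (y * y') fun n => by
    rw [Subgroup.coe_mul, map_mul, map_mul, map_mul, hl.toricCoordFun_spec h y,
      hl.toricCoordFun_spec h y']

theorem LimHyp.toricCoord_spec (h : Hyp pJ pB pT β ι) (hl : LimHyp pJ pT β u uB q βA)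
    (y : βA.ker) (n : ℕ) : u n (y : A) = ι n (q n (hl.toricCoord h y)) :=
  hl.toricCoordFun_spec h y n

theorem LimHyp.toricCoord_unique (h : Hyp pJ pB pT β ι) (hl : LimHyp pJ pT β u uB q βA)
    (y : βA.ker) {w : Tinf} (hw : ∀ n, u n (y : A) = ι n (q n w)) : hl.toricCoord h y = w :=
  hl.toricCoordFun_unique h y hw

theorem LimHyp.toricCoord_injective (h : Hyp pJ pB pT β ι) (hl : LimHyp pJ pT β u uB q βA) :
    Function.Injective (hl.toricCoord h) := by
  rw [injective_iff_map_eq_one]
  intro y hy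
  apply Subtype.ext
  apply hl.u_inj
  intro n
  rw [hl.toricCoord_spec h y n, hy, map_one, map_one]

/-! ### Equivariance -/

section Equivariant

variable {G : Type*} [Group G] [MulDistribMulAction G A] [MulDistribMulAction G Tinf]
  [∀ n, MulDistribMulAction G (J n)] [∀ n, MulDistribMulAction G (T n)]

/-- If everything is `G`-equivariant and `ker βA` is `G`-stable then the toric coordinate is
`G`-equivariant. -/
theorem LimHyp.toricCoord_smul (h : Hyp pJ pB pT β ι) (hl : LimHyp pJ pT β u uB q βA)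
    (hu : ∀ n (s : G) (y : A), u n (s • y) = s • u n y)
    (hι : ∀ n (s : G) (z : T n), ι n (s • z) = s • ι n z)
    (hq : ∀ n (s : G) (w : Tinf), q n (s • w) = s • q n w)
    (s : G) (y : βA.ker) (hsy : βA (s • (y : A)) = 1) :
    hl.toricCoord h ⟨s • (y : A), hsy⟩ = s • hl.toricCoord h y :=
  hl.toricCoord_unique h _ fun n => by
    rw [hu, hl.toricCoord_spec h y n, hq, hι]

/-- **The character on the `p`-torsion of `ker βA`** (`KL46.LocalData.toric`): if `G` acts on the
`p`-torsion of `Tinf` through `χ` then it acts on the `p`-torsion of `ker βA` through `χ`. -/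
theorem LimHyp.smul_eq_pow_of_pow_eq_one (h : Hyp pJ pB pT β ι) (hl : LimHyp pJ pT β u uB q βA)
    (hu : ∀ n (s : G) (y : A), u n (s • y) = s • u n y)
    (hι : ∀ n (s : G) (z : T n), ι n (s • z) = s • ι n z)
    (hq : ∀ n (s : G) (w : Tinf), q n (s • w) = s • q n w)
    (hβ : ∀ (s : G) (y : A), βA y = 1 → βA (s • y) = 1)
    (p : ℕ) (χ : G → ℕ) (hχ : ∀ (s : G) (w : Tinf), w ^ p = 1 → s • w = w ^ χ s)
    (y : A) (hy : βA y = 1) (hyp : y ^ p = 1) (s : G) : s • y = y ^ χ s := by
  have hw : hl.toricCoord h ⟨y, hy⟩ ^ p = 1 := by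
    rw [← map_pow]
    have : (⟨y, hy⟩ : βA.ker) ^ p = 1 := Subtype.ext (by simpa using hyp)
    rw [this, map_one]
  have h1 : hl.toricCoord h ⟨s • y, hβ s y hy⟩ = hl.toricCoord h (⟨y, hy⟩ ^ χ s) := by
    rw [hl.toricCoord_smul h hu hι hq s ⟨y, hy⟩ (hβ s y hy), hχ s _ hw, map_pow]
  have h2 := hl.toricCoord_injective h h1
  exact congrArg Subtype.val h2

end Equivariant

/-! ### Algebraisation: honest toric points -/

section Alg

/-- **The toric points** (given algebraisation `halg` of the toric classes). -/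
noncomputable def LimHyp.toricPointFun (hl : LimHyp pJ pT β u uB q βA)
    (halg : ∀ w : Tinf, ∃ y : A, ∀ n, u n y = ι n (q n w)) (w : Tinf) : A :=
  (halg w).choose

theorem LimHyp.toricPointFun_spec (hl : LimHyp pJ pT β u uB q βA)
    (halg : ∀ w : Tinf, ∃ y : A, ∀ n, u n y = ι n (q n w)) (w : Tinf) (n : ℕ) :
    u n (hl.toricPointFun halg w) = ι n (q n w) :=
  (halg w).choose_spec n

/-- **The toric map** `Tinf →* A`, `u n (toricPoint w) = ι n (q n w)`. -/
noncomputable def LimHyp.toricPoint (hl : LimHyp pJ pT β u uB q βA)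
    (halg : ∀ w : Tinf, ∃ y : A, ∀ n, u n y = ι n (q n w)) : Tinf →* A where
  toFun := hl.toricPointFun halg
  map_one' := hl.u_ext fun n => by rw [hl.toricPointFun_spec halg, map_one, map_one, map_one]
  map_mul' w w' := hl.u_ext fun n => by
    rw [map_mul, hl.toricPointFun_spec halg, hl.toricPointFun_spec halg,
      hl.toricPointFun_spec halg, map_mul, map_mul]

theorem LimHyp.u_toricPoint (hl : LimHyp pJ pT β u uB q βA)
    (halg : ∀ w : Tinf, ∃ y : A, ∀ n, u n y = ι n (q n w)) (w : Tinf) (n : ℕ) :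
    u n (hl.toricPoint halg w) = ι n (q n w) :=
  hl.toricPointFun_spec halg w n

theorem LimHyp.toricPoint_injective (h : Hyp pJ pB pT β ι) (hl : LimHyp pJ pT β u uB q βA)
    (halg : ∀ w : Tinf, ∃ y : A, ∀ n, u n y = ι n (q n w)) :
    Function.Injective (hl.toricPoint halg) := by
  rw [injective_iff_map_eq_one]
  intro w hw
  apply hl.q_inj
  intro n
  apply h.ι_injective n
  rw [← hl.u_toricPoint halg w n, hw, map_one, map_one]

/-- `βA ∘ toricPoint = 1`, given formal functions for the target. -/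
theorem LimHyp.β_toricPoint (h : Hyp pJ pB pT β ι) (hl : LimHyp pJ pT β u uB q βA)
    (halg : ∀ w : Tinf, ∃ y : A, ∀ n, u n y = ι n (q n w))
    (huB : ∀ y : AB, (∀ n, uB n y = 1) → y = 1) (w : Tinf) : βA (hl.toricPoint halg w) = 1 :=
  huB _ fun n => by rw [hl.uB_β, hl.u_toricPoint halg, h.β_ι]

/-- `ker βA = range toricPoint`. -/
theorem LimHyp.ker_eq_range_toricPoint (h : Hyp pJ pB pT β ι) (hl : LimHyp pJ pT β u uB q βA)
    (halg : ∀ w : Tinf, ∃ y : A, ∀ n, u n y = ι n (q n w))
    (huB : ∀ y : AB, (∀ n, uB n y = 1) → y = 1) : βA.ker = (hl.toricPoint halg).range := by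
  ext y
  rw [MonoidHom.mem_ker, MonoidHom.mem_range]
  constructor
  · intro hy
    refine ⟨hl.toricCoord h ⟨y, hy⟩, hl.u_ext fun n => ?_⟩
    rw [hl.u_toricPoint halg, ← hl.toricCoord_spec h ⟨y, hy⟩ n]
  · rintro ⟨w, rfl⟩
    exact hl.β_toricPoint h halg huB w

/-- the toric coordinate of a toric point. -/
theorem LimHyp.toricCoord_toricPoint (h : Hyp pJ pB pT β ι) (hl : LimHyp pJ pT β u uB q βA)
    (halg : ∀ w : Tinf, ∃ y : A, ∀ n, u n y = ι n (q n w))
    (huB : ∀ y : AB, (∀ n, uB n y = 1) → y = 1) (w : Tinf) :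
    hl.toricCoord h ⟨hl.toricPoint halg w, hl.β_toricPoint h halg huB w⟩ = w :=
  hl.toricCoord_unique h _ fun n => hl.u_toricPoint halg w n

variable {G : Type*} [Group G] [MulDistribMulAction G A] [MulDistribMulAction G Tinf]
  [∀ n, MulDistribMulAction G (J n)] [∀ n, MulDistribMulAction G (T n)]

/-- The toric map is equivariant. -/
theorem LimHyp.toricPoint_smul (hl : LimHyp pJ pT β u uB q βA)
    (halg : ∀ w : Tinf, ∃ y : A, ∀ n, u n y = ι n (q n w))
    (hu : ∀ n (s : G) (y : A), u n (s • y) = s • u n y)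
    (hι : ∀ n (s : G) (z : T n), ι n (s • z) = s • ι n z)
    (hq : ∀ n (s : G) (w : Tinf), q n (s • w) = s • q n w) (s : G) (w : Tinf) :
    hl.toricPoint halg (s • w) = s • hl.toricPoint halg w :=
  hl.u_ext fun n => by
    rw [hl.u_toricPoint halg, hu, hl.u_toricPoint halg, hq, hι]

end Alg

end Limit

end Fermat.Agent.T1B.Toric50.Tower
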