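/-
T1B (S44), sub-cell TORIC50 (helper50), brick T-TORIC, abstract layer: **the toric map by gluing**.
Mathlib + `T1/CechFormal70` (`unitsOne`, `Pkg`, `Jhat`, `PkgHom`) only.

Setting: a Čech package `P : Pkg Λ T0 T1 T01 g` over a ring `Λ` with a NILPOTENT ideal `m` (in the
application `Λ = O/𝔪^n`, `T_j = Λ ⊗ B_j` the charts of the nodal model, in which `π` is nilpotent).
`S_j = T_j[1/s_j]` is the chart with the nodes removed; it carries the BRANCH IDEMPOTENT `ε_j`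
(`1` on the first component of the special fibre, `0` on the second).  The nodes `e : E` are prime
ideals `n_j e` of `T_j` (all nodes lie in the overlap).

* `RegAt 𝔫 I x` : `x ∈ I · O_𝔫` (denominator form, no localisation at primes);
  `exists_of_regAt` : PATCHING (`x ∈ T[1/s]` regular at every maximal ideal containing `s` lies in `T`).
* `Ve m Ts hm 𝔫 ≤ unitsOne (eI m Ts)` : units of `1 + m O_𝔫`; `gHom ε hε : 1 + m → 1 + m Ts`,
  `z ↦ 1 + (z - 1) ε` (`= z` on the first branch, `1` on the second).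
* `Adm hm 𝔫 ε hε z G` : `G / (1 + (z e - 1) ε) ∈ 1 + m O_e` for all `e`; `adm_admProd` : the explicit
  admissible unit `∏ e (1 + (z e - 1) h e)` from functions `h e` separating the nodes
  (`h e ε = h e`, `h e - ε` regular at `e`, `h e` regular at the other nodes); `adm_map`.
* `GlueData S0 S1 S01 P E` and `GlueData.iota hm : (E → unitsOne m) →* P.Jhat m`, the class of
  `G0 / G1`; `iota_eq_of_rep` (any admissible pair computes it), `GlueHom.iota_natural`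
  (naturality for `Pkg.JhatMap`, which covers truncation maps AND semilinear Galois twists),
  `GlueData.iota_firstOrder` (`ι (1 + a) = [1 + ∑ a_e d_e]` for `a` in a square-zero ideal, with
  `d_e = h0 e - h1 e` the connecting homomorphism of the normalisation sequence).
-/
import Mathlib
import Fermat.Agent.T1.CechFormal70.Functorial

set_option autoImplicit false
set_option linter.unusedSectionVars false

namespace Fermat.Agent.T1B.Toric50.Glue

open Fermat.Agent.T1.CechFormal70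

section Chart

variable {T : Type*} [CommRing T] {Ts : Type*} [CommRing Ts] [Algebra T Ts]

/-- `x ∈ I · O_𝔫` for an element `x` of a `T`-algebra `Ts` (in the application `Ts = T[1/s]`):
some denominator outside `𝔫` carries `x` into the image of `I`. -/
def RegAt (𝔫 I : Ideal T) (x : Ts) : Prop :=
  ∃ d : T, d ∉ 𝔫 ∧ ∃ c ∈ I, algebraMap T Ts d * x = algebraMap T Ts c

theorem regAt_algebraMap {𝔫 I : Ideal T} (h𝔫 : 𝔫 ≠ ⊤) {c : T} (hc : c ∈ I) :
    RegAt 𝔫 I (algebraMap T Ts c) :=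
  ⟨1, (Ideal.ne_top_iff_one 𝔫).1 h𝔫, c, hc, by simp⟩

theorem regAt_zero {𝔫 I : Ideal T} (h𝔫 : 𝔫 ≠ ⊤) : RegAt 𝔫 I (0 : Ts) := by
  simpa using regAt_algebraMap (Ts := Ts) h𝔫 (I.zero_mem)

theorem regAt_one {𝔫 : Ideal T} (h𝔫 : 𝔫 ≠ ⊤) : RegAt 𝔫 ⊤ (1 : Ts) := by
  simpa using regAt_algebraMap (Ts := Ts) (I := ⊤) h𝔫 (c := 1) trivial

theorem regAt_mono {𝔫 I J : Ideal T} (hIJ : I ≤ J) {x : Ts} (h : RegAt 𝔫 I x) : RegAt 𝔫 J x := by
  obtain ⟨d, hd, c, hc, h⟩ := h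
  exact ⟨d, hd, c, hIJ hc, h⟩

theorem regAt_top {𝔫 I : Ideal T} {x : Ts} (h : RegAt 𝔫 I x) : RegAt 𝔫 ⊤ x :=
  regAt_mono le_top h

theorem regAt_add {𝔫 I : Ideal T} [𝔫.IsPrime] {x y : Ts} (hx : RegAt 𝔫 I x) (hy : RegAt 𝔫 I y) :
    RegAt 𝔫 I (x + y) := by
  obtain ⟨d, hd, c, hc, h⟩ := hx
  obtain ⟨d', hd', c', hc', h'⟩ := hy
  refine ⟨d * d', fun hmem => ?_, d' * c + d * c', I.add_mem (I.mul_mem_left _ hc) (I.mul_mem_left _ hc'), ?_⟩
  · rcases Ideal.IsPrime.mem_or_mem inferInstance hmem with h1 | h1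
    · exact hd h1
    · exact hd' h1
  · simp only [map_mul, map_add]
    rw [← h, ← h']
    ring

theorem regAt_neg {𝔫 I : Ideal T} {x : Ts} (hx : RegAt 𝔫 I x) : RegAt 𝔫 I (-x) := by
  obtain ⟨d, hd, c, hc, h⟩ := hx
  exact ⟨d, hd, -c, I.neg_mem hc, by rw [mul_neg, h, map_neg]⟩

theorem regAt_sub {𝔫 I : Ideal T} [𝔫.IsPrime] {x y : Ts} (hx : RegAt 𝔫 I x) (hy : RegAt 𝔫 I y) :
    RegAt 𝔫 I (x - y) := by
  rw [sub_eq_add_neg]
  exact regAt_add hx (regAt_neg hy)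

theorem regAt_mul {𝔫 I J : Ideal T} [𝔫.IsPrime] {x y : Ts} (hx : RegAt 𝔫 I x) (hy : RegAt 𝔫 J y) :
    RegAt 𝔫 (I * J) (x * y) := by
  obtain ⟨d, hd, c, hc, h⟩ := hx
  obtain ⟨d', hd', c', hc', h'⟩ := hy
  refine ⟨d * d', fun hmem => ?_, c * c', Ideal.mul_mem_mul hc hc', ?_⟩
  · rcases Ideal.IsPrime.mem_or_mem inferInstance hmem with h1 | h1
    · exact hd h1
    · exact hd' h1
  · simp only [map_mul]
    rw [← h, ← h']
    ring

theorem regAt_mul_left {𝔫 I : Ideal T} [𝔫.IsPrime] {x y : Ts} (hx : RegAt 𝔫 ⊤ x) (hy : RegAt 𝔫 I y) :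
    RegAt 𝔫 I (x * y) := by
  have := regAt_mul hx hy
  rwa [Ideal.top_mul] at this

theorem regAt_mul_right {𝔫 I : Ideal T} [𝔫.IsPrime] {x y : Ts} (hx : RegAt 𝔫 I x) (hy : RegAt 𝔫 ⊤ y) :
    RegAt 𝔫 I (x * y) := by
  rw [mul_comm]
  exact regAt_mul_left hy hx

theorem regAt_mul_self {𝔫 I : Ideal T} [𝔫.IsPrime] {x y : Ts} (hx : RegAt 𝔫 I x) (hy : RegAt 𝔫 I y) :
    RegAt 𝔫 I (x * y) :=
  regAt_mul_left (regAt_top hx) hy

theorem regAt_pow {𝔫 I : Ideal T} [𝔫.IsPrime] {x : Ts} (hx : RegAt 𝔫 I x) :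
    ∀ k : ℕ, 0 < k → RegAt 𝔫 I (x ^ k)
  | 0, h => absurd h (lt_irrefl 0)
  | 1, _ => by simpa using hx
  | (k + 2), _ => by
      rw [pow_succ]
      exact regAt_mul_self (regAt_pow hx (k + 1) (Nat.succ_pos k)) hx

theorem regAt_sum {𝔫 I : Ideal T} [𝔫.IsPrime] {ι : Type*} (s : Finset ι) (f : ι → Ts)
    (h : ∀ i ∈ s, RegAt 𝔫 I (f i)) : RegAt 𝔫 I (∑ i ∈ s, f i) := by
  classical
  induction s using Finset.induction_on with
  | empty => simpa using regAt_zero (Ts := Ts) (I := I) (Ideal.IsPrime.ne_top inferInstance : 𝔫 ≠ ⊤)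
  | insert a s ha ih =>
    rw [Finset.sum_insert ha]
    exact regAt_add (h a (Finset.mem_insert_self a s))
      (ih fun i hi => h i (Finset.mem_insert_of_mem hi))

/-- **Patching.**  If the only maximal ideals containing `s` are the `𝔫 e`, an element `x` of `Ts`
with `s ^ N • x ∈ I` which lies in `I · O_{𝔫 e}` for every `e` comes from `I`. -/
theorem exists_of_regAt {E : Type*} (𝔫 : E → Ideal T) (s : T)
    (hmax : ∀ M : Ideal T, M.IsMaximal → s ∈ M → ∃ e, M = 𝔫 e) {I : Ideal T} {x : Ts}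
    (haway : ∃ (N : ℕ), ∃ a ∈ I, algebraMap T Ts (s ^ N) * x = algebraMap T Ts a)
    (h : ∀ e, RegAt (𝔫 e) I x) : ∃ c ∈ I, algebraMap T Ts c = x := by
  -- the ideal of denominators
  let D : Ideal T :=
    { carrier := {d | ∃ c ∈ I, algebraMap T Ts d * x = algebraMap T Ts c}
      add_mem' := by
        rintro d d' ⟨c, hc, h1⟩ ⟨c', hc', h2⟩
        exact ⟨c + c', I.add_mem hc hc', by rw [map_add, add_mul, h1, h2, map_add]⟩
      zero_mem' := ⟨0, I.zero_mem, by simp⟩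
      smul_mem' := by
        rintro a d ⟨c, hc, h1⟩
        exact ⟨a * c, I.mul_mem_left a hc, by
          rw [smul_eq_mul, map_mul, mul_assoc, h1, map_mul]⟩ }
  by_cases hD : D = ⊤
  · have h1 : (1 : T) ∈ D := by rw [hD]; trivial
    obtain ⟨c, hc, h2⟩ := h1
    exact ⟨c, hc, by simpa using h2.symm⟩
  · exfalso
    obtain ⟨M, hM, hDM⟩ := Ideal.exists_le_maximal D hD
    obtain ⟨N, a, ha, hN⟩ := haway
    have hsN : s ^ N ∈ M := hDM ⟨a, ha, hN⟩
    have hs : s ∈ M := hM.isPrime.mem_of_pow_mem N hsN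
    obtain ⟨e, rfl⟩ := hmax M hM hs
    obtain ⟨d, hd, c, hc, h2⟩ := h e
    exact hd (hDM ⟨c, hc, h2⟩)

end Chart

section Transfer

variable {T T' : Type*} [CommRing T] [CommRing T'] {Ts Ts' : Type*} [CommRing Ts] [CommRing Ts']
  [Algebra T Ts] [Algebra T' Ts']

/-- Transport of `RegAt` along a commutative square of ring homomorphisms. -/
theorem regAt_map (r : T →+* T') (q : Ts →+* Ts')
    (hq : ∀ x : T, q (algebraMap T Ts x) = algebraMap T' Ts' (r x)) {𝔫 : Ideal T} {𝔫' : Ideal T'}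
    (h𝔫 : ∀ d : T, d ∉ 𝔫 → r d ∉ 𝔫') {I : Ideal T} {I' : Ideal T'} (hI : I ≤ I'.comap r) {x : Ts}
    (h : RegAt 𝔫 I x) : RegAt 𝔫' I' (q x) := by
  obtain ⟨d, hd, c, hc, h1⟩ := h
  refine ⟨r d, h𝔫 d hd, r c, hI hc, ?_⟩
  rw [← hq, ← hq, ← map_mul, h1]

end Transfer


section Units

variable {Λ : Type*} [CommRing Λ] {m : Ideal Λ}
variable {T : Type*} [CommRing T] [Algebra Λ T] {Ts : Type*} [CommRing Ts] [Algebra T Ts]
  [Algebra Λ Ts] [IsScalarTower Λ T Ts]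

/-- For `u ∈ 1 + m Ts` (`m` nilpotent) with `u - 1 ∈ I · O_𝔫` also `u⁻¹ - 1 ∈ I · O_𝔫`. -/
theorem regAt_inv_sub_one (hm : IsNilpotent m) {𝔫 I : Ideal T} [𝔫.IsPrime]
    (u : unitsOne (eI m Ts)) (h : RegAt 𝔫 I (((u : Tsˣ) : Ts) - 1)) :
    RegAt 𝔫 I ((((u : Tsˣ)⁻¹ : Tsˣ) : Ts) - 1) := by
  set y : Ts := 1 - ((u : Tsˣ) : Ts) with hy
  have hymem : y ∈ eI m Ts := by
    have h1 : ((u : Tsˣ) : Ts) - 1 ∈ eI m Ts := u.2
    have : y = -(((u : Tsˣ) : Ts) - 1) := by rw [hy]; ring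
    rw [this]
    exact (eI m Ts).neg_mem h1
  obtain ⟨N, hN⟩ := isNilpotent_of_mem (isNilpotent_map (algebraMap Λ Ts) hm) hymem
  have hN1 : y ^ (N + 1) = 0 := by rw [pow_succ, hN, zero_mul]
  have hgeom : ((u : Tsˣ) : Ts) * ∑ i ∈ Finset.range (N + 1), y ^ i = 1 := by
    have h1 := mul_neg_geom_sum y (N + 1)
    rw [hN1, sub_zero] at h1
    have h2 : (1 - y) = ((u : Tsˣ) : Ts) := by rw [hy]; ring
    rw [h2] at h1
    exact h1
  have hinv : (((u : Tsˣ)⁻¹ : Tsˣ) : Ts) = ∑ i ∈ Finset.range (N + 1), y ^ i := by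
    have h3 : (((u : Tsˣ)⁻¹ : Tsˣ) : Ts) * (((u : Tsˣ) : Ts) * ∑ i ∈ Finset.range (N + 1), y ^ i) =
        ∑ i ∈ Finset.range (N + 1), y ^ i := by
      rw [← mul_assoc, Units.inv_mul, one_mul]
    rw [hgeom, mul_one] at h3
    exact h3
  rw [hinv, Finset.sum_range_succ', pow_zero, add_sub_cancel_right]
  apply regAt_sum
  intro i _
  apply regAt_pow _ (i + 1) (Nat.succ_pos i)
  have : y = -(((u : Tsˣ) : Ts) - 1) := by rw [hy]; ring
  rw [this]
  exact regAt_neg h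

variable (m) (Ts) in
/-- The subgroup of `1 + m Ts` of the units `u` with `u - 1 ∈ m · O_𝔫`. -/
def Ve (hm : IsNilpotent m) (𝔫 : Ideal T) [𝔫.IsPrime] : Subgroup (unitsOne (eI m Ts)) where
  carrier := {u | RegAt 𝔫 (eI m T) (((u : Tsˣ) : Ts) - 1)}
  one_mem' := by
    show RegAt 𝔫 (eI m T) ((((1 : unitsOne (eI m Ts)) : Tsˣ) : Ts) - 1)
    simpa using regAt_zero (Ts := Ts) (I := eI m T) (Ideal.IsPrime.ne_top inferInstance : 𝔫 ≠ ⊤)
  mul_mem' := by
    intro a b ha hb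
    show RegAt 𝔫 (eI m T) ((((a * b : unitsOne (eI m Ts)) : Tsˣ) : Ts) - 1)
    have h1 : ((((a * b : unitsOne (eI m Ts)) : Tsˣ) : Ts) - 1) =
        ((a : Tsˣ) : Ts) * (((b : Tsˣ) : Ts) - 1) + (((a : Tsˣ) : Ts) - 1) := by
      push_cast; ring
    rw [h1]
    have ha' : RegAt 𝔫 ⊤ (((a : Tsˣ) : Ts)) := by
      have : ((a : Tsˣ) : Ts) = (((a : Tsˣ) : Ts) - 1) + 1 := by ring
      rw [this]
      exact regAt_add (regAt_top ha) (regAt_one (Ideal.IsPrime.ne_top inferInstance))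
    exact regAt_add (regAt_mul_left ha' hb) ha
  inv_mem' := by
    intro a ha
    exact regAt_inv_sub_one hm a ha

theorem mem_Ve (hm : IsNilpotent m) (𝔫 : Ideal T) [𝔫.IsPrime] (u : unitsOne (eI m Ts)) :
    u ∈ Ve m Ts hm 𝔫 ↔ RegAt 𝔫 (eI m T) (((u : Tsˣ) : Ts) - 1) := Iff.rfl

end Units


section Toric

variable {Λ : Type*} [CommRing Λ] {m : Ideal Λ}
variable {T : Type*} [CommRing T] [Algebra Λ T] {Ts : Type*} [CommRing Ts] [Algebra T Ts]
  [Algebra Λ Ts] [IsScalarTower Λ T Ts]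

theorem one_add_mul_one_add_eq_one {ε a b : Ts} (hε : ε * ε = ε) (hab : a + b + a * b = 0) :
    (1 + a * ε) * (1 + b * ε) = 1 := by
  linear_combination ε * hab + a * b * hε

theorem unitsOne_sub_identity (z : unitsOne m) :
    algebraMap Λ Ts (((z : Λˣ) : Λ) - 1) + algebraMap Λ Ts ((((z : Λˣ)⁻¹ : Λˣ) : Λ) - 1) +
      algebraMap Λ Ts (((z : Λˣ) : Λ) - 1) * algebraMap Λ Ts ((((z : Λˣ)⁻¹ : Λˣ) : Λ) - 1) = 0 := by
  rw [← map_mul, ← map_add, ← map_add]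
  have : (((z : Λˣ) : Λ) - 1) + ((((z : Λˣ)⁻¹ : Λˣ) : Λ) - 1) +
      (((z : Λˣ) : Λ) - 1) * ((((z : Λˣ)⁻¹ : Λˣ) : Λ) - 1) = 0 := by
    have h1 : ((z : Λˣ) : Λ) * (((z : Λˣ)⁻¹ : Λˣ) : Λ) = 1 := Units.mul_inv _
    linear_combination h1
  rw [this, map_zero]

/-- The local toric unit `1 + (z - 1) ε` of `Ts` for an idempotent `ε`. -/
def gUnit (ε : Ts) (hε : ε * ε = ε) (z : unitsOne m) : unitsOne (eI m Ts) :=
  ⟨⟨1 + algebraMap Λ Ts (((z : Λˣ) : Λ) - 1) * ε,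
    1 + algebraMap Λ Ts ((((z : Λˣ)⁻¹ : Λˣ) : Λ) - 1) * ε,
    one_add_mul_one_add_eq_one hε (unitsOne_sub_identity z),
    by
      rw [mul_comm]
      exact one_add_mul_one_add_eq_one hε (unitsOne_sub_identity z)⟩, by
    rw [mem_unitsOne]
    show 1 + algebraMap Λ Ts (((z : Λˣ) : Λ) - 1) * ε - 1 ∈ eI m Ts
    rw [add_sub_cancel_left]
    exact Ideal.mul_mem_right _ _ (Ideal.mem_map_of_mem _ z.2)⟩

@[simp] theorem coe_gUnit (ε : Ts) (hε : ε * ε = ε) (z : unitsOne m) :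
    (((gUnit ε hε z : unitsOne (eI m Ts)) : Tsˣ) : Ts) =
      1 + algebraMap Λ Ts (((z : Λˣ) : Λ) - 1) * ε := rfl

theorem coe_gUnit_inv (ε : Ts) (hε : ε * ε = ε) (z : unitsOne m) :
    ((((gUnit ε hε z : unitsOne (eI m Ts)) : Tsˣ)⁻¹ : Tsˣ) : Ts) =
      1 + algebraMap Λ Ts ((((z : Λˣ)⁻¹ : Λˣ) : Λ) - 1) * ε := rfl

theorem gUnit_one (ε : Ts) (hε : ε * ε = ε) : gUnit (m := m) ε hε 1 = 1 := by
  apply Subtype.ext
  apply Units.ext
  simp

theorem gUnit_mul (ε : Ts) (hε : ε * ε = ε) (z z' : unitsOne m) :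
    gUnit ε hε (z * z') = gUnit ε hε z * gUnit ε hε z' := by
  apply Subtype.ext
  apply Units.ext
  simp only [coe_gUnit, Subgroup.coe_mul, Units.val_mul]
  have : algebraMap Λ Ts (((z : Λˣ) : Λ) * ((z' : Λˣ) : Λ) - 1) =
      algebraMap Λ Ts (((z : Λˣ) : Λ) - 1) + algebraMap Λ Ts (((z' : Λˣ) : Λ) - 1) +
        algebraMap Λ Ts (((z : Λˣ) : Λ) - 1) * algebraMap Λ Ts (((z' : Λˣ) : Λ) - 1) := by
    rw [← map_mul, ← map_add, ← map_add]
    congr 1
    ring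
  rw [this]
  linear_combination (-(algebraMap Λ Ts (((z : Λˣ) : Λ) - 1) *
    algebraMap Λ Ts (((z' : Λˣ) : Λ) - 1))) * hε

/-- `z ↦ 1 + (z - 1) ε` as a homomorphism. -/
def gHom (ε : Ts) (hε : ε * ε = ε) : unitsOne m →* unitsOne (eI m Ts) where
  toFun := gUnit ε hε
  map_one' := gUnit_one ε hε
  map_mul' := gUnit_mul ε hε

variable {E : Type*}

/-- `G ∈ (1 + m Ts)ˣ` is ADMISSIBLE for `z : E → 1 + m`: near every `e`, `G` is the local toric unit
`1 + (z e - 1) ε` times a unit of `1 + m O_e`. -/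
def Adm (hm : IsNilpotent m) (𝔫 : E → Ideal T) [∀ e, (𝔫 e).IsPrime] (ε : Ts) (hε : ε * ε = ε)
    (z : E → unitsOne m) (G : unitsOne (eI m Ts)) : Prop :=
  ∀ e, G * (gHom ε hε (z e))⁻¹ ∈ Ve m Ts hm (𝔫 e)

variable (hm : IsNilpotent m) (𝔫 : E → Ideal T) [∀ e, (𝔫 e).IsPrime] (ε : Ts) (hε : ε * ε = ε)

theorem adm_one : Adm hm 𝔫 ε hε 1 1 := by
  intro e
  simp only [Pi.one_apply, map_one, inv_one, mul_one]
  exact Subgroup.one_mem _

theorem adm_mul {z z' : E → unitsOne m} {G G' : unitsOne (eI m Ts)}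
    (h : Adm hm 𝔫 ε hε z G) (h' : Adm hm 𝔫 ε hε z' G') : Adm hm 𝔫 ε hε (z * z') (G * G') := by
  intro e
  have : G * G' * (gHom ε hε ((z * z') e))⁻¹ =
      (G * (gHom ε hε (z e))⁻¹) * (G' * (gHom ε hε (z' e))⁻¹) := by
    rw [Pi.mul_apply, map_mul, mul_inv]
    exact mul_mul_mul_comm _ _ _ _
  rw [this]
  exact Subgroup.mul_mem _ (h e) (h' e)

theorem adm_div_mem {z : E → unitsOne m} {G G' : unitsOne (eI m Ts)}
    (h : Adm hm 𝔫 ε hε z G) (h' : Adm hm 𝔫 ε hε z G') (e : E) :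
    G / G' ∈ Ve m Ts hm (𝔫 e) := by
  have : G / G' = (G * (gHom ε hε (z e))⁻¹) * (G' * (gHom ε hε (z e))⁻¹)⁻¹ := by
    rw [div_eq_mul_inv, mul_inv, inv_inv]
    rw [mul_mul_mul_comm, inv_mul_cancel, mul_one]
  rw [this]
  exact Subgroup.mul_mem _ (h e) (Subgroup.inv_mem _ (h' e))

theorem eI_eq_map : eI m Ts = (eI m T).map (algebraMap T Ts) := by
  unfold eI
  rw [Ideal.map_map, ← IsScalarTower.algebraMap_eq]

/-- **Patching for units**: a unit of `1 + m Ts` which lies in `1 + m O_e` for every `e` comes from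
`1 + m T`. -/
theorem exists_unitsOne_of_forall_mem_Ve (s : T) [IsLocalization.Away s Ts]
    (hmax : ∀ M : Ideal T, M.IsMaximal → s ∈ M → ∃ e, M = 𝔫 e)
    (w : unitsOne (eI m Ts)) (hw : ∀ e, w ∈ Ve m Ts hm (𝔫 e)) :
    ∃ u : unitsOne (eI m T), ((u : Tˣ) : T) - 1 ∈ eI m T ∧
      algebraMap T Ts ((u : Tˣ) : T) = ((w : Tsˣ) : Ts) := by
  have hx : ((w : Tsˣ) : Ts) - 1 ∈ (eI m T).map (algebraMap T Ts) := by
    rw [← eI_eq_map]; exact w.2
  rw [IsLocalization.mem_map_algebraMap_iff (Submonoid.powers s) Ts] at hx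
  obtain ⟨⟨⟨a, ha⟩, ⟨_, N, rfl⟩⟩, h1⟩ := hx
  obtain ⟨c, hc, h2⟩ := exists_of_regAt (Ts := Ts) 𝔫 s hmax (I := eI m T)
    (x := ((w : Tsˣ) : Ts) - 1) ⟨N, a, ha, by rw [mul_comm]; exact h1⟩ hw
  refine ⟨oneAddUnit (isNilpotent_map (algebraMap Λ T) hm) c hc, ?_, ?_⟩
  · rw [coe_oneAddUnit, add_sub_cancel_left]; exact hc
  · rw [coe_oneAddUnit, map_add, map_one, h2]; ring

/-- The explicit admissible unit `∏ e, (1 + (z e - 1) h e)` built from functions `h e` separating the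
nodes: `h e ≡ ε` near `e`, `h e` regular at the other nodes, `h e ∈ ε Ts`. -/
noncomputable def admProd [Fintype E] (h : E → Ts) (z : E → unitsOne m) : unitsOne (eI m Ts) :=
  ∏ e, oneAddUnit (isNilpotent_map (algebraMap Λ Ts) hm)
    (algebraMap Λ Ts (((z e : Λˣ) : Λ) - 1) * h e)
    (Ideal.mul_mem_right _ _ (Ideal.mem_map_of_mem _ (z e).2))

theorem adm_admProd [Fintype E] [DecidableEq E] (h : E → Ts)
    (hhε : ∀ e, h e * ε = h e) (hh1 : ∀ e, RegAt (𝔫 e) ⊤ (h e - ε))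
    (hh2 : ∀ e e', e' ≠ e → RegAt (𝔫 e') ⊤ (h e)) (z : E → unitsOne m) :
    Adm hm 𝔫 ε hε z (admProd hm h z) := by
  have hnil : IsNilpotent (eI m Ts) := isNilpotent_map (algebraMap Λ Ts) hm
  have hmem : ∀ e, algebraMap Λ Ts (((z e : Λˣ) : Λ) - 1) * h e ∈ eI m Ts := fun e =>
    Ideal.mul_mem_right _ _ (Ideal.mem_map_of_mem _ (z e).2)
  let F : E → unitsOne (eI m Ts) := fun e => oneAddUnit hnil _ (hmem e)
  have hcT : ∀ e, algebraMap Λ Ts (((z e : Λˣ) : Λ) - 1) =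
      algebraMap T Ts (algebraMap Λ T (((z e : Λˣ) : Λ) - 1)) := fun e => by
    rw [← IsScalarTower.algebraMap_apply]
  have hcmem : ∀ e, algebraMap Λ T (((z e : Λˣ) : Λ) - 1) ∈ eI m T := fun e =>
    Ideal.mem_map_of_mem _ (z e).2
  intro e
  have hne : (𝔫 e) ≠ ⊤ := Ideal.IsPrime.ne_top inferInstance
  show (∏ e, F e) * _ ∈ _
  rw [← Finset.mul_prod_erase Finset.univ F (Finset.mem_univ e), mul_right_comm]
  refine Subgroup.mul_mem _ ?_ (Subgroup.prod_mem _ fun e' he' => ?_)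
  · -- the factor at `e`
    rw [mem_Ve]
    have hval : ((((F e * (gHom ε hε (z e))⁻¹ : unitsOne (eI m Ts)) : Tsˣ) : Ts) - 1) =
        algebraMap Λ Ts (((z e : Λˣ) : Λ) - 1) *
          (1 + algebraMap Λ Ts ((((z e : Λˣ)⁻¹ : Λˣ) : Λ) - 1)) * (h e - ε) := by
      have e1 : (((F e * (gHom ε hε (z e))⁻¹ : unitsOne (eI m Ts)) : Tsˣ) : Ts) =
          (1 + algebraMap Λ Ts (((z e : Λˣ) : Λ) - 1) * h e) *
            (1 + algebraMap Λ Ts ((((z e : Λˣ)⁻¹ : Λˣ) : Λ) - 1) * ε) := rfl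
      rw [e1]
      linear_combination ε * (unitsOne_sub_identity (Ts := Ts) (z e)) +
        algebraMap Λ Ts (((z e : Λˣ) : Λ) - 1) *
          algebraMap Λ Ts ((((z e : Λˣ)⁻¹ : Λˣ) : Λ) - 1) * (hhε e)
    rw [hval]
    apply regAt_mul_right _ (hh1 e)
    apply regAt_mul_right
    · rw [hcT]; exact regAt_algebraMap hne (hcmem e)
    · have : (1 + algebraMap Λ Ts ((((z e : Λˣ)⁻¹ : Λˣ) : Λ) - 1)) =
          algebraMap T Ts (algebraMap Λ T ((((z e : Λˣ)⁻¹ : Λˣ) : Λ))) := by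
        rw [← IsScalarTower.algebraMap_apply, map_sub, map_one]; ring
      rw [this]
      exact regAt_algebraMap hne trivial
  · -- the other factors
    rw [mem_Ve]
    have hval : (((F e' : unitsOne (eI m Ts)) : Tsˣ) : Ts) - 1 =
        algebraMap Λ Ts (((z e' : Λˣ) : Λ) - 1) * h e' := by
      show 1 + _ - 1 = _
      rw [add_sub_cancel_left]
    rw [hval, hcT]
    exact regAt_mul_right (regAt_algebraMap hne (hcmem e'))
      (hh2 e' e (Finset.ne_of_mem_erase he').symm)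

/-- **Existence of admissible units.** -/
theorem exists_adm [Fintype E] [DecidableEq E]
    (hsep : ∀ e, ∃ h : Ts, h * ε = h ∧ RegAt (𝔫 e) ⊤ (h - ε) ∧
      ∀ e', e' ≠ e → RegAt (𝔫 e') ⊤ h) (z : E → unitsOne m) :
    ∃ G : unitsOne (eI m Ts), Adm hm 𝔫 ε hε z G := by
  choose h hhε hh1 hh2 using hsep
  exact ⟨admProd hm h z, adm_admProd hm 𝔫 ε hε h hhε hh1 hh2 z⟩


section AdmMap

variable {Λ' : Type*} [CommRing Λ'] {m' : Ideal Λ'}
variable {T' : Type*} [CommRing T'] [Algebra Λ' T'] {Ts' : Type*} [CommRing Ts'] [Algebra T' Ts']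
  [Algebra Λ' Ts'] [IsScalarTower Λ' T' Ts']

theorem algebraMap_comm_of_tower (f : Λ →+* Λ') (r : T →+* T') (k : Ts →+* Ts')
    (hr : ∀ a, r (algebraMap Λ T a) = algebraMap Λ' T' (f a))
    (hk : ∀ x, k (algebraMap T Ts x) = algebraMap T' Ts' (r x)) (a : Λ) :
    k (algebraMap Λ Ts a) = algebraMap Λ' Ts' (f a) := by
  rw [IsScalarTower.algebraMap_apply Λ T Ts, hk, hr, ← IsScalarTower.algebraMap_apply]

/-- Admissibility is preserved by a morphism of charts. -/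
theorem adm_map (hm' : IsNilpotent m') (𝔫' : E → Ideal T') [∀ e, (𝔫' e).IsPrime] (ε' : Ts')
    (hε' : ε' * ε' = ε') (f : Λ →+* Λ') (r : T →+* T') (k : Ts →+* Ts')
    (hr : ∀ a, r (algebraMap Λ T a) = algebraMap Λ' T' (f a))
    (hk : ∀ x, k (algebraMap T Ts x) = algebraMap T' Ts' (r x)) (hkε : k ε = ε')
    (hn : ∀ e d, d ∉ 𝔫 e → r d ∉ 𝔫' e) (hmm : m ≤ m'.comap f)
    {z : E → unitsOne m} {G : unitsOne (eI m Ts)} (h : Adm hm 𝔫 ε hε z G) :
    Adm hm' 𝔫' ε' hε' (fun e => unitsOneMap f hmm (z e))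
      (unitsOneMap k (eI_le_comap_of_comm k (algebraMap_comm_of_tower f r k hr hk) hmm) G) := by
  intro e
  set ku := unitsOneMap k (eI_le_comap_of_comm (m := m) (m' := m') k
    (algebraMap_comm_of_tower f r k hr hk) hmm) with hku
  have hg : ku (gHom ε hε (z e)) = gHom ε' hε' (unitsOneMap f hmm (z e)) := by
    apply Subtype.ext
    apply Units.ext
    show k (1 + algebraMap Λ Ts _ * ε) = 1 + algebraMap Λ' Ts' _ * ε'
    rw [map_add, map_one, map_mul, algebraMap_comm_of_tower f r k hr hk, hkε, map_sub, map_one]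
    rfl
  have h1 : ku G * (gHom ε' hε' (unitsOneMap f hmm (z e)))⁻¹ = ku (G * (gHom ε hε (z e))⁻¹) := by
    rw [map_mul, map_inv, hg]
  rw [h1, mem_Ve]
  have h2 := h e
  rw [mem_Ve] at h2
  have := regAt_map r k hk (𝔫 := 𝔫 e) (𝔫' := 𝔫' e) (hn e)
    (eI_le_comap_of_comm (m := m) (m' := m') r hr hmm) h2
  rw [map_sub, map_one] at this
  exact this

end AdmMap

end Toric



section Glue

variable {Λ : Type*} [CommRing Λ] {m : Ideal Λ}
variable {T0 T1 T01 : Type*} [CommRing T0] [CommRing T1] [CommRing T01]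
  [Algebra Λ T0] [Algebra Λ T1] [Algebra Λ T01] {g : ℕ}
variable (S0 S1 S01 : Type*) [CommRing S0] [CommRing S1] [CommRing S01]
  [Algebra T0 S0] [Algebra T1 S1] [Algebra T01 S01]
  [Algebra Λ S0] [Algebra Λ S1] [Algebra Λ S01]
  [IsScalarTower Λ T0 S0] [IsScalarTower Λ T1 S1] [IsScalarTower Λ T01 S01]

/-- **Gluing data for the toric map** over a Čech package `P`: the three charts with the
supersingular function `s_j` inverted (`S_j = T_j[1/s_j]`), the nodes `E` (all of them in the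
overlap, hence in both charts) as prime ideals, the branch idempotent `ε_j ∈ S_j` (`1` on the first
component, `0` on the second) and functions separating the nodes. -/
structure GlueData (P : Pkg Λ T0 T1 T01 g) (E : Type*) where
  n0 : E → Ideal T0
  n1 : E → Ideal T1
  n01 : E → Ideal T01
  prime0 : ∀ e, (n0 e).IsPrime
  prime1 : ∀ e, (n1 e).IsPrime
  prime01 : ∀ e, (n01 e).IsPrime
  s0 : T0
  s1 : T1
  s01 : T01
  loc0 : IsLocalization.Away s0 S0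
  loc1 : IsLocalization.Away s1 S1
  loc01 : IsLocalization.Away s01 S01
  max0 : ∀ M : Ideal T0, M.IsMaximal → s0 ∈ M → ∃ e, M = n0 e
  max1 : ∀ M : Ideal T1, M.IsMaximal → s1 ∈ M → ∃ e, M = n1 e
  max01 : ∀ M : Ideal T01, M.IsMaximal → s01 ∈ M → ∃ e, M = n01 e
  ε0 : S0
  ε1 : S1
  ε01 : S01
  idem0 : ε0 * ε0 = ε0
  idem1 : ε1 * ε1 = ε1
  idem01 : ε01 * ε01 = ε01
  q0 : S0 →+* S01
  q1 : S1 →+* S01
  q0_comm : ∀ x : T0, q0 (algebraMap T0 S0 x) = algebraMap T01 S01 (P.r0 x)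
  q1_comm : ∀ x : T1, q1 (algebraMap T1 S1 x) = algebraMap T01 S01 (P.r1 x)
  q0_ε : q0 ε0 = ε01
  q1_ε : q1 ε1 = ε01
  n0_eq : ∀ e, n0 e = (n01 e).comap (P.r0 : T0 →+* T01)
  n1_eq : ∀ e, n1 e = (n01 e).comap (P.r1 : T1 →+* T01)
  sep0 : ∀ e, ∃ h : S0, h * ε0 = h ∧ RegAt (n0 e) ⊤ (h - ε0) ∧ ∀ e', e' ≠ e → RegAt (n0 e') ⊤ h
  sep1 : ∀ e, ∃ h : S1, h * ε1 = h ∧ RegAt (n1 e) ⊤ (h - ε1) ∧ ∀ e', e' ≠ e → RegAt (n1 e') ⊤ h
  inj01 : Function.Injective (algebraMap T01 S01)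

namespace GlueData

variable {S0 S1 S01}
variable {P : Pkg Λ T0 T1 T01 g} {E : Type*} (D : GlueData S0 S1 S01 P E)

attribute [instance] GlueData.prime0 GlueData.prime1 GlueData.prime01

theorem q0_algebraMap (a : Λ) : D.q0 (algebraMap Λ S0 a) = algebraMap Λ S01 a := by
  rw [IsScalarTower.algebraMap_apply Λ T0 S0, D.q0_comm, AlgHom.commutes,
    ← IsScalarTower.algebraMap_apply]

theorem q1_algebraMap (a : Λ) : D.q1 (algebraMap Λ S1 a) = algebraMap Λ S01 a := by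
  rw [IsScalarTower.algebraMap_apply Λ T1 S1, D.q1_comm, AlgHom.commutes,
    ← IsScalarTower.algebraMap_apply]

/-- `q0` on the units congruent to `1`. -/
def q0u : unitsOne (eI m S0) →* unitsOne (eI m S01) :=
  unitsOneMap D.q0 (eI_le_comap_of_comm (f := RingHom.id Λ) D.q0 D.q0_algebraMap le_rfl)

/-- `q1` on the units congruent to `1`. -/
def q1u : unitsOne (eI m S1) →* unitsOne (eI m S01) :=
  unitsOneMap D.q1 (eI_le_comap_of_comm (f := RingHom.id Λ) D.q1 D.q1_algebraMap le_rfl)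

theorem q0u_gHom (z : unitsOne m) :
    D.q0u (gHom D.ε0 D.idem0 z) = gHom D.ε01 D.idem01 z := by
  apply Subtype.ext
  apply Units.ext
  show D.q0 (1 + algebraMap Λ S0 _ * D.ε0) = 1 + algebraMap Λ S01 _ * D.ε01
  rw [map_add, map_one, map_mul, D.q0_algebraMap, D.q0_ε]

theorem q1u_gHom (z : unitsOne m) :
    D.q1u (gHom D.ε1 D.idem1 z) = gHom D.ε01 D.idem01 z := by
  apply Subtype.ext
  apply Units.ext
  show D.q1 (1 + algebraMap Λ S1 _ * D.ε1) = 1 + algebraMap Λ S01 _ * D.ε01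
  rw [map_add, map_one, map_mul, D.q1_algebraMap, D.q1_ε]

theorem q0u_mem_Ve (hm : IsNilpotent m) (e : E) {u : unitsOne (eI m S0)}
    (hu : u ∈ Ve m S0 hm (D.n0 e)) : D.q0u u ∈ Ve m S01 hm (D.n01 e) := by
  rw [mem_Ve] at hu ⊢
  have := regAt_map (P.r0 : T0 →+* T01) D.q0 D.q0_comm (𝔫 := D.n0 e) (𝔫' := D.n01 e)
    (fun d hd => by rw [D.n0_eq e] at hd; exact hd) (P.eI_le_comap_r0 m) hu
  rw [map_sub, map_one] at this
  exact this

theorem q1u_mem_Ve (hm : IsNilpotent m) (e : E) {u : unitsOne (eI m S1)}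
    (hu : u ∈ Ve m S1 hm (D.n1 e)) : D.q1u u ∈ Ve m S01 hm (D.n01 e) := by
  rw [mem_Ve] at hu ⊢
  have := regAt_map (P.r1 : T1 →+* T01) D.q1 D.q1_comm (𝔫 := D.n1 e) (𝔫' := D.n01 e)
    (fun d hd => by rw [D.n1_eq e] at hd; exact hd) (P.eI_le_comap_r1 m) hu
  rw [map_sub, map_one] at this
  exact this

/-- A triple `(G0, G1, u)` REPRESENTS the toric class of `z`: `G_j` admissible on the chart `j` and
`u ∈ 1 + m T01` is the (unique) element with image `G0 / G1` on the punctured overlap. -/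
def Rep (hm : IsNilpotent m) (z : E → unitsOne m) (u : unitsOne (eI m T01)) : Prop :=
  ∃ (G0 : unitsOne (eI m S0)) (G1 : unitsOne (eI m S1)),
    Adm hm D.n0 D.ε0 D.idem0 z G0 ∧ Adm hm D.n1 D.ε1 D.idem1 z G1 ∧
      algebraMap T01 S01 ((u : T01ˣ) : T01) * (((D.q1u G1 : unitsOne (eI m S01)) : S01ˣ) : S01) =
        (((D.q0u G0 : unitsOne (eI m S01)) : S01ˣ) : S01)

theorem exists_rep [Fintype E] [DecidableEq E] (hm : IsNilpotent m) (z : E → unitsOne m) :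
    ∃ u, D.Rep hm z u := by
  obtain ⟨G0, hG0⟩ := exists_adm hm D.n0 D.ε0 D.idem0 D.sep0 z
  obtain ⟨G1, hG1⟩ := exists_adm hm D.n1 D.ε1 D.idem1 D.sep1 z
  have hw : ∀ e, D.q0u G0 / D.q1u G1 ∈ Ve m S01 hm (D.n01 e) := by
    intro e
    have h0 := D.q0u_mem_Ve hm e (hG0 e)
    have h1 := D.q1u_mem_Ve hm e (hG1 e)
    rw [map_mul, map_inv, q0u_gHom] at h0
    rw [map_mul, map_inv, q1u_gHom] at h1
    have : D.q0u G0 / D.q1u G1 =
        (D.q0u G0 * (gHom D.ε01 D.idem01 (z e))⁻¹) * (D.q1u G1 * (gHom D.ε01 D.idem01 (z e))⁻¹)⁻¹ := by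
      rw [div_eq_mul_inv, mul_inv, inv_inv, mul_mul_mul_comm, inv_mul_cancel, mul_one]
    rw [this]
    exact Subgroup.mul_mem _ h0 (Subgroup.inv_mem _ h1)
  have := D.loc01
  obtain ⟨u, -, hu⟩ := exists_unitsOne_of_forall_mem_Ve hm D.n01 D.s01 D.max01 _ hw
  refine ⟨u, G0, G1, hG0, hG1, ?_⟩
  rw [hu, div_eq_mul_inv]
  simp only [Subgroup.coe_mul, Units.val_mul, Subgroup.coe_inv]
  rw [mul_assoc, Units.inv_mul, mul_one]

theorem rep_one (hm : IsNilpotent m) : D.Rep hm (1 : E → unitsOne m) 1 :=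
  ⟨1, 1, adm_one hm D.n0 D.ε0 D.idem0, adm_one hm D.n1 D.ε1 D.idem1, by simp⟩

theorem rep_mul (hm : IsNilpotent m) {z z' : E → unitsOne m} {u u' : unitsOne (eI m T01)}
    (h : D.Rep hm z u) (h' : D.Rep hm z' u') : D.Rep hm (z * z') (u * u') := by
  obtain ⟨G0, G1, a0, a1, e⟩ := h
  obtain ⟨G0', G1', a0', a1', e'⟩ := h'
  refine ⟨G0 * G0', G1 * G1', adm_mul hm D.n0 D.ε0 D.idem0 a0 a0',
    adm_mul hm D.n1 D.ε1 D.idem1 a1 a1', ?_⟩
  simp only [map_mul, Subgroup.coe_mul, Units.val_mul]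
  rw [← e, ← e']
  ring

/-- Two representatives of the same `z` have the same class in `Ĵ`. -/
theorem cls_eq_of_rep (hm : IsNilpotent m) {z : E → unitsOne m} {u u' : unitsOne (eI m T01)}
    (h : D.Rep hm z u) (h' : D.Rep hm z u') : P.cls m u = P.cls m u' := by
  obtain ⟨G0, G1, a0, a1, e⟩ := h
  obtain ⟨G0', G1', a0', a1', e'⟩ := h'
  have := D.loc0
  have := D.loc1
  obtain ⟨w0, -, hw0⟩ := exists_unitsOne_of_forall_mem_Ve hm D.n0 D.s0 D.max0 (G0' / G0)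
    (adm_div_mem hm D.n0 D.ε0 D.idem0 a0' a0)
  obtain ⟨w1, -, hw1⟩ := exists_unitsOne_of_forall_mem_Ve hm D.n1 D.s1 D.max1 (G1 / G1')
    (adm_div_mem hm D.n1 D.ε1 D.idem1 a1 a1')
  rw [P.cls_eq_cls_iff]
  refine ⟨w0, w1, ?_⟩
  apply Units.ext
  apply D.inj01
  simp only [Units.val_mul, Units.coe_map, MonoidHom.coe_coe, map_mul]
  rw [← D.q0_comm, ← D.q1_comm, hw0, hw1]
  -- an identity in `S01`
  have hG0 : (((G0' / G0 : unitsOne (eI m S0)) : S0ˣ) : S0) * (((G0 : unitsOne (eI m S0)) : S0ˣ) : S0) =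
      (((G0' : unitsOne (eI m S0)) : S0ˣ) : S0) := by
    rw [← Units.val_mul, ← Subgroup.coe_mul, div_mul_cancel]
  have hG1 : (((G1 / G1' : unitsOne (eI m S1)) : S1ˣ) : S1) * (((G1' : unitsOne (eI m S1)) : S1ˣ) : S1) =
      (((G1 : unitsOne (eI m S1)) : S1ˣ) : S1) := by
    rw [← Units.val_mul, ← Subgroup.coe_mul, div_mul_cancel]
  have hG0' := congrArg D.q0 hG0
  have hG1' := congrArg D.q1 hG1
  rw [map_mul] at hG0' hG1'
  have e2 : algebraMap T01 S01 ((u : T01ˣ) : T01) * D.q1 (((G1 : unitsOne (eI m S1)) : S1ˣ) : S1) =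
      D.q0 (((G0 : unitsOne (eI m S0)) : S0ˣ) : S0) := e
  have e2' : algebraMap T01 S01 ((u' : T01ˣ) : T01) * D.q1 (((G1' : unitsOne (eI m S1)) : S1ˣ) : S1) =
      D.q0 (((G0' : unitsOne (eI m S0)) : S0ˣ) : S0) := e'
  -- cancel the unit `q1 G1'`
  have hunit : IsUnit (D.q1 (((G1' : unitsOne (eI m S1)) : S1ˣ) : S1)) :=
    (Units.isUnit (G1' : S1ˣ)).map D.q1
  apply hunit.mul_right_cancel
  rw [e2', ← hG0', ← e2, ← hG1']
  ring

section Iota

variable [Fintype E] [DecidableEq E]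

/-- **The toric map** `ι : (E → 1 + m) → Ĵ(Λ, m)`: the class of `G0 / G1` for admissible units
`G_j` on the two charts. -/
noncomputable def iota (hm : IsNilpotent m) : (E → unitsOne m) →* P.Jhat m where
  toFun z := P.cls m (Classical.choose (D.exists_rep hm z))
  map_one' := by
    rw [D.cls_eq_of_rep hm (Classical.choose_spec (D.exists_rep hm 1)) (D.rep_one hm), map_one]
  map_mul' z z' := by
    rw [← map_mul]
    exact D.cls_eq_of_rep hm (Classical.choose_spec (D.exists_rep hm (z * z')))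
      (D.rep_mul hm (Classical.choose_spec (D.exists_rep hm z))
        (Classical.choose_spec (D.exists_rep hm z')))

theorem iota_eq_of_rep (hm : IsNilpotent m) {z : E → unitsOne m} {u : unitsOne (eI m T01)}
    (h : D.Rep hm z u) : D.iota hm z = P.cls m u :=
  D.cls_eq_of_rep hm (Classical.choose_spec (D.exists_rep hm z)) h

theorem exists_rep_iota (hm : IsNilpotent m) (z : E → unitsOne m) :
    ∃ u, D.Rep hm z u ∧ D.iota hm z = P.cls m u := by
  obtain ⟨u, hu⟩ := D.exists_rep hm z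
  exact ⟨u, hu, D.iota_eq_of_rep hm hu⟩

end Iota

end GlueData

/-! ### First order -/

section FirstOrder

theorem prod_one_add_eq_of_mul_eq_zero {R ι : Type*} [CommRing R] (x : ι → R)
    (h : ∀ i j, x i * x j = 0) (s : Finset ι) : ∏ i ∈ s, (1 + x i) = 1 + ∑ i ∈ s, x i := by
  classical
  induction s using Finset.induction_on with
  | empty => simp
  | insert a s ha ih =>
    rw [Finset.prod_insert ha, Finset.sum_insert ha, ih]
    have : x a * ∑ i ∈ s, x i = 0 := by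
      rw [Finset.mul_sum]
      exact Finset.sum_eq_zero fun i _ => h a i
    linear_combination this

theorem sum_mul_sum_eq_zero {R ι : Type*} [CommRing R] (α X Y : ι → R)
    (h : ∀ i j, α i * α j = 0) (s : Finset ι) :
    (∑ i ∈ s, α i * X i) * (∑ i ∈ s, α i * Y i) = 0 := by
  rw [Finset.sum_mul_sum]
  refine Finset.sum_eq_zero fun i _ => Finset.sum_eq_zero fun j _ => ?_
  have := h i j
  linear_combination X i * Y j * this

variable {S0 S1 S01}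
variable {P : Pkg Λ T0 T1 T01 g} {E : Type*} [Fintype E] [DecidableEq E]
  (D : GlueData S0 S1 S01 P E)

theorem coe_admProd_of_sq_zero {Ts : Type*} [CommRing Ts] [Algebra Λ Ts]
    (hm : IsNilpotent m) (h : E → Ts)
    (z : E → unitsOne m)
    (hz : ∀ e e', (((z e : Λˣ) : Λ) - 1) * (((z e' : Λˣ) : Λ) - 1) = 0) :
    (((admProd hm h z : unitsOne (eI m Ts)) : Tsˣ) : Ts) =
      1 + ∑ e, algebraMap Λ Ts (((z e : Λˣ) : Λ) - 1) * h e := by
  have h1 : (((admProd hm h z : unitsOne (eI m Ts)) : Tsˣ) : Ts) =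
      ∏ e, (1 + algebraMap Λ Ts (((z e : Λˣ) : Λ) - 1) * h e) := by
    unfold admProd
    rw [SubmonoidClass.coe_finsetProd, Units.coe_prod]
    rfl
  rw [h1, prod_one_add_eq_of_mul_eq_zero]
  intro i j
  have := congrArg (algebraMap Λ Ts) (hz i j)
  rw [map_mul, map_zero] at this
  linear_combination h i * h j * this

/-- **First-order formula.**  For `a : E → I` with `I ≤ m`, `I² = 0`, the toric class of `1 + a` is
represented by `1 + ∑ a_e d_e`, where `d_e ∈ T01` restricts to `h0 e - h1 e` on the punctured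
overlap for functions `h_j e` separating the nodes on the chart `j` (the connecting homomorphism
of the normalisation sequence). -/
theorem GlueData.rep_firstOrder (hm : IsNilpotent m) {I : Ideal Λ} (hI : I ≤ m)
    (hII : ∀ a b, a ∈ I → b ∈ I → a * b = 0) (a : E → Λ) (ha : ∀ e, a e ∈ I)
    (h0 : E → S0) (h0ε : ∀ e, h0 e * D.ε0 = h0 e) (h01 : ∀ e, RegAt (D.n0 e) ⊤ (h0 e - D.ε0))
    (h02 : ∀ e e', e' ≠ e → RegAt (D.n0 e') ⊤ (h0 e))
    (h1 : E → S1) (h1ε : ∀ e, h1 e * D.ε1 = h1 e) (h11 : ∀ e, RegAt (D.n1 e) ⊤ (h1 e - D.ε1))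
    (h12 : ∀ e e', e' ≠ e → RegAt (D.n1 e') ⊤ (h1 e))
    (d : E → T01) (hd : ∀ e, algebraMap T01 S01 (d e) = D.q0 (h0 e) - D.q1 (h1 e)) :
    D.Rep hm (fun e => oneAddUnit hm (a e) (hI (ha e)))
      (oneAddUnit (isNilpotent_map (algebraMap Λ T01) hm) (∑ e, algebraMap Λ T01 (a e) * d e)
        (Ideal.sum_mem _ fun e _ => Ideal.mul_mem_right _ _ (Ideal.mem_map_of_mem _ (hI (ha e))))) := by
  set z : E → unitsOne m := fun e => oneAddUnit hm (a e) (hI (ha e)) with hz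
  have hza : ∀ e, ((z e : Λˣ) : Λ) - 1 = a e := fun e => by
    show 1 + a e - 1 = a e
    ring
  have hzz : ∀ e e', (((z e : Λˣ) : Λ) - 1) * (((z e' : Λˣ) : Λ) - 1) = 0 := fun e e' => by
    rw [hza, hza]; exact hII _ _ (ha e) (ha e')
  refine ⟨admProd hm h0 z, admProd hm h1 z,
    adm_admProd hm D.n0 D.ε0 D.idem0 h0 h0ε h01 h02 z,
    adm_admProd hm D.n1 D.ε1 D.idem1 h1 h1ε h11 h12 z, ?_⟩
  have e0 : (((D.q0u (admProd hm h0 z) : unitsOne (eI m S01)) : S01ˣ) : S01) =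
      D.q0 (((admProd hm h0 z : unitsOne (eI m S0)) : S0ˣ) : S0) := rfl
  have e1 : (((D.q1u (admProd hm h1 z) : unitsOne (eI m S01)) : S01ˣ) : S01) =
      D.q1 (((admProd hm h1 z : unitsOne (eI m S1)) : S1ˣ) : S1) := rfl
  rw [e0, e1, coe_admProd_of_sq_zero hm h0 z hzz, coe_admProd_of_sq_zero hm h1 z hzz,
    coe_oneAddUnit]
  simp only [map_add, map_one, map_sum, map_mul, D.q0_algebraMap, D.q1_algebraMap, hza]
  have hα : ∀ e e', algebraMap Λ S01 (a e) * algebraMap Λ S01 (a e') = 0 := fun e e' => by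
    rw [← map_mul, hII _ _ (ha e) (ha e'), map_zero]
  have hΛ : ∀ e, algebraMap T01 S01 (algebraMap Λ T01 (a e)) = algebraMap Λ S01 (a e) := fun e => by
    rw [← IsScalarTower.algebraMap_apply]
  have hsum : ∑ e, algebraMap T01 S01 (algebraMap Λ T01 (a e)) * algebraMap T01 S01 (d e) =
      ∑ e, algebraMap Λ S01 (a e) * D.q0 (h0 e) - ∑ e, algebraMap Λ S01 (a e) * D.q1 (h1 e) := by
    rw [← Finset.sum_sub_distrib]
    refine Finset.sum_congr rfl fun e _ => ?_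
    rw [hΛ, hd]; ring
  rw [hsum]
  have hzero := sum_mul_sum_eq_zero (fun e => algebraMap Λ S01 (a e))
    (fun e => D.q0 (h0 e) - D.q1 (h1 e)) (fun e => D.q1 (h1 e)) hα Finset.univ
  have hsplit : ∑ e, algebraMap Λ S01 (a e) * (D.q0 (h0 e) - D.q1 (h1 e)) =
      ∑ e, algebraMap Λ S01 (a e) * D.q0 (h0 e) - ∑ e, algebraMap Λ S01 (a e) * D.q1 (h1 e) := by
    rw [← Finset.sum_sub_distrib]
    exact Finset.sum_congr rfl fun e _ => by ring
  rw [hsplit] at hzero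
  linear_combination hzero

/-- First-order formula for `ι`. -/
theorem GlueData.iota_firstOrder (hm : IsNilpotent m) {I : Ideal Λ} (hI : I ≤ m)
    (hII : ∀ a b, a ∈ I → b ∈ I → a * b = 0) (a : E → Λ) (ha : ∀ e, a e ∈ I)
    (h0 : E → S0) (h0ε : ∀ e, h0 e * D.ε0 = h0 e) (h01 : ∀ e, RegAt (D.n0 e) ⊤ (h0 e - D.ε0))
    (h02 : ∀ e e', e' ≠ e → RegAt (D.n0 e') ⊤ (h0 e))
    (h1 : E → S1) (h1ε : ∀ e, h1 e * D.ε1 = h1 e) (h11 : ∀ e, RegAt (D.n1 e) ⊤ (h1 e - D.ε1))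
    (h12 : ∀ e e', e' ≠ e → RegAt (D.n1 e') ⊤ (h1 e))
    (d : E → T01) (hd : ∀ e, algebraMap T01 S01 (d e) = D.q0 (h0 e) - D.q1 (h1 e)) :
    D.iota hm (fun e => oneAddUnit hm (a e) (hI (ha e))) =
      P.cls m (oneAddUnit (isNilpotent_map (algebraMap Λ T01) hm)
        (∑ e, algebraMap Λ T01 (a e) * d e)
        (Ideal.sum_mem _ fun e _ =>
          Ideal.mul_mem_right _ _ (Ideal.mem_map_of_mem _ (hI (ha e))))) :=
  D.iota_eq_of_rep hm (D.rep_firstOrder hm hI hII a ha h0 h0ε h01 h02 h1 h1ε h11 h12 d hd)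

end FirstOrder

/-! ### Naturality -/

section Natural

variable {Λ' : Type*} [CommRing Λ'] {m' : Ideal Λ'}
variable {T0' T1' T01' : Type*} [CommRing T0'] [CommRing T1'] [CommRing T01']
  [Algebra Λ' T0'] [Algebra Λ' T1'] [Algebra Λ' T01']
variable {S0 S1 S01}
variable {S0' S1' S01' : Type*} [CommRing S0'] [CommRing S1'] [CommRing S01']
  [Algebra T0' S0'] [Algebra T1' S1'] [Algebra T01' S01']
  [Algebra Λ' S0'] [Algebra Λ' S1'] [Algebra Λ' S01']
  [IsScalarTower Λ' T0' S0'] [IsScalarTower Λ' T1' S1'] [IsScalarTower Λ' T01' S01']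
variable {P : Pkg Λ T0 T1 T01 g} {P' : Pkg Λ' T0' T1' T01' g} {E : Type*}

/-- A morphism of gluing data over a morphism of packages. -/
structure GlueHom (D : GlueData S0 S1 S01 P E) (D' : GlueData S0' S1' S01' P' E) {f : Λ →+* Λ'}
    (h : PkgHom P P' f) where
  k0 : S0 →+* S0'
  k1 : S1 →+* S1'
  k01 : S01 →+* S01'
  k0_comm : ∀ x, k0 (algebraMap T0 S0 x) = algebraMap T0' S0' (h.t0 x)
  k1_comm : ∀ x, k1 (algebraMap T1 S1 x) = algebraMap T1' S1' (h.t1 x)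
  k01_comm : ∀ x, k01 (algebraMap T01 S01 x) = algebraMap T01' S01' (h.t01 x)
  k_q0 : ∀ x, k01 (D.q0 x) = D'.q0 (k0 x)
  k_q1 : ∀ x, k01 (D.q1 x) = D'.q1 (k1 x)
  k0_ε : k0 D.ε0 = D'.ε0
  k1_ε : k1 D.ε1 = D'.ε1
  n0_le : ∀ e d, d ∉ D.n0 e → h.t0 d ∉ D'.n0 e
  n1_le : ∀ e d, d ∉ D.n1 e → h.t1 d ∉ D'.n1 e

variable {D : GlueData S0 S1 S01 P E} {D' : GlueData S0' S1' S01' P' E} {f : Λ →+* Λ'}
  {h : PkgHom P P' f}

theorem GlueHom.rep_map (H : GlueHom D D' h) (hm : IsNilpotent m) (hm' : IsNilpotent m')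
    (hmm : m ≤ m'.comap f) {z : E → unitsOne m} {u : unitsOne (eI m T01)} (hu : D.Rep hm z u) :
    D'.Rep hm' (fun e => unitsOneMap f hmm (z e)) (h.u01 hmm u) := by
  obtain ⟨G0, G1, a0, a1, e⟩ := hu
  refine ⟨_, _, adm_map hm D.n0 D.ε0 D.idem0 hm' D'.n0 D'.ε0 D'.idem0 f h.t0 H.k0 h.comm0 H.k0_comm
    H.k0_ε H.n0_le hmm a0, adm_map hm D.n1 D.ε1 D.idem1 hm' D'.n1 D'.ε1 D'.idem1 f h.t1 H.k1 h.comm1
    H.k1_comm H.k1_ε H.n1_le hmm a1, ?_⟩
  have e' := congrArg H.k01 e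
  rw [map_mul, H.k01_comm] at e'
  have e1 : H.k01 ((((D.q1u G1 : unitsOne (eI m S01)) : S01ˣ) : S01)) =
      D'.q1 (H.k1 (((G1 : unitsOne (eI m S1)) : S1ˣ) : S1)) := H.k_q1 _
  have e0 : H.k01 ((((D.q0u G0 : unitsOne (eI m S01)) : S01ˣ) : S01)) =
      D'.q0 (H.k0 (((G0 : unitsOne (eI m S0)) : S0ˣ) : S0)) := H.k_q0 _
  rw [e1, e0] at e'
  exact e'

/-- **Naturality of the toric map**. -/
theorem GlueHom.iota_natural [Fintype E] [DecidableEq E] (H : GlueHom D D' h)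
    (hm : IsNilpotent m) (hm' : IsNilpotent m') (hmm : m ≤ m'.comap f) (z : E → unitsOne m) :
    Pkg.JhatMap h hmm (D.iota hm z) = D'.iota hm' (fun e => unitsOneMap f hmm (z e)) := by
  obtain ⟨u, hu, hz⟩ := D.exists_rep_iota hm z
  rw [hz, Pkg.JhatMap_cls, D'.iota_eq_of_rep hm' (H.rep_map hm hm' hmm hu)]

end Natural

end Glue

end Fermat.Agent.T1B.Toric50.Glue
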