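/-
T1B (S44), sub-cell TORIC50 (helper50), brick T-TORIC: **morphisms of gluing data with change of
index set**.

Points of `V(s)` may split or be permuted under residue field extensions and Galois twists, so the
index sets of the gluing data at two levels differ in general: `c : E' → E` is the contraction map
(comap of primes).

* `adm_mapC`, `GlueHomC`, `GlueHomC.rep_map`, `GlueHomC.iota_natural` : naturality of the toric map
  for morphisms of gluing data with DIFFERENT index sets (`c : E' → E`, parameter `z ∘ c`);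
* `extendHom ν : (En → U) →* (E → U)` : extension by `1` outside the (rational) nodes.
-/
import Mathlib
import Fermat.Agent.T1B.Toric50.Glue

set_option autoImplicit false
set_option linter.unusedSectionVars false
set_option linter.unusedVariables false

namespace Fermat.Agent.T1B.Toric50.Glue

open Fermat.Agent.T1.CechFormal70

/-! ### Admissibility along a morphism with change of index set -/

section AdmMapC

variable {Λ : Type*} [CommRing Λ] {m : Ideal Λ}
variable {T : Type*} [CommRing T] [Algebra Λ T] {Ts : Type*} [CommRing Ts] [Algebra T Ts]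
  [Algebra Λ Ts] [IsScalarTower Λ T Ts]
variable {Λ' : Type*} [CommRing Λ'] {m' : Ideal Λ'}
variable {T' : Type*} [CommRing T'] [Algebra Λ' T'] {Ts' : Type*} [CommRing Ts'] [Algebra T' Ts']
  [Algebra Λ' Ts'] [IsScalarTower Λ' T' Ts']
variable {E E' : Type*}

/-- Admissibility is preserved by a morphism of charts, with a contraction map `c : E' → E` on the
index sets. -/
theorem adm_mapC (hm : IsNilpotent m) (𝔫 : E → Ideal T) [∀ e, (𝔫 e).IsPrime] (ε : Ts)
    (hε : ε * ε = ε) (hm' : IsNilpotent m') (𝔫' : E' → Ideal T') [∀ e, (𝔫' e).IsPrime] (ε' : Ts')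
    (hε' : ε' * ε' = ε') (f : Λ →+* Λ') (r : T →+* T') (k : Ts →+* Ts') (c : E' → E)
    (hr : ∀ a, r (algebraMap Λ T a) = algebraMap Λ' T' (f a))
    (hk : ∀ x, k (algebraMap T Ts x) = algebraMap T' Ts' (r x)) (hkε : k ε = ε')
    (hn : ∀ e' d, d ∉ 𝔫 (c e') → r d ∉ 𝔫' e') (hmm : m ≤ m'.comap f)
    {z : E → unitsOne m} {G : unitsOne (eI m Ts)} (h : Adm hm 𝔫 ε hε z G) :
    Adm hm' 𝔫' ε' hε' (fun e' => unitsOneMap f hmm (z (c e')))
      (unitsOneMap k (eI_le_comap_of_comm k (algebraMap_comm_of_tower f r k hr hk) hmm) G) := by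
  intro e'
  set ku := unitsOneMap k (eI_le_comap_of_comm (m := m) (m' := m') k
    (algebraMap_comm_of_tower f r k hr hk) hmm) with hku
  have hg : ku (gHom ε hε (z (c e'))) = gHom ε' hε' (unitsOneMap f hmm (z (c e'))) := by
    apply Subtype.ext
    apply Units.ext
    show k (1 + algebraMap Λ Ts _ * ε) = 1 + algebraMap Λ' Ts' _ * ε'
    rw [map_add, map_one, map_mul, algebraMap_comm_of_tower f r k hr hk, hkε, map_sub, map_one]
    rfl
  have h1 : ku G * (gHom ε' hε' (unitsOneMap f hmm (z (c e'))))⁻¹ =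
      ku (G * (gHom ε hε (z (c e')))⁻¹) := by
    rw [map_mul, map_inv, hg]
  rw [h1, mem_Ve]
  have h2 := h (c e')
  rw [mem_Ve] at h2
  have := regAt_map r k hk (𝔫 := 𝔫 (c e')) (𝔫' := 𝔫' e') (hn e')
    (eI_le_comap_of_comm (m := m) (m' := m') r hr hmm) h2
  rw [map_sub, map_one] at this
  exact this

end AdmMapC

/-! ### Morphisms of gluing data with change of index set -/

section NaturalC

variable {Λ : Type*} [CommRing Λ] {m : Ideal Λ}
variable {T0 T1 T01 : Type*} [CommRing T0] [CommRing T1] [CommRing T01]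
  [Algebra Λ T0] [Algebra Λ T1] [Algebra Λ T01] {g : ℕ}
variable {S0 S1 S01 : Type*} [CommRing S0] [CommRing S1] [CommRing S01]
  [Algebra T0 S0] [Algebra T1 S1] [Algebra T01 S01]
  [Algebra Λ S0] [Algebra Λ S1] [Algebra Λ S01]
  [IsScalarTower Λ T0 S0] [IsScalarTower Λ T1 S1] [IsScalarTower Λ T01 S01]
variable {Λ' : Type*} [CommRing Λ'] {m' : Ideal Λ'}
variable {T0' T1' T01' : Type*} [CommRing T0'] [CommRing T1'] [CommRing T01']
  [Algebra Λ' T0'] [Algebra Λ' T1'] [Algebra Λ' T01']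
variable {S0' S1' S01' : Type*} [CommRing S0'] [CommRing S1'] [CommRing S01']
  [Algebra T0' S0'] [Algebra T1' S1'] [Algebra T01' S01']
  [Algebra Λ' S0'] [Algebra Λ' S1'] [Algebra Λ' S01']
  [IsScalarTower Λ' T0' S0'] [IsScalarTower Λ' T1' S1'] [IsScalarTower Λ' T01' S01']
variable {P : Pkg Λ T0 T1 T01 g} {P' : Pkg Λ' T0' T1' T01' g} {E E' : Type*}

/-- A morphism of gluing data over a morphism of packages, with a contraction map `c : E' → E` of
the index sets. -/
structure GlueHomC (D : GlueData S0 S1 S01 P E) (D' : GlueData S0' S1' S01' P' E') {f : Λ →+* Λ'}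
    (h : PkgHom P P' f) (c : E' → E) where
  k0 : S0 →+* S0'
  k1 : S1 →+* S1'
  k01 : S01 →+* S01'
  k0_comm : ∀ x, k0 (algebraMap T0 S0 x) = algebraMap T0' S0' (h.t0 x)
  k1_comm : ∀ x, k1 (algebraMap T1 S1 x) = algebraMap T1' S1' (h.t1 x)
  k01_comm : ∀ x, k01 (algebraMap T01 S01 x) = algebraMap T01' S01' (h.t01 x)
  k_q0 : ∀ x, k01 (D.q0 x) = D'.q0 (k0 x)
  k_q1 : ∀ x, k01 (D.q1 x) = D'.q1 (k1 x)
  k0_ε : k0 D.ε0 = D'.ε0
  k1_ε : k1 D.ε1 = D'.ε1
  n0_le : ∀ e' d, d ∉ D.n0 (c e') → h.t0 d ∉ D'.n0 e'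
  n1_le : ∀ e' d, d ∉ D.n1 (c e') → h.t1 d ∉ D'.n1 e'

variable {D : GlueData S0 S1 S01 P E} {D' : GlueData S0' S1' S01' P' E'} {f : Λ →+* Λ'}
  {h : PkgHom P P' f} {c : E' → E}

theorem GlueHomC.rep_map (H : GlueHomC D D' h c) (hm : IsNilpotent m) (hm' : IsNilpotent m')
    (hmm : m ≤ m'.comap f) {z : E → unitsOne m} {u : unitsOne (eI m T01)} (hu : D.Rep hm z u) :
    D'.Rep hm' (fun e' => unitsOneMap f hmm (z (c e'))) (h.u01 hmm u) := by
  obtain ⟨G0, G1, a0, a1, e⟩ := hu
  refine ⟨_, _, adm_mapC hm D.n0 D.ε0 D.idem0 hm' D'.n0 D'.ε0 D'.idem0 f h.t0 H.k0 c h.comm0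
    H.k0_comm H.k0_ε H.n0_le hmm a0, adm_mapC hm D.n1 D.ε1 D.idem1 hm' D'.n1 D'.ε1 D'.idem1 f h.t1
    H.k1 c h.comm1 H.k1_comm H.k1_ε H.n1_le hmm a1, ?_⟩
  have e' := congrArg H.k01 e
  rw [map_mul, H.k01_comm] at e'
  have e1 : H.k01 ((((D.q1u G1 : unitsOne (eI m S01)) : S01ˣ) : S01)) =
      D'.q1 (H.k1 (((G1 : unitsOne (eI m S1)) : S1ˣ) : S1)) := H.k_q1 _
  have e0 : H.k01 ((((D.q0u G0 : unitsOne (eI m S01)) : S01ˣ) : S01)) =
      D'.q0 (H.k0 (((G0 : unitsOne (eI m S0)) : S0ˣ) : S0)) := H.k_q0 _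
  rw [e1, e0] at e'
  exact e'

/-- **Naturality of the toric map**, with change of index set. -/
theorem GlueHomC.iota_natural [Fintype E] [DecidableEq E] [Fintype E'] [DecidableEq E']
    (H : GlueHomC D D' h c) (hm : IsNilpotent m) (hm' : IsNilpotent m') (hmm : m ≤ m'.comap f)
    (z : E → unitsOne m) :
    Pkg.JhatMap h hmm (D.iota hm z) = D'.iota hm' (fun e' => unitsOneMap f hmm (z (c e'))) := by
  obtain ⟨u, hu, hz⟩ := D.exists_rep_iota hm z
  rw [hz, Pkg.JhatMap_cls, D'.iota_eq_of_rep hm' (H.rep_map hm hm' hmm hu)]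

end NaturalC

/-! ### Extension by `1` -/

section Extend

variable {En E U : Type*} [CommGroup U]

/-- extension of a family by `1` outside the image of `ν`. -/
noncomputable def extendHom (ν : En → E) (hν : Function.Injective ν) : (En → U) →* (E → U) where
  toFun z := Function.extend ν z 1
  map_one' := by
    funext e
    by_cases he : ∃ a, ν a = e
    · obtain ⟨a, rfl⟩ := he
      rw [hν.extend_apply]; rfl
    · rw [Function.extend_apply' _ _ _ he]
  map_mul' z z' := by
    funext e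
    by_cases he : ∃ a, ν a = e
    · obtain ⟨a, rfl⟩ := he
      rw [Pi.mul_apply, hν.extend_apply, hν.extend_apply, hν.extend_apply]; rfl
    · rw [Pi.mul_apply, Function.extend_apply' _ _ _ he, Function.extend_apply' _ _ _ he,
        Function.extend_apply' _ _ _ he]
      simp

theorem extendHom_apply_node (ν : En → E) (hν : Function.Injective ν) (z : En → U) (a : En) :
    extendHom ν hν z (ν a) = z a := hν.extend_apply z 1 a

theorem extendHom_apply_of_not_mem (ν : En → E) (hν : Function.Injective ν) (z : En → U) (e : E)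
    (he : ¬ ∃ a, ν a = e) : extendHom ν hν z e = 1 := by
  show Function.extend ν z 1 e = 1
  rw [Function.extend_apply' _ _ _ he]; rfl

end Extend

end Fermat.Agent.T1B.Toric50.Glue
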