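/-
T1B (S44), sub-cell TORIC50 (helper50): **interface v2** (`Package2`), superseding `Iface.Package`.

Changes with respect to `Iface.Package`:
* UNIVERSE POLYMORPHIC (`PicX c0 O`, hence `A = J1 c0 O`, lives one universe above the towers);
* NO honest push-forward `βA` on `A` any more: the kernel is the FORMAL KERNEL
  `K = {y : A | ∀ n, β n (u n y) = 1}` (`β n` = Čech norm on `Ĵ(O/𝔪^n)`).  The comparison with the
  push-forward of divisor classes is the statement `j x ∈ K` for `x ∈ ker π₁ ∩ ker π₂` (brick CMP),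
  so no algebraisation on the smooth target is needed.

Results (from `Tower.lean`, instantiated with `AB := ∀ n, B n`):
* `Package2.toric`          : `y ∈ K`, `y ^ p = 1` ⟹ `s • y = y ^ χ s`                      [(T-a)]
* `Package2.toricPoint`     : `Tinf →* A`, injective, `G`-equivariant, values in `K`,
  `K = range toricPoint`, `exists_toricPoint_of_pow_eq_one`                                  [(T-b)]
-/
import Mathlib
import Fermat.Agent.T1B.Toric50.Tower

set_option autoImplicit false
set_option linter.unusedSectionVars false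
set_option linter.unusedVariables false

namespace Fermat.Agent.T1B.Toric50

open Tower

universe uG uA uT uJ uB uTn

/-- **The deliverable of the geometric bricks F5–F7** for one complete base `O` with a group `G`
acting (universe polymorphic, formal kernel). All groups are commutative, written multiplicatively. -/
structure Package2 (G : Type uG) [Group G] (p : ℕ) where
  /-- honest points: `J̃¹(O)` of the nodal datum -/
  A : Type uA
  /-- `(1 + 𝔪)^r` -/
  Tinf : Type uT
  J : ℕ → Type uJ
  B : ℕ → Type uB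
  T : ℕ → Type uTn
  [instA : CommGroup A]
  [instTinf : CommGroup Tinf]
  [instJ : ∀ n, CommGroup (J n)]
  [instB : ∀ n, CommGroup (B n)]
  [instT : ∀ n, CommGroup (T n)]
  [actA : MulDistribMulAction G A]
  [actTinf : MulDistribMulAction G Tinf]
  [actJ : ∀ n, MulDistribMulAction G (J n)]
  [actT : ∀ n, MulDistribMulAction G (T n)]
  pJ : ∀ n, J (n + 1) →* J n
  pB : ∀ n, B (n + 1) →* B n
  pT : ∀ n, T (n + 1) →* T n
  β : ∀ n, J n →* B n
  ι : ∀ n, T n →* J n
  u : ∀ n, A →* J n
  q : ∀ n, Tinf →* T n
  /-- the mod `p` cyclotomic character on `G`, as an exponent -/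
  χ : G → ℕ
  hyp : Hyp pJ pB pT β ι
  u_compat : ∀ n (y : A), pJ n (u (n + 1) y) = u n y
  q_compat : ∀ n (w : Tinf), pT n (q (n + 1) w) = q n w
  /-- formal functions: a class all of whose truncations are trivial is trivial -/
  u_inj : ∀ y : A, (∀ n, u n y = 1) → y = 1
  q_complete : ∀ z : ∀ n, T n, (∀ n, pT n (z (n + 1)) = z n) → ∃ w : Tinf, ∀ n, q n w = z n
  q_inj : ∀ w : Tinf, (∀ n, q n w = 1) → w = 1
  /-- algebraisation of the toric classes -/
  alg : ∀ w : Tinf, ∃ y : A, ∀ n, u n y = ι n (q n w)
  u_smul : ∀ n (s : G) (y : A), u n (s • y) = s • u n y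
  ι_smul : ∀ n (s : G) (z : T n), ι n (s • z) = s • ι n z
  q_smul : ∀ n (s : G) (w : Tinf), q n (s • w) = s • q n w
  /-- the kernel of the norm is `G`-stable (the norm is equivariant) -/
  β_smul : ∀ n (s : G) (x : J n), β n x = 1 → β n (s • x) = 1
  /-- `G` acts on `μ_p(O)^r` through `χ` -/
  χ_spec : ∀ (s : G) (w : Tinf), w ^ p = 1 → s • w = w ^ χ s

namespace Package2

variable {G : Type uG} [Group G] {p : ℕ} (P : Package2.{uG, uA, uT, uJ, uB, uTn} G p)

attribute [instance] Package2.instA Package2.instTinf Package2.instJ Package2.instB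
  Package2.instT Package2.actA Package2.actTinf Package2.actJ Package2.actT

/-- all the norms at once, `A → ∏ n, B n`. -/
def βA : P.A →* (∀ n, P.B n) := MonoidHom.pi fun n => (P.β n).comp (P.u n)

/-- the evaluation `∏ n, B n → B n`. -/
def uB (n : ℕ) : (∀ n, P.B n) →* P.B n := Pi.evalMonoidHom _ n

/-- **The formal kernel** `K = {y | ∀ n, β n (u n y) = 1}`. -/
def K : Subgroup P.A := P.βA.ker

theorem mem_K {y : P.A} : y ∈ P.K ↔ ∀ n, P.β n (P.u n y) = 1 := by
  unfold K
  rw [MonoidHom.mem_ker]
  constructor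
  · intro h n
    exact congrFun h n
  · intro h
    funext n
    exact h n

theorem lim : LimHyp P.pJ P.pT P.β P.u P.uB P.q P.βA where
  u_compat := P.u_compat
  q_compat := P.q_compat
  u_inj := P.u_inj
  uB_β := fun n y => rfl
  q_complete := P.q_complete
  q_inj := P.q_inj

theorem uB_inj (y : ∀ n, P.B n) (h : ∀ n, P.uB n y = 1) : y = 1 := funext h

theorem βA_smul (s : G) (y : P.A) (hy : P.βA y = 1) : P.βA (s • y) = 1 := by
  have h1 : y ∈ P.K := hy
  have h2 : s • y ∈ P.K := by
    rw [mem_K] at h1 ⊢
    intro n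
    rw [P.u_smul]
    exact P.β_smul n s _ (h1 n)
  exact h2

theorem smul_mem_K (s : G) {y : P.A} (hy : y ∈ P.K) : s • y ∈ P.K := P.βA_smul s y hy

/-- **(T-a)** `G` acts through `χ` on the `p`-torsion of the formal kernel. -/
theorem toric (y : P.A) (hy : y ∈ P.K) (hyp : y ^ p = 1) (s : G) : s • y = y ^ P.χ s :=
  P.lim.smul_eq_pow_of_pow_eq_one P.hyp P.u_smul P.ι_smul P.q_smul P.βA_smul p P.χ P.χ_spec
    y hy hyp s

/-- **(T-b)** the toric map `(1 + 𝔪)^r →* J̃¹(O)`. -/
noncomputable def toricPoint : P.Tinf →* P.A := P.lim.toricPoint P.alg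

theorem u_toricPoint (w : P.Tinf) (n : ℕ) : P.u n (P.toricPoint w) = P.ι n (P.q n w) :=
  P.lim.u_toricPoint P.alg w n

theorem toricPoint_injective : Function.Injective P.toricPoint :=
  P.lim.toricPoint_injective P.hyp P.alg

theorem toricPoint_mem_K (w : P.Tinf) : P.toricPoint w ∈ P.K :=
  P.lim.β_toricPoint P.hyp P.alg P.uB_inj w

theorem K_eq_range : P.K = P.toricPoint.range :=
  P.lim.ker_eq_range_toricPoint P.hyp P.alg P.uB_inj

theorem toricPoint_smul (s : G) (w : P.Tinf) : P.toricPoint (s • w) = s • P.toricPoint w :=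
  P.lim.toricPoint_smul P.alg P.u_smul P.ι_smul P.q_smul s w

/-- every `p`-torsion point of the formal kernel is the toric point of a `p`-torsion element. -/
theorem exists_toricPoint_of_pow_eq_one (y : P.A) (hy : y ∈ P.K) (hyp : y ^ p = 1) :
    ∃ w : P.Tinf, w ^ p = 1 ∧ P.toricPoint w = y := by
  have hmem : y ∈ P.toricPoint.range := by rw [← P.K_eq_range]; exact hy
  obtain ⟨w, rfl⟩ := hmem
  refine ⟨w, ?_, rfl⟩
  apply P.toricPoint_injective
  rw [map_pow, hyp, map_one]

/-- the toric point is characterised by its truncations. -/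
theorem toricPoint_unique (w : P.Tinf) (y : P.A) (h : ∀ n, P.u n y = P.ι n (P.q n w)) :
    y = P.toricPoint w :=
  P.lim.u_ext fun n => by rw [h n, P.u_toricPoint]

end Package2

end Fermat.Agent.T1B.Toric50
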