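/-
T1B (S44), sub-cell TORIC50 (helper50): **assembly** — the integration point of the sub-cell.

`TowerInput c0 D hρ0 hρ1 O G p r Bt` lists, in helper11's T-INST vocabulary (`Toric11/{TowerJ,TowerU,
FirstOrder}.lean`), exactly what the other bricks must deliver for ONE complete discrete valuation
ring `O` over `W` with a group `G` acting:

* NORM-JHAT   : `β n : Jn D 𝔪 n →* Bt n` (Čech norms; `Bt n = Jn D' 𝔪 n × Jn D' 𝔪 n`), `β_pJ`;
* T-TORIC     : `ι n : Tn r 𝔪 n →* Jn D 𝔪 n` (`Toric50/Glue.lean` on the model), `ι_pT`;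
* NORM-IOTA   : `β_ι`;
* T-LIN (+ first order formulas of NORM-JHAT and T-TORIC) : `hfo n : FirstOrder D 𝔪 r n (β (n+1)) (ι (n+1))`;
* T-GAL       : the `G`-actions (instance parameters) and `u_smul`, `ι_smul`, `q_smul`, `β_smul`, `χ_spec`;
* COORD-INJ   : `hInj : CoordInjective c0 O` (available for every Čech datum: `CoordInj23`);
* T-ALG       : `alg` (algebraisation of the toric classes; nodal datum).

`TowerInput.package2` is the resulting `Package2`, so that `Package2.toric`, `toricPoint`,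
`K_eq_range`, `exists_toricPoint_of_pow_eq_one` … apply with `A = J1 c0 O`, `Tinf = (1 + 𝔪)^r`,
`K = {y | ∀ n, β n (uJ n y) = 1}`.
-/
import Mathlib
import Fermat.Agent.T1B.Toric50.Package2
import Fermat.Agent.T1B.Toric11.TowerU
import Fermat.Agent.T1B.Toric11.FirstOrder

set_option autoImplicit false
set_option linter.unusedSectionVars false
set_option linter.unusedVariables false

open TensorProduct

noncomputable section

namespace Fermat.Agent.T1B.Toric50.Assemble

open Fermat.Agent.Jac Fermat.Agent.Jac.BaseChange75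
open Fermat.Agent.T1.RedIface75 Fermat.Agent.T1.CechFormal70
open Fermat.Agent.T1B.Toric11 Fermat.Agent.T1B.Toric50

universe u uG

variable {W B0 B1 B01 : Type u} [CommRing W] [CommRing B0] [CommRing B1] [CommRing B01]
  [Algebra W B0] [Algebra W B1] [Algebra W B01] [Algebra B0 B01] [Algebra B1 B01]
  [IsScalarTower W B0 B01] [IsScalarTower W B1 B01]
  (c0 : TwoChart W B0 B1 B01) {g : ℕ} (D : CechData W B0 B1 B01 g)
  (hρ0 : ∀ x, D.ρ0 x = algebraMap B0 B01 x) (hρ1 : ∀ x, D.ρ1 x = algebraMap B1 B01 x)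
  (O : Type u) [CommRing O] [IsDomain O] [IsDiscreteValuationRing O] [Algebra W O]


/-- **The contract of the sub-cell TORIC50** for one complete `O` with `G` acting. -/
structure TowerInput (G : Type uG) [Group G] (p r : ℕ) (Bt : ℕ → Type u)
    [∀ n, CommGroup (Bt n)] [MulDistribMulAction G (J1 c0 O)]
    [∀ n, MulDistribMulAction G (Jn D (IsLocalRing.maximalIdeal O) n)] [∀ n, MulDistribMulAction G (Tn r (IsLocalRing.maximalIdeal O) n)]
    [MulDistribMulAction G (Tinf r (IsLocalRing.maximalIdeal O))] where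
  pB : ∀ n, Bt (n + 1) →* Bt n
  β : ∀ n, Jn D (IsLocalRing.maximalIdeal O) n →* Bt n
  ι : ∀ n, Tn r (IsLocalRing.maximalIdeal O) n →* Jn D (IsLocalRing.maximalIdeal O) n
  β_pJ : ∀ n (y : Jn D (IsLocalRing.maximalIdeal O) (n + 1)), β n (pJ D (IsLocalRing.maximalIdeal O) n y) = pB n (β (n + 1) y)
  ι_pT : ∀ n (z : Tn r (IsLocalRing.maximalIdeal O) (n + 1)), ι n (pT (W := W) r (IsLocalRing.maximalIdeal O) n z) = pJ D (IsLocalRing.maximalIdeal O) n (ι (n + 1) z)
  β_ι : ∀ n (z : Tn r (IsLocalRing.maximalIdeal O) n), β n (ι n z) = 1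
  hfo : ∀ n, FirstOrder D (IsLocalRing.maximalIdeal O) r n (β (n + 1)) (ι (n + 1))
  χ : G → ℕ
  u_smul : ∀ n (s : G) (y : J1 c0 O), uJ c0 D hρ0 hρ1 O n (s • y) = s • uJ c0 D hρ0 hρ1 O n y
  ι_smul : ∀ n (s : G) (z : Tn r (IsLocalRing.maximalIdeal O) n), ι n (s • z) = s • ι n z
  q_smul : ∀ n (s : G) (w : Tinf r (IsLocalRing.maximalIdeal O)), qT (W := W) r (IsLocalRing.maximalIdeal O) n (s • w) = s • qT (W := W) r (IsLocalRing.maximalIdeal O) n w
  β_smul : ∀ n (s : G) (x : Jn D (IsLocalRing.maximalIdeal O) n), β n x = 1 → β n (s • x) = 1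
  χ_spec : ∀ (s : G) (w : Tinf r (IsLocalRing.maximalIdeal O)), w ^ p = 1 → s • w = w ^ χ s
  hInj : CoordInjective c0 O
  complete : IsAdicComplete (IsLocalRing.maximalIdeal O) O
  alg : ∀ w : Tinf r (IsLocalRing.maximalIdeal O), ∃ y : J1 c0 O,
    ∀ n, uJ c0 D hρ0 hρ1 O n y = ι n (qT (W := W) r (IsLocalRing.maximalIdeal O) n w)

namespace TowerInput

variable {c0 D hρ0 hρ1 O}
variable {G : Type uG} [Group G] {p r : ℕ} {Bt : ℕ → Type u} [∀ n, CommGroup (Bt n)]
  [MulDistribMulAction G (J1 c0 O)]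
  [∀ n, MulDistribMulAction G (Jn D (IsLocalRing.maximalIdeal O) n)] [∀ n, MulDistribMulAction G (Tn r (IsLocalRing.maximalIdeal O) n)]
  [MulDistribMulAction G (Tinf r (IsLocalRing.maximalIdeal O))]
  (I : TowerInput c0 D hρ0 hρ1 O G p r Bt)

/-- the tower hypotheses. -/
theorem hyp : Tower.Hyp (J := Jn D (IsLocalRing.maximalIdeal O)) (B := Bt) (T := Tn r (IsLocalRing.maximalIdeal O)) (pJ D (IsLocalRing.maximalIdeal O)) I.pB
    (pT (W := W) r (IsLocalRing.maximalIdeal O)) I.β I.ι :=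
  hyp_of_firstOrder D (IsLocalRing.maximalIdeal O) r I.pB I.β I.ι I.β_pJ I.ι_pT I.β_ι I.hfo

/-- **The package of the sub-cell.** -/
def package2 : Package2 G p where
  A := J1 c0 O
  Tinf := Tinf r (IsLocalRing.maximalIdeal O)
  J := Jn D (IsLocalRing.maximalIdeal O)
  B := Bt
  T := Tn r (IsLocalRing.maximalIdeal O)
  pJ := pJ D (IsLocalRing.maximalIdeal O)
  pB := I.pB
  pT := pT (W := W) r (IsLocalRing.maximalIdeal O)
  β := I.β
  ι := I.ι
  u := uJ c0 D hρ0 hρ1 O
  q := qT (W := W) r (IsLocalRing.maximalIdeal O)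
  χ := I.χ
  hyp := I.hyp
  u_compat := uJ_compat c0 D hρ0 hρ1 O
  q_compat := qT_compat r (IsLocalRing.maximalIdeal O)
  u_inj := uJ_inj c0 D hρ0 hρ1 O I.hInj
  q_complete := by
    have := I.complete
    exact qT_complete r (IsLocalRing.maximalIdeal O)
  q_inj := by
    have := I.complete
    exact qT_inj r (IsLocalRing.maximalIdeal O)
  alg := I.alg
  u_smul := I.u_smul
  ι_smul := I.ι_smul
  q_smul := I.q_smul
  β_smul := I.β_smul
  χ_spec := I.χ_spec

/-- the formal kernel, spelled out. -/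
theorem mem_K {y : J1 c0 O} :
    y ∈ I.package2.K ↔ ∀ n, I.β n (uJ c0 D hρ0 hρ1 O n y) = 1 :=
  I.package2.mem_K

/-- **(T-a)** in the concrete vocabulary. -/
theorem toric (y : J1 c0 O) (hy : ∀ n, I.β n (uJ c0 D hρ0 hρ1 O n y) = 1) (hyp : y ^ p = 1)
    (s : G) : s • y = y ^ I.χ s :=
  I.package2.toric y (I.mem_K.2 hy) hyp s

/-- **(T-b)**: the toric points. -/
def toricPoint : Tinf r (IsLocalRing.maximalIdeal O) →* J1 c0 O := I.package2.toricPoint

theorem uJ_toricPoint (w : Tinf r (IsLocalRing.maximalIdeal O)) (n : ℕ) :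
    uJ c0 D hρ0 hρ1 O n (I.toricPoint w) = I.ι n (qT (W := W) r (IsLocalRing.maximalIdeal O) n w) :=
  I.package2.u_toricPoint w n

theorem toricPoint_injective : Function.Injective I.toricPoint := I.package2.toricPoint_injective

theorem toricPoint_smul (s : G) (w : Tinf r (IsLocalRing.maximalIdeal O)) : I.toricPoint (s • w) = s • I.toricPoint w :=
  I.package2.toricPoint_smul s w

theorem β_toricPoint (w : Tinf r (IsLocalRing.maximalIdeal O)) (n : ℕ) :
    I.β n (uJ c0 D hρ0 hρ1 O n (I.toricPoint w)) = 1 :=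
  I.mem_K.1 (I.package2.toricPoint_mem_K w) n

theorem exists_toricPoint_of_pow_eq_one (y : J1 c0 O)
    (hy : ∀ n, I.β n (uJ c0 D hρ0 hρ1 O n y) = 1) (hyp : y ^ p = 1) :
    ∃ w : Tinf r (IsLocalRing.maximalIdeal O), w ^ p = 1 ∧ I.toricPoint w = y :=
  I.package2.exists_toricPoint_of_pow_eq_one y (I.mem_K.2 hy) hyp

theorem toricPoint_unique (w : Tinf r (IsLocalRing.maximalIdeal O)) (y : J1 c0 O)
    (h : ∀ n, uJ c0 D hρ0 hρ1 O n y = I.ι n (qT (W := W) r (IsLocalRing.maximalIdeal O) n w)) : y = I.toricPoint w :=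
  I.package2.toricPoint_unique w y h

end TowerInput

end Fermat.Agent.T1B.Toric50.Assemble
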