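/-
Programme T1B (row 38 via S44), sub-cell TORIC50, brick TORIC-UNION stage 2b (helper50):
**THE FIELDS `ιT_mem` AND `toric` OF `Local66.Assembly.LocalGeom` ON THE UNION OVER THE LEVELS.**

Fixed: `p`, an inertial number field `K`, `W = Wb p K`, the hub `c0 : TwoChart W B0 B1 B01` with its
Čech datum `D`, the levels `E : NLevel p K` of `Local66/Union.lean` (v2: number fields `L ⊇ K`,
`O_E = intSubring p E.E`), a family of tower inputs `I E` at the levels whose toric maps come from one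
natural family `F` (`hI`).  helper65's `GalInput65/TopAct.lean` gives the toric map
`ιTop I F hO hI : (Fin r → oneUnits p) → Atop p K c0` with the fields `ιT_mul` (`ιTop_mul`) and
`ιT_smul` (`ιTop_smul`, for the action `Bridge54.IpInst.actTop c0 hK`).  Here:

* `ιTop_mem` (= `LocalGeom.ιT_mem`) : `ιTop z ∈ J1 := unionSub c0 (fun E => P E ⊓ J1Fam c0 E) hP1` as
  soon as `J1Fam c0 E ≤ P E` (`Bal60.J1_le_P00` for `P = P00`);
* `injective_bcO_J1` : `J̃¹(O_E) → Pic X_{ℚ̄_p}` is injective, from `hinjE : Injective (bcE c0 E)` (the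
  standard hypothesis of `ADPe93`) and the injectivity of `Pic X_{O_E} → Pic X_E` on `J̃¹(O_E)`
  (`RedN3.ExtInjective00` on `P00 ⊇ J̃¹`);
* `exists_ιTop_eq_of_level`, `exists_ιTop_eq_of_cmp` (= `LocalGeom.toric`) : a class `a ∈ A` killed
  by `p` which is the image of a class `y ∈ J̃¹(O_E)` of the formal kernel of `β` (the output of CMP:
  `Toric50.Junction.β_uJ_eq_one_of_generic`) is `ιTop z` for a family `z` of `p`-th roots of unity;
* `toric_field` : the field `toric` verbatim for an abstract bridge `j`.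
-/
import Mathlib
import Fermat.Agent.T1B.GalInput65.TopAct
import Fermat.Agent.T1B.Bridge54.IpUnion

set_option autoImplicit false
set_option linter.unusedSectionVars false
set_option linter.unusedVariables false
set_option linter.style.haveILetI false
set_option linter.overlappingInstances false
set_option synthInstance.maxHeartbeats 400000
set_option maxHeartbeats 1000000

noncomputable section

namespace Fermat.Agent.T1B.Toric50.UnionFields

open Fermat.Agent.TW.B5.Iface Fermat.Agent.RED.Interface4 Fermat.Agent.T1.HubInst98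
open Fermat.Agent.T1.IntSub47 Fermat.Agent.Jac Fermat.Agent.T1.RedIface75
open Fermat.Agent.T1B.Local66.LocalBase Fermat.Agent.T1B.Local66.Union
open Fermat.Agent.T1B.Plumb66
open Fermat.Agent.T1B.Bridge54.IpAction Fermat.Agent.T1B.Bridge54.IpInst
open Fermat.Agent.T1B.Bridge54.IpUnion
open Fermat.Agent.T1.CechFormal70 Fermat.Agent.T1B.Toric11 Fermat.Agent.T1B.ToricGal65
open Fermat.Agent.T1B.Union81 Fermat.Agent.T1B.GalInput65 Fermat.Agent.T1B.Toric50.Assemble

variable {p : ℕ} [Fact p.Prime] {K : IntermediateField ℚ Qbar}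

attribute [local instance] algWKbar

variable {B0 B1 B01 : Type} [CommRing B0] [CommRing B1] [CommRing B01]
  [Algebra (Wb p K) B0] [Algebra (Wb p K) B1] [Algebra (Wb p K) B01] [Algebra B0 B01]
  [Algebra B1 B01] [IsScalarTower (Wb p K) B0 B01] [IsScalarTower (Wb p K) B1 B01]
  {c0 : TwoChart (Wb p K) B0 B1 B01}

/-! ### Injectivity of `J̃¹(O_E) → Pic X_{ℚ̄_p}` -/

/-- `J̃¹(O_E) → Pic X_{ℚ̄_p}` is injective as soon as `Pic X_E → Pic X_{ℚ̄_p}` is, and
`Pic X_{O_E} → Pic X_E` is injective on `J̃¹(O_E)`. -/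
theorem injective_bcO_J1 (E : NLevel p K) (hinjE : Function.Injective (bcE c0 E))
    (hext : ∀ x ∈ J1Fam c0 E, bcOE c0 E x = 1 → x = 1) :
    Function.Injective fun y : J1 c0 ((levelFamilyN p K).O E) =>
      bcO c0 E (y : PicX c0 ((levelFamilyN p K).O E)) := by
  have key : ∀ a1 a2 : PicO c0 E, a1 ∈ J1Fam c0 E → a2 ∈ J1Fam c0 E →
      bcO c0 E a1 = bcO c0 E a2 → a1 = a2 := by
    intro a1 a2 h1 h2 h
    have h1' : bcO c0 E (a1 / a2) = 1 := by rw [map_div, h, div_self']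
    rw [← bcE_bcOE] at h1'
    have h2' : bcOE c0 E (a1 / a2) = 1 := hinjE (by rw [h1', map_one])
    exact div_eq_one.1 (hext _ ((J1Fam c0 E).div_mem h1 h2) h2')
  intro y1 y2 h
  exact Subtype.ext (key _ _ y1.2 y2.2 h)

section Fields

variable [FiniteDimensional ℚ K] {g : ℕ} {D : CechData (Wb p K) B0 B1 B01 g}
  {hρ0 : ∀ x, D.ρ0 x = algebraMap B0 B01 x} {hρ1 : ∀ x, D.ρ1 x = algebraMap B1 B01 x}
  {G : NLevel p K → Type} [∀ L, Group (G L)] {r : ℕ} {Bt : NLevel p K → ℕ → Type}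
  [∀ L n, CommGroup (Bt L n)]
  [∀ L, MulDistribMulAction (G L) (J1 c0 ((levelFamilyN p K).O L))]
  [∀ L n, MulDistribMulAction (G L)
    (Jn D (IsLocalRing.maximalIdeal ((levelFamilyN p K).O L)) n)]
  [∀ L n, MulDistribMulAction (G L)
    (Tn r (IsLocalRing.maximalIdeal ((levelFamilyN p K).O L)) n)]
  [∀ L, MulDistribMulAction (G L) (Tinf r (IsLocalRing.maximalIdeal ((levelFamilyN p K).O L)))]
  (I : ∀ L, TowerInput c0 D hρ0 hρ1 ((levelFamilyN p K).O L) (G L) p r (Bt L))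
  {good : ∀ (O : Type) [CommRing O] [IsDomain O] [IsDiscreteValuationRing O]
    [Algebra (Wb p K) O], Prop}
  (F : TorFam r D good) (hO : ∀ L, good ((levelFamilyN p K).O L))
  (hI : ∀ L n, (I L).ι n = F.ι ((levelFamilyN p K).O L) (hO L) n)

/-! ### `ιT_mem` -/

variable {P : ∀ E : NLevel p K, Subgroup (PicO c0 E)}
  {hP1 : Compatible c0 (fun E => P E ⊓ J1Fam c0 E)}

/-- **`LocalGeom.ιT_mem`** for `J1 = ⋃_E (P E ⊓ J̃¹(O_E))`, as soon as `J̃¹(O_E) ≤ P E`
(`Bal60.J1_le_P00` for `P = P00`). -/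
theorem ιTop_mem (hJP : ∀ E, J1Fam c0 E ≤ P E) (z : Fin r → ↥(OneUnits.oneUnits p)) :
    ιTop I F hO hI z ∈ unionSub c0 (fun E => P E ⊓ J1Fam c0 E) hP1 := by
  obtain ⟨E, w, hw⟩ := exists_ιTop_eq I F hO hI z
  rw [hw]
  have hy1 : (((I E).toricPoint w : J1 c0 ((levelFamilyN p K).O E)) :
      PicX c0 ((levelFamilyN p K).O E)) ∈ J1Fam c0 E :=
    ((I E).toricPoint w).2
  exact mem_unionSub_of_mem c0 E (Subgroup.mem_inf.2 ⟨hJP E hy1, hy1⟩)

/-! ### `toric` -/

/-- **`LocalGeom.toric`, level form**: a class `a ∈ A` killed by `p` which is the image of a class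
`y ∈ J̃¹(O_E)` of the formal kernel of `β` (CMP), at a level where `J̃¹(O_E) → Pic X_{ℚ̄_p}` is
injective, is `ιTop z` for a family `z` of `p`-th roots of unity. -/
theorem exists_ιTop_eq_of_level (a : Atop p K c0) (hpa : p • a = 0) (E : NLevel p K)
    (hinj : Function.Injective fun y : J1 c0 ((levelFamilyN p K).O E) => bcO c0 E (y : PicX c0 ((levelFamilyN p K).O E)))
    (y : J1 c0 ((levelFamilyN p K).O E)) (hya : Additive.ofMul (bcO c0 E (y : PicX c0 ((levelFamilyN p K).O E))) = a)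
    (hy : ∀ n, (I E).β n (uJ c0 D hρ0 hρ1 ((levelFamilyN p K).O E) n y) = 1) :
    ∃ z : Fin r → ↥(OneUnits.oneUnits p), (∀ e, z e ^ p = 1) ∧ ιTop I F hO hI z = a := by
  have hinj' : Function.Injective (iΩ (c0 := c0) (levelFamilyN p K) E) := by
    intro y1 y2 h
    apply hinj
    show bcO c0 E (y1 : PicX c0 ((levelFamilyN p K).O E)) = bcO c0 E (y2 : PicX c0 ((levelFamilyN p K).O E))
    rw [bcO_eq_mapAlg]
    exact h
  have hp : (mapAlg c0 ((levelFamilyN p K).toΩ E)
      (y : PicX c0 ((levelFamilyN p K).O E))) ^ p = 1 := by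
    rw [← bcO_eq_mapAlg]
    have h1 : p • (Additive.ofMul (bcO c0 E (y : PicX c0 ((levelFamilyN p K).O E))) : Atop p K c0) = 0 := by
      rw [hya]; exact hpa
    exact h1
  obtain ⟨z, hz, hzy⟩ :=
    exists_ιΩ_eq (levelFamilyN p K) (unitsFamilyN p K) I F hO hI E hinj' y hy hp
  refine ⟨z, hz, ?_⟩
  unfold ιTop
  rw [hzy, ← bcO_eq_mapAlg]
  exact hya

/-- **`LocalGeom.toric`**: the same, the level and the class being provided by CMP. -/
theorem exists_ιTop_eq_of_cmp (a : Atop p K c0) (hpa : p • a = 0)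
    (hinjE : ∀ E : NLevel p K, Function.Injective (bcE c0 E))
    (hext : ∀ E : NLevel p K, ∀ x ∈ J1Fam c0 E, bcOE c0 E x = 1 → x = 1)
    (hcmp : ∃ (E : NLevel p K) (y : J1 c0 ((levelFamilyN p K).O E)),
      Additive.ofMul (bcO c0 E (y : PicX c0 ((levelFamilyN p K).O E))) = a ∧
        ∀ n, (I E).β n (uJ c0 D hρ0 hρ1 ((levelFamilyN p K).O E) n y) = 1) :
    ∃ z : Fin r → ↥(OneUnits.oneUnits p), (∀ e, z e ^ p = 1) ∧ ιTop I F hO hI z = a := by
  obtain ⟨E, y, hya, hy⟩ := hcmp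
  exact exists_ιTop_eq_of_level I F hO hI a hpa E
    (injective_bcO_J1 E (hinjE E) (hext E)) y hya hy

/-- **The field `toric` of `LocalGeom`, verbatim**, for an abstract bridge `j : T →+ A` on a group `T`
(`T = J₀(N)(ℚ̄)[p]`), `J1 = ⋃_E (P E ⊓ J̃¹(O_E))` and a predicate `ker` (`π₁ x = 0 ∧ π₂ x = 0`): the
hypothesis `hcmp` is the statement of the sub-cell CMP. -/
theorem toric_field {T : Type*} [AddCommGroup T] (j : T →+ Atop p K c0) (hpT : ∀ x : T, p • x = 0)
    (ker : T → Prop)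
    (hinjE : ∀ E : NLevel p K, Function.Injective (bcE c0 E))
    (hext : ∀ E : NLevel p K, ∀ x ∈ J1Fam c0 E, bcOE c0 E x = 1 → x = 1)
    (hcmp : ∀ x : T, ker x → j x ∈ unionSub c0 (fun E => P E ⊓ J1Fam c0 E) hP1 →
      ∃ (E : NLevel p K) (y : J1 c0 ((levelFamilyN p K).O E)),
        Additive.ofMul (bcO c0 E (y : PicX c0 ((levelFamilyN p K).O E))) = j x ∧
          ∀ n, (I E).β n (uJ c0 D hρ0 hρ1 ((levelFamilyN p K).O E) n y) = 1)
    (x : T) (hx : ker x) (hxJ : j x ∈ unionSub c0 (fun E => P E ⊓ J1Fam c0 E) hP1) :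
    ∃ z : Fin r → ↥(OneUnits.oneUnits p), (∀ e, z e ^ p = 1) ∧ ιTop I F hO hI z = j x := by
  have hpa : p • j x = 0 := by rw [← map_nsmul, hpT, map_zero]
  exact exists_ιTop_eq_of_cmp I F hO hI (j x) hpa hinjE hext (hcmp x hx hxJ)

end Fields

end Fermat.Agent.T1B.Toric50.UnionFields
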