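/-
Programme T1B (row 38 via S44), sub-cell TORIC50, brick TORIC-UNION, last step (helper50):
**THE BINDERS `ιT_mem` AND `toric` OF `Local66.Glue.localGeom_of_fields`, VERBATIM ON
`Local66.Objects.J1top c0 P00 hPP`.**

On top of `Toric50/UnionFields.lean` (and helper65's `GalInput65/TopAct.lean`: `ιTop`, `ιTop_mul`,
`ιTop_smul`):

* `ιTop_mem_J1top` : `∀ z, ιTop I F hO hI z ∈ J1top c0 P00 hPP` (`hJP : J1Fam c0 E ≤ P00 E`);
* `toric_J1top` : for an abstract bridge `j : T →+ Atop p K c0` on a group `T` killed by `p` and a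
  predicate `ker` on `T` (`T = J₀(N)(ℚ̄)[p]`, `ker x = (π₁ x = 0 ∧ π₂ x = 0)`),
  `ker x → j x ∈ J1top c0 P00 hPP → ∃ z, (∀ e, z e ^ p = 1) ∧ ιTop I F hO hI z = j x`,
  from the LEVEL-WISE statement of CMP: for every level `E` and every `y ∈ J̃¹(O_E)` with image
  `j x`, `ker x`, the class `y` lies in the formal kernel `∀ n, (I E).β n (uJ … n y) = 1`.
-/
import Mathlib
import Fermat.Agent.T1B.Toric50.UnionFields
import Fermat.Agent.T1B.Local66.Objects

set_option autoImplicit false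
set_option linter.unusedSectionVars false
set_option linter.unusedVariables false
set_option linter.style.haveILetI false
set_option linter.overlappingInstances false
set_option synthInstance.maxHeartbeats 400000
set_option maxHeartbeats 1000000

noncomputable section

namespace Fermat.Agent.T1B.Toric50.UnionGlue

open Fermat.Agent.TW.B5.Iface Fermat.Agent.RED.Interface4 Fermat.Agent.T1.HubInst98
open Fermat.Agent.T1.IntSub47 Fermat.Agent.Jac Fermat.Agent.T1.RedIface75
open Fermat.Agent.T1B.Local66.LocalBase Fermat.Agent.T1B.Local66.Union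
open Fermat.Agent.T1B.Local66.Objects
open Fermat.Agent.T1B.Plumb66
open Fermat.Agent.T1B.Bridge54.IpAction Fermat.Agent.T1B.Bridge54.IpInst
open Fermat.Agent.T1B.Bridge54.IpUnion
open Fermat.Agent.T1.CechFormal70 Fermat.Agent.T1B.Toric11 Fermat.Agent.T1B.ToricGal65
open Fermat.Agent.T1B.Union81 Fermat.Agent.T1B.GalInput65 Fermat.Agent.T1B.Toric50.Assemble
open Fermat.Agent.T1B.Toric50.UnionFields

variable {p : ℕ} [Fact p.Prime] {K : IntermediateField ℚ Qbar}

attribute [local instance] algWKbar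

variable {B0 B1 B01 : Type} [CommRing B0] [CommRing B1] [CommRing B01]
  [Algebra (Wb p K) B0] [Algebra (Wb p K) B1] [Algebra (Wb p K) B01] [Algebra B0 B01]
  [Algebra B1 B01] [IsScalarTower (Wb p K) B0 B01] [IsScalarTower (Wb p K) B1 B01]
  {c0 : TwoChart (Wb p K) B0 B1 B01}
  [FiniteDimensional ℚ K] {g : ℕ} {D : CechData (Wb p K) B0 B1 B01 g}
  {hρ0 : ∀ x, D.ρ0 x = algebraMap B0 B01 x} {hρ1 : ∀ x, D.ρ1 x = algebraMap B1 B01 x}
  {G : NLevel p K → Type} [∀ L, Group (G L)] {r : ℕ} {Bt : NLevel p K → ℕ → Type}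
  [∀ L n, CommGroup (Bt L n)]
  [∀ L, MulDistribMulAction (G L) (J1 c0 ((levelFamilyN p K).O L))]
  [∀ L n, MulDistribMulAction (G L)
    (Jn D (IsLocalRing.maximalIdeal ((levelFamilyN p K).O L)) n)]
  [∀ L n, MulDistribMulAction (G L)
    (Tn r (IsLocalRing.maximalIdeal ((levelFamilyN p K).O L)) n)]
  [∀ L, MulDistribMulAction (G L) (Tinf r (IsLocalRing.maximalIdeal ((levelFamilyN p K).O L)))]
  (I : ∀ L, TowerInput c0 D hρ0 hρ1 ((levelFamilyN p K).O L) (G L) p r (Bt L))
  {good : ∀ (O : Type) [CommRing O] [IsDomain O] [IsDiscreteValuationRing O]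
    [Algebra (Wb p K) O], Prop}
  (F : TorFam r D good) (hO : ∀ L, good ((levelFamilyN p K).O L))
  (hI : ∀ L n, (I L).ι n = F.ι ((levelFamilyN p K).O L) (hO L) n)
  (P00 : ∀ E : NLevel p K, Subgroup (PicO c0 E)) (hPP : Compatible c0 P00)

/-- **The binder `ιT_mem` of `Local66.Glue.localGeom_of_fields`.** -/
theorem ιTop_mem_J1top (hJP : ∀ E, J1Fam c0 E ≤ P00 E) (z : Fin r → ↥(OneUnits.oneUnits p)) :
    ιTop I F hO hI z ∈ J1top c0 P00 hPP :=
  ιTop_mem I F hO hI hJP z

/-- **The binder `toric` of `Local66.Glue.localGeom_of_fields`** for an abstract bridge `j`, from the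
level-wise statement of CMP. -/
theorem toric_J1top {T : Type*} [AddCommGroup T] (j : T →+ Atop p K c0)
    (hpT : ∀ x : T, p • x = 0) (ker : T → Prop)
    (hinjE : ∀ E : NLevel p K, Function.Injective (bcE c0 E))
    (hext : ∀ E : NLevel p K, ∀ x ∈ J1Fam c0 E, bcOE c0 E x = 1 → x = 1)
    (hcmp : ∀ x : T, ker x → ∀ (E : NLevel p K) (y : J1 c0 ((levelFamilyN p K).O E)),
      Additive.ofMul (bcO c0 E (y : PicX c0 ((levelFamilyN p K).O E))) = j x →
        ∀ n, (I E).β n (uJ c0 D hρ0 hρ1 ((levelFamilyN p K).O E) n y) = 1)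
    (x : T) (hx : ker x) (hxJ : j x ∈ J1top c0 P00 hPP) :
    ∃ z : Fin r → ↥(OneUnits.oneUnits p), (∀ e, z e ^ p = 1) ∧ ιTop I F hO hI z = j x := by
  obtain ⟨E, a, ha, hae⟩ := (mem_J1top c0 P00 hPP).1 hxJ
  have ha1 : a ∈ J1Fam c0 E := (Subgroup.mem_inf.1 ha).2
  let y : J1 c0 ((levelFamilyN p K).O E) := ⟨a, ha1⟩
  have hya : Additive.ofMul (bcO c0 E (y : PicX c0 ((levelFamilyN p K).O E))) = j x := hae
  have hpa : p • j x = 0 := by rw [← map_nsmul, hpT, map_zero]
  exact exists_ιTop_eq_of_level I F hO hI (j x) hpa E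
    (injective_bcO_J1 E (hinjE E) (hext E)) y hya (hcmp x hx E y hya)

end Fermat.Agent.T1B.Toric50.UnionGlue
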