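/-
T1B (S44), sub-cell TORIC50 (helper50): **the family of toric towers** over all discrete valuation
rings `O` over `W` in which the uniformiser `π` of `W` is not a unit.

The toric maps `ι n : (1 + 𝔪/𝔪ⁿ)^r →* Ĵ_D(O/𝔪ⁿ, 𝔪/𝔪ⁿ)` exist only over the artinian rings `O/𝔪ⁿ`
(they are NOT a `Toric11.TorNat`); the one naturality statement `ToricFamily.natural` for
`W`-algebra maps `O/𝔪ⁿ → O'/𝔪'ⁿ'` contains the compatibility with the transition maps (`ι_pT`), the
Galois equivariance (`ι_smul`) and the compatibility with extensions `O → O'`.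
-/
import Mathlib
import Fermat.Agent.T1B.Toric11.TowerJ
import Fermat.Agent.T1B.ToricGal65.Inst

set_option autoImplicit false
set_option linter.unusedSectionVars false

noncomputable section

namespace Fermat.Agent.T1B.Toric50

open Fermat.Agent.T1.CechFormal70 Fermat.Agent.T1B.Toric11 Fermat.Agent.T1B.ToricGal65

universe u

variable {W B0 B1 B01 : Type u} [CommRing W] [CommRing B0] [CommRing B1] [CommRing B01]
  [Algebra W B0] [Algebra W B1] [Algebra W B01] {g : ℕ}

/-- **The family of toric towers** of rank `r` for the Čech datum `D`. -/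
structure ToricFamily (π : W) (D : CechData W B0 B1 B01 g) (r : ℕ) : Type (u + 1) where
  /-- the toric maps -/
  ι : ∀ (O : Type u) [CommRing O] [IsDomain O] [IsDiscreteValuationRing O] [Algebra W O],
    algebraMap W O π ∈ IsLocalRing.maximalIdeal O → ∀ n : ℕ,
      Tn r (IsLocalRing.maximalIdeal O) n →* Jn D (IsLocalRing.maximalIdeal O) n
  /-- naturality for `W`-algebra maps between truncations -/
  natural : ∀ (O O' : Type u) [CommRing O] [IsDomain O] [IsDiscreteValuationRing O] [Algebra W O]
    [CommRing O'] [IsDomain O'] [IsDiscreteValuationRing O'] [Algebra W O']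
    (hO : algebraMap W O π ∈ IsLocalRing.maximalIdeal O)
    (hO' : algebraMap W O' π ∈ IsLocalRing.maximalIdeal O') (n n' : ℕ)
    (φ : Tr (IsLocalRing.maximalIdeal O) n →ₐ[W] Tr (IsLocalRing.maximalIdeal O') n')
    (hφ : mQ (IsLocalRing.maximalIdeal O) n ≤
      (mQ (IsLocalRing.maximalIdeal O') n').comap (φ : Tr (IsLocalRing.maximalIdeal O) n →+*
        Tr (IsLocalRing.maximalIdeal O') n'))
    (z : Tn r (IsLocalRing.maximalIdeal O) n),
    D.JhatMap φ hφ (ι O hO n z) =
      ι O' hO' n' (fun i => unitsOneMap (φ : Tr (IsLocalRing.maximalIdeal O) n →+*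
        Tr (IsLocalRing.maximalIdeal O') n') hφ (z i))

namespace ToricFamily

variable {π : W} {D : CechData W B0 B1 B01 g} {r : ℕ} (F : ToricFamily π D r)
  (O : Type u) [CommRing O] [IsDomain O] [IsDiscreteValuationRing O] [Algebra W O]
  (hO : algebraMap W O π ∈ IsLocalRing.maximalIdeal O)

/-- **`ι_pT`**: compatibility with the transition maps. -/
theorem ι_pT (n : ℕ) (z : Tn r (IsLocalRing.maximalIdeal O) (n + 1)) :
    F.ι O hO n (pT (W := W) r (IsLocalRing.maximalIdeal O) n z) =
      pJ D (IsLocalRing.maximalIdeal O) n (F.ι O hO (n + 1) z) :=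
  (F.natural O O hO hO (n + 1) n (fac W (IsLocalRing.maximalIdeal O) n)
    (fac_mQ W (IsLocalRing.maximalIdeal O) n) z).symm

/-- **`ι_smul`**: Galois equivariance, for the actions of `ToricGal65`. -/
theorem ι_smul {G : Type u} [Group G] (ρ : G →* (O ≃ₐ[W] O)) (n : ℕ) (s : G)
    (z : Tn r (IsLocalRing.maximalIdeal O) n) :
    letI := actJn ρ D n
    letI := actTn ρ r n
    F.ι O hO n (s • z) = s • F.ι O hO n z :=
  (F.natural O O hO hO n n (truncRho ρ n s) (mT_le_comap_truncRho ρ n s) z).symm

end ToricFamily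

end Fermat.Agent.T1B.Toric50
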