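/-
T1B (S44), sub-cell TORIC50 (helper50): **final assembly for one complete `O`**.

From
* a family of toric towers `F : ToricFamily π D r` (T-TORIC, helper98's TORIC-INST-MODEL),
* two norm systems `Sα Sβ : NormSys D D'` (NORM-JHAT, helper11),
* `β_ι` (NORM-IOTA, helper84) and the first order exactness `hfo` (T-LIN + HFO-ASSEMBLY),
* a Galois action `ρ : G →* (O ≃ₐ[W] O)` with cyclotomic character `χ` (T-GAL, helper65),
* the model hypotheses `hInj` (COORD-INJ), `hfin0`, `hnzd` (T-ALG),
the `TowerInput` of `Toric50/Assemble.lean`, hence the toric points `toricPoint : (1 + 𝔪)^r →* J̃¹(O)`,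
their equivariance, and the description of the `p`-torsion of the formal kernel of the two norms.
-/
import Mathlib
import Fermat.Agent.T1B.Toric50.Assemble
import Fermat.Agent.T1B.Toric50.Family
import Fermat.Agent.T1B.Toric11.NormNat
import Fermat.Agent.T1B.Toric11.AlgBridge

set_option autoImplicit false
set_option linter.unusedSectionVars false
set_option linter.unusedVariables false
set_option linter.style.haveILetI false

open TensorProduct Polynomial

noncomputable section

namespace Fermat.Agent.T1B.Toric50.Final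

open Fermat.Agent.Jac Fermat.Agent.Jac.BaseChange75
open Fermat.Agent.T1.RedIface75 Fermat.Agent.T1.CechFormal70
open Fermat.Agent.T1B.Toric11 Fermat.Agent.T1B.Toric50 Fermat.Agent.T1B.Toric50.Assemble
open Fermat.Agent.T1B.ToricGal65
open scoped Fermat.Agent.Jac.BaseChange75

universe u

variable {W B0 B1 B01 : Type u} [CommRing W] [CommRing B0] [CommRing B1] [CommRing B01]
  [Algebra W B0] [Algebra W B1] [Algebra W B01] [Algebra B0 B01] [Algebra B1 B01]
  [IsScalarTower W B0 B01] [IsScalarTower W B1 B01]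
  {B0' B1' B01' : Type u} [CommRing B0'] [CommRing B1'] [CommRing B01']
  [Algebra W B0'] [Algebra W B1'] [Algebra W B01']
  (c0 : TwoChart W B0 B1 B01) {g g' : ℕ} (D : CechData W B0 B1 B01 g)
  {D' : CechData W B0' B1' B01' g'}
  (hρ0 : ∀ x, D.ρ0 x = algebraMap B0 B01 x) (hρ1 : ∀ x, D.ρ1 x = algebraMap B1 B01 x)
  (O : Type u) [CommRing O] [IsDomain O] [IsDiscreteValuationRing O] [Algebra W O]
  {G : Type u} [Group G] (ρ : G →* (O ≃ₐ[W] O))

/-- **`u_smul`**: the truncations `uJ n` are Galois equivariant. -/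
theorem uJ_smul (n : ℕ) (s : G) (y : J1 c0 O) :
    letI := j1Act c0 ρ
    letI := actJn ρ D n
    uJ c0 D hρ0 hρ1 O n (s • y) = s • uJ c0 D hρ0 hρ1 O n y := by
  letI := j1Act c0 ρ
  letI := actJn ρ D n
  apply uJ_unique
  exact coord_char_smul c0 ρ D hρ0 hρ1 n s (jhatToPic_uJ c0 D hρ0 hρ1 O n y)

/-- **The `TowerInput` of a toric family.** -/
def towerInput {π : W} {r : ℕ} (F : ToricFamily π D r) (Sα Sβ : NormSys D D')
    (hO : algebraMap W O π ∈ IsLocalRing.maximalIdeal O)
    (hc : IsAdicComplete (IsLocalRing.maximalIdeal O) O) (p : ℕ) (χ : G → ℕ)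
    (hχ : ∀ (s : G) (ζ : O), ζ ^ p = 1 → ρ s ζ = ζ ^ χ s)
    (β_ι : ∀ n (z : Tn r (IsLocalRing.maximalIdeal O) n),
      βn2 Sα Sβ (IsLocalRing.maximalIdeal O) n (F.ι O hO n z) = 1)
    (hfo : ∀ n, FirstOrder D (IsLocalRing.maximalIdeal O) r n
      (Bn1 := Jn D' (IsLocalRing.maximalIdeal O) (n + 1) × Jn D' (IsLocalRing.maximalIdeal O) (n + 1))
      (βn2 Sα Sβ (IsLocalRing.maximalIdeal O) (n + 1)) (F.ι O hO (n + 1)))
    (hInj : CoordInjective c0 O)
    (hfin0 : Module.Finite O[X] (Module.AEval O (O ⊗[W] B0) (c0.baseChange O).t))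
    (hnzd : ∀ v : O ⊗[W] B01, v - 1 ∈ eI (IsLocalRing.maximalIdeal O) (O ⊗[W] B01) →
      v ∈ nonZeroDivisors (O ⊗[W] B01)) :
    letI := j1Act c0 ρ
    letI : ∀ n, MulDistribMulAction G (Jn D (IsLocalRing.maximalIdeal O) n) := fun n => actJn ρ D n
    letI : ∀ n, MulDistribMulAction G (Tn r (IsLocalRing.maximalIdeal O) n) :=
      fun n => actTn ρ r n
    letI := actTinf ρ r
    TowerInput c0 D hρ0 hρ1 O G p r
      (fun n => Jn D' (IsLocalRing.maximalIdeal O) n × Jn D' (IsLocalRing.maximalIdeal O) n) := by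
  letI := j1Act c0 ρ
  letI : ∀ n, MulDistribMulAction G (Jn D (IsLocalRing.maximalIdeal O) n) := fun n => actJn ρ D n
  letI : ∀ n, MulDistribMulAction G (Tn r (IsLocalRing.maximalIdeal O) n) :=
    fun n => actTn ρ r n
  letI := actTinf ρ r
  exact
    { pB := pJ2 (IsLocalRing.maximalIdeal O) D'
      β := βn2 Sα Sβ (IsLocalRing.maximalIdeal O)
      ι := F.ι O hO
      β_pJ := βn2_pJ Sα Sβ (IsLocalRing.maximalIdeal O)
      ι_pT := F.ι_pT O hO
      β_ι := β_ι
      hfo := hfo
      χ := χ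
      u_smul := fun n s y => uJ_smul c0 D hρ0 hρ1 O ρ n s y
      ι_smul := fun n s z => F.ι_smul O hO ρ n s z
      q_smul := fun n s w => qT_smul ρ r n s w
      β_smul := fun n s x hx =>
        βn2_JhatMap_eq_one Sα Sβ (IsLocalRing.maximalIdeal O) (IsLocalRing.maximalIdeal O) n
          (truncRho ρ n s) (mT_le_comap_truncRho ρ n s) x hx
      χ_spec := fun s w hw => chi_spec_Tinf ρ χ hχ r s w hw
      hInj := hInj
      complete := hc
      alg := fun w =>
        haveI := hc
        package2_alg_of_nzd c0 D hρ0 hρ1 O hfin0 hnzd (pT (W := W) r (IsLocalRing.maximalIdeal O))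
          (F.ι O hO) (qT (W := W) r (IsLocalRing.maximalIdeal O)) (F.ι_pT O hO)
          (qT_compat r (IsLocalRing.maximalIdeal O)) w }

end Fermat.Agent.T1B.Toric50.Final
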