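/-
T1B (S44), sub-cell TORIC50 (helper50): **the toric family of a toric base**.

`H : Toric98.ToricBase D π` (helper98, `W`-level hypotheses of the toric gluing) gives gluing data
`H.glueData Λ hπ` over every artinian `W`-algebra `Λ` in which `π` is nilpotent, with index set
`H.Pts Λ` (the points of `V(s01)`), natural in `Λ`.  Together with a system of rational nodes
`N : NodeSys H (Fin r)` (`N.node Λ hπ : Fin r → H.Pts Λ` for `Λ` local artinian with `π` nilpotent, compatible with the
contractions and alone in their fibres) this gives the `ToricFamily π D r`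
(`Toric50/Family.lean`): on `Λ = O/𝔪ⁿ⁺¹`
  `ι (n+1) z = (H.glueData Λ _).iota _ (extendHom (N.node Λ) _ z)`,
and `ι 0 = 1` (zero ring).
-/
import Mathlib
import Fermat.Agent.T1B.Toric50.Family
import Fermat.Agent.T1B.Toric98.GlueModel

set_option autoImplicit false
set_option linter.unusedSectionVars false
set_option linter.unusedVariables false
set_option linter.style.haveILetI false

noncomputable section

namespace Fermat.Agent.T1B.Toric50.Wrap

open TensorProduct IsLocalRing
open Fermat.Agent.T1.CechFormal70 Fermat.Agent.T1B.Toric11 Fermat.Agent.T1B.Toric50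
  Fermat.Agent.T1B.Toric50.Glue Fermat.Agent.T1B.Toric98

universe u

/-! ### The truncations of a discrete valuation ring -/

section Trunc

variable (O : Type u) [CommRing O] [IsDomain O] [IsDiscreteValuationRing O]

theorem isArtinianRing_tr (n : ℕ) : IsArtinianRing (O ⧸ maximalIdeal O ^ n) := by
  have : Ring.KrullDimLE 0 (O ⧸ maximalIdeal O ^ n) := Ring.krullDimLE_zero_iff.mpr fun J prime => by
    have hJ := prime.comap (Ideal.Quotient.mk (maximalIdeal O ^ n))
    have h1 : maximalIdeal O ^ n ≤ J.comap (Ideal.Quotient.mk (maximalIdeal O ^ n)) := by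
      intro x hx
      rw [Ideal.mem_comap, Ideal.Quotient.eq_zero_iff_mem.2 hx]
      exact J.zero_mem
    have h2 : maximalIdeal O ≤ J.comap (Ideal.Quotient.mk (maximalIdeal O ^ n)) :=
      hJ.le_of_pow_le h1
    have h3 : J.comap (Ideal.Quotient.mk (maximalIdeal O ^ n)) = maximalIdeal O :=
      ((maximalIdeal.isMaximal O).eq_of_le hJ.ne_top h2).symm
    have h4 : (J.comap (Ideal.Quotient.mk (maximalIdeal O ^ n))).IsMaximal := by
      rw [h3]; exact maximalIdeal.isMaximal O
    have := Ideal.map_eq_top_or_isMaximal_of_surjective (Ideal.Quotient.mk (maximalIdeal O ^ n))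
      Ideal.Quotient.mk_surjective h4
    rw [Ideal.map_comap_of_surjective _ Ideal.Quotient.mk_surjective] at this
    exact this.resolve_left prime.ne_top
  exact IsNoetherianRing.isArtinianRing_of_krullDimLE_zero

theorem nontrivial_tr_succ (n : ℕ) : Nontrivial (O ⧸ maximalIdeal O ^ (n + 1)) := by
  rw [Ideal.Quotient.nontrivial_iff]
  intro h
  have : maximalIdeal O ^ (n + 1) ≤ maximalIdeal O := Ideal.pow_le_self (Nat.succ_ne_zero n)
  rw [h] at this
  exact (maximalIdeal.isMaximal O).ne_top (top_le_iff.1 this)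

theorem isLocalRing_tr_succ (n : ℕ) : IsLocalRing (O ⧸ maximalIdeal O ^ (n + 1)) := by
  have := nontrivial_tr_succ O n
  exact IsLocalRing.of_surjective' (Ideal.Quotient.mk (maximalIdeal O ^ (n + 1)))
    Ideal.Quotient.mk_surjective

variable {W : Type u} [CommRing W] [Algebra W O] {π : W}

theorem isNilpotent_pi_tr (hO : algebraMap W O π ∈ maximalIdeal O) (n : ℕ) :
    IsNilpotent (algebraMap W (Tr (maximalIdeal O) n) π) := by
  refine ⟨n, ?_⟩
  have h1 : algebraMap W (Tr (maximalIdeal O) n) π =
      Ideal.Quotient.mk (maximalIdeal O ^ n) (algebraMap W O π) := rfl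
  rw [h1, ← map_pow, Ideal.Quotient.eq_zero_iff_mem]
  exact Ideal.pow_mem_pow hO n

end Trunc

variable {W B0 B1 B01 : Type u} [CommRing W] [CommRing B0] [CommRing B1] [CommRing B01]
  [Algebra W B0] [Algebra W B1] [Algebra W B01] {g : ℕ} {D : CechData W B0 B1 B01 g} {π : W}
  [hmax : (Ideal.span {π}).IsMaximal] [Algebra.FiniteType W B0] [Algebra.FiniteType W B1]
  [Algebra.FiniteType W B01]

/-- **The interface of brick (P3)**: a family of rational nodes (indexed by `En`) at every local
artinian level, compatible with the contraction maps and alone in their fibres. -/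
structure NodeSys (H : ToricBase D π) (En : Type) where
  node : ∀ (Λ : Type u) [CommRing Λ] [Algebra W Λ] [IsLocalRing Λ] [IsArtinianRing Λ],
    IsNilpotent (algebraMap W Λ π) → En → H.Pts Λ
  node_inj : ∀ (Λ : Type u) [CommRing Λ] [Algebra W Λ] [IsLocalRing Λ] [IsArtinianRing Λ]
    (hπ : IsNilpotent (algebraMap W Λ π)), Function.Injective (node Λ hπ)
  ptsMap_node : ∀ (Λ Λ' : Type u) [CommRing Λ] [Algebra W Λ] [IsLocalRing Λ] [IsArtinianRing Λ]
    [CommRing Λ'] [Algebra W Λ'] [IsLocalRing Λ'] [IsArtinianRing Λ']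
    (hπ : IsNilpotent (algebraMap W Λ π)) (hπ' : IsNilpotent (algebraMap W Λ' π))
    (f : Λ →ₐ[W] Λ') (k : En), H.ptsMap f (node Λ' hπ' k) = node Λ hπ k
  node_unique : ∀ (Λ Λ' : Type u) [CommRing Λ] [Algebra W Λ] [IsLocalRing Λ] [IsArtinianRing Λ]
    [CommRing Λ'] [Algebra W Λ'] [IsLocalRing Λ'] [IsArtinianRing Λ']
    (hπ : IsNilpotent (algebraMap W Λ π)) (hπ' : IsNilpotent (algebraMap W Λ' π))
    (f : Λ →ₐ[W] Λ') (k : En) (p' : H.Pts Λ'), H.ptsMap f p' = node Λ hπ k → p' = node Λ' hπ' k

/-- restriction of a system of nodes to a sub-family. -/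
def NodeSys.comp {H : ToricBase D π} {En En' : Type} (N : NodeSys H En) (idx : En' → En)
    (hidx : Function.Injective idx) : NodeSys H En' where
  node Λ _ _ _ _ hπ k := N.node Λ hπ (idx k)
  node_inj Λ _ _ _ _ hπ := (N.node_inj Λ hπ).comp hidx
  ptsMap_node Λ Λ' _ _ _ _ _ _ _ _ hπ hπ' f k := N.ptsMap_node Λ Λ' hπ hπ' f (idx k)
  node_unique Λ Λ' _ _ _ _ _ _ _ _ hπ hπ' f k p' h := N.node_unique Λ Λ' hπ hπ' f (idx k) p' h

theorem NodeSys.comp_node {H : ToricBase D π} {En En' : Type} (N : NodeSys H En) (idx : En' → En)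
    (hidx : Function.Injective idx) (Λ : Type u) [CommRing Λ] [Algebra W Λ] [IsLocalRing Λ]
    [IsArtinianRing Λ] (hπ : IsNilpotent (algebraMap W Λ π)) (k : En') :
    (N.comp idx hidx).node Λ hπ k = N.node Λ hπ (idx k) := rfl

variable (H : ToricBase D π) {r : ℕ} (N : NodeSys H (Fin r))
  (O : Type u) [CommRing O] [IsDomain O] [IsDiscreteValuationRing O] [Algebra W O]
  (hO : algebraMap W O π ∈ maximalIdeal O)

/-- the toric map at the level `O/𝔪ⁿ⁺¹`. -/
def iotaSucc (n : ℕ) : Tn r (maximalIdeal O) (n + 1) →* Jn D (maximalIdeal O) (n + 1) :=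
  haveI := isLocalRing_tr_succ O n
  haveI := isArtinianRing_tr O (n + 1)
  ((H.glueData (Tr (maximalIdeal O) (n + 1)) (isNilpotent_pi_tr O hO (n + 1))).iota
      (mQ_nilpotent (maximalIdeal O) (n + 1))).comp
    (extendHom (N.node (Tr (maximalIdeal O) (n + 1)) (isNilpotent_pi_tr O hO (n + 1)))
      (N.node_inj _ _))

/-- the toric tower of `O`. -/
def iota : ∀ n : ℕ, Tn r (maximalIdeal O) n →* Jn D (maximalIdeal O) n
  | 0 => 1
  | n + 1 => iotaSucc H N O hO n

theorem iota_succ (n : ℕ) (z : Tn r (maximalIdeal O) (n + 1)) :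
    haveI := isLocalRing_tr_succ O n
    haveI := isArtinianRing_tr O (n + 1)
    iota H N O hO (n + 1) z =
      (H.glueData (Tr (maximalIdeal O) (n + 1)) (isNilpotent_pi_tr O hO (n + 1))).iota
        (mQ_nilpotent (maximalIdeal O) (n + 1))
        (extendHom (N.node (Tr (maximalIdeal O) (n + 1)) (isNilpotent_pi_tr O hO (n + 1)))
          (N.node_inj _ _) z) := rfl

variable (O' : Type u) [CommRing O'] [IsDomain O'] [IsDiscreteValuationRing O'] [Algebra W O']
  (hO' : algebraMap W O' π ∈ maximalIdeal O')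

/-- **Naturality of the toric towers** for `W`-algebra maps between truncations. -/
theorem iota_natural (n n' : ℕ)
    (φ : Tr (maximalIdeal O) n →ₐ[W] Tr (maximalIdeal O') n')
    (hφ : mQ (maximalIdeal O) n ≤ (mQ (maximalIdeal O') n').comap
      (φ : Tr (maximalIdeal O) n →+* Tr (maximalIdeal O') n'))
    (z : Tn r (maximalIdeal O) n) :
    D.JhatMap φ hφ (iota H N O hO n z) =
      iota H N O' hO' n' (fun i => unitsOneMap (φ : Tr (maximalIdeal O) n →+*
        Tr (maximalIdeal O') n') hφ (z i)) := by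
  cases n' with
  | zero => rw [base_J D (maximalIdeal O') (D.JhatMap φ hφ _), base_J D (maximalIdeal O') (iota H N O' hO' 0 _)]
  | succ b =>
    cases n with
    | zero =>
      exfalso
      have h0 := subsingleton_Tr_zero (maximalIdeal O)
      have h1 := nontrivial_tr_succ O' b
      have e1 : (1 : Tr (maximalIdeal O) 0) = 0 := Subsingleton.elim _ _
      have e2 := congrArg φ e1
      rw [map_one, map_zero] at e2
      exact one_ne_zero e2
    | succ a =>
      haveI := isLocalRing_tr_succ O a
      haveI := isArtinianRing_tr O (a + 1)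
      haveI := isLocalRing_tr_succ O' b
      haveI := isArtinianRing_tr O' (b + 1)
      rw [iota_succ, iota_succ]
      rw [H.iota_natural φ (isNilpotent_pi_tr O hO (a + 1)) (isNilpotent_pi_tr O' hO' (b + 1))
        (mQ_nilpotent (maximalIdeal O) (a + 1)) (mQ_nilpotent (maximalIdeal O') (b + 1)) hφ]
      congr 1
      funext e'
      by_cases he : ∃ k, N.node (Tr (maximalIdeal O') (b + 1))
          (isNilpotent_pi_tr O' hO' (b + 1)) k = e'
      · obtain ⟨k, rfl⟩ := he
        rw [extendHom_apply_node,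
          N.ptsMap_node _ _ (isNilpotent_pi_tr O hO (a + 1)) (isNilpotent_pi_tr O' hO' (b + 1)),
          extendHom_apply_node]
      · rw [extendHom_apply_of_not_mem _ _ _ e' he]
        have h2 : ¬ ∃ k, N.node (Tr (maximalIdeal O) (a + 1))
            (isNilpotent_pi_tr O hO (a + 1)) k = H.ptsMap φ e' := by
          rintro ⟨k, hk⟩
          exact he ⟨k, (N.node_unique _ _ _ _ φ k e' hk.symm).symm⟩
        rw [extendHom_apply_of_not_mem _ _ _ _ h2, map_one]

/-- **The toric family of a toric base with a system of rational nodes.** -/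
def toricFamily : ToricFamily π D r where
  ι O _ _ _ _ hO n := iota H N O hO n
  natural O O' _ _ _ _ _ _ _ _ hO hO' n n' φ hφ z := iota_natural H N O hO O' hO' n n' φ hφ z

theorem toricFamily_ι (n : ℕ) : (toricFamily H N).ι O hO n = iota H N O hO n := rfl

end Fermat.Agent.T1B.Toric50.Wrap
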