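/-
T1B (S44), sub-cell TORIC50 (helper50): **master assembly**.

All bricks of the sub-cell composed, for ONE complete discrete valuation ring `O` over `W` with a
group `G` acting `W`-linearly:

* `hfo_of_fibre` : the first order exactness `FirstOrder D 𝔪 r n (βn2 Sα Sβ 𝔪 (n+1)) ι` from
  T-LIN (`Toric98.exists_P_S_of_fibre`, traces `Sα.trMap`, `Sβ.trMap` with (K2)) and the first order
  formula of the toric map with a `W`-rational toric first order term `d` (brick (O4));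
* `towerInput_of_base` : the `TowerInput` of `Toric50/Assemble.lean` from `H : ToricBase D π`,
  `N : NodeSys H (Fin r)` (helper98), the norm systems, `β_ι` (helper84), (O4), the fibre datum with
  (K2), the Galois action and the model hypotheses `hInj`, `hfin0`, `hnzd`.
-/
import Mathlib
import Fermat.Agent.T1B.Toric50.Final
import Fermat.Agent.T1B.Toric50.Wrap
import Fermat.Agent.T1B.Toric11.FirstOrderT98

set_option autoImplicit false
set_option linter.unusedSectionVars false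
set_option linter.unusedVariables false
set_option linter.style.haveILetI false

open TensorProduct Polynomial

noncomputable section

namespace Fermat.Agent.T1B.Toric50.Master

open Fermat.Agent.Jac Fermat.Agent.Jac.BaseChange75
open Fermat.Agent.T1.RedIface75 Fermat.Agent.T1.CechFormal70
open Fermat.Agent.T1B.Toric11 Fermat.Agent.T1B.Toric50 Fermat.Agent.T1B.Toric50.Assemble
open Fermat.Agent.T1B.ToricGal65 Fermat.Agent.T1B.Toric98 Fermat.Agent.T1B.Toric50.Wrap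
open scoped Fermat.Agent.Jac.BaseChange75

universe u

variable {W B0 B1 B01 : Type u} [CommRing W] [CommRing B0] [CommRing B1] [CommRing B01]
  [Algebra W B0] [Algebra W B1] [Algebra W B01]
  {B0' B1' B01' : Type u} [CommRing B0'] [CommRing B1'] [CommRing B01']
  [Algebra W B0'] [Algebra W B1'] [Algebra W B01']
  {g g' : ℕ} {D : CechData W B0 B1 B01 g} {D' : CechData W B0' B1' B01' g'}

/-- **The first order input (O4)** of the toric map at the level `n + 1`, for a fibre datum `FD`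
and a family of nodes `node : Fin r → En`: a `W`-rational toric first order term. -/
def FirstOrderToric {π : W} {En : Type} {κ : Type u} [Field κ] [Algebra W κ] [DecidableEq En]
    (FD : FibreDatum π D.ρ0 D.ρ1 En κ) {O : Type u} [CommRing O] [Algebra W O] (𝔪 : Ideal O)
    {r : ℕ} (node : Fin r → En) (n : ℕ) (ι : Tn r 𝔪 (n + 1) →* Jn D 𝔪 (n + 1)) : Prop :=
  ∃ d : Fin r → B01, (∀ k, FD.IsToric (FibreDatum.indic (node k)) (d k)) ∧
    ∀ w : Fin r → kerI 𝔪 n, ∃ u : U01 (W := W) (B01 := B01) 𝔪 (n + 1),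
      ((u : (Tr 𝔪 (n + 1) ⊗[W] B01)ˣ) : Tr 𝔪 (n + 1) ⊗[W] B01)
        = 1 + ∑ k, (w k : Tr 𝔪 (n + 1)) ⊗ₜ[W] d k ∧
      ι (lamT 𝔪 r n (Multiplicative.ofAdd w)) = (D.pkg (Tr 𝔪 (n + 1))).cls (mQ 𝔪 (n + 1)) u

/-- **`hfo` from T-LIN**. -/
theorem hfo_of_fibre {π : W} [hmax : (Ideal.span {π}).IsMaximal] {En : Type} {κ : Type u}
    [Field κ] [Algebra W κ] [DecidableEq En] (FD : FibreDatum π D.ρ0 D.ρ1 En κ)
    (hsurj : Function.Surjective (algebraMap W κ))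
    (hker : ∀ x : W, algebraMap W κ x = 0 → x ∈ Ideal.span {π})
    (Sα Sβ : NormSys D D') (α β : B01' →ₗ[W] B01)
    (hα0 : ∀ a : B0', ∃ a0 : B0, α (D'.ρ0 a) = D.ρ0 a0)
    (hα1 : ∀ a : B1', ∃ a1 : B1, α (D'.ρ1 a) = D.ρ1 a1)
    (hβ0 : ∀ a : B0', ∃ a0 : B0, β (D'.ρ0 a) = D.ρ0 a0)
    (hβ1 : ∀ a : B1', ∃ a1 : B1, β (D'.ρ1 a) = D.ρ1 a1)
    (hK2α : ∀ f : B01, α (Sα.trMap f) - f ∈ FD.P) (hK2β : ∀ f : B01, β (Sβ.trMap f) - f ∈ FD.Q)
    {r : ℕ} (node : Fin r → En) (hnode : Function.Injective node) (e0 : En)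
    (he0 : ∀ k, node k ≠ e0) (hcov : ∀ e, e ≠ e0 → ∃ k, node k = e)
    {O : Type u} [CommRing O] [Algebra W O] (𝔪 : Ideal O) (hπ𝔪 : algebraMap W O π ∈ 𝔪) (n : ℕ)
    (ι : Tn r 𝔪 (n + 1) →* Jn D 𝔪 (n + 1)) (h4 : FirstOrderToric FD 𝔪 node n ι) :
    FirstOrder D 𝔪 r n (Bn1 := Jn D' 𝔪 (n + 1) × Jn D' 𝔪 (n + 1)) (βn2 Sα Sβ 𝔪 (n + 1)) ι := by
  obtain ⟨d, hd, hι⟩ := h4
  obtain ⟨P, S, hP, hS⟩ := exists_P_S_of_fibre D D' Sα.trMap Sβ.trMap d FD hsurj hker α β hα0 hα1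
    hβ0 hβ1 hK2α hK2β node hnode e0 he0 hcov hd
  have h𝔭 : ∀ c ∈ Ideal.span {π}, algebraMap W O c ∈ 𝔪 := by
    intro c hc
    obtain ⟨c', rfl⟩ := Ideal.mem_span_singleton'.1 hc
    rw [map_mul]
    exact 𝔪.mul_mem_left _ hπ𝔪
  refine firstOrder_of_normPair 𝔪 Sα Sβ r n ι d hι (Ideal.span {π}) h𝔭 P S (fun i j => hP i j)
    (fun i j => ?_)
  rw [stackMat_eq_Dβ]
  exact hS i j

/-! ### The master assembly -/

section MasterAssembly

variable [Algebra B0 B01] [Algebra B1 B01] [IsScalarTower W B0 B01] [IsScalarTower W B1 B01]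
  (c0 : TwoChart W B0 B1 B01)
  (hρ0 : ∀ x, D.ρ0 x = algebraMap B0 B01 x) (hρ1 : ∀ x, D.ρ1 x = algebraMap B1 B01 x)
  {π : W} [hmax : (Ideal.span {π}).IsMaximal] [Algebra.FiniteType W B0] [Algebra.FiniteType W B1]
  [Algebra.FiniteType W B01]
  (H : ToricBase D π) {r : ℕ} (N : NodeSys H (Fin r))
  {En : Type} {κ : Type u} [Field κ] [Algebra W κ] [DecidableEq En]
  (FD : FibreDatum π D.ρ0 D.ρ1 En κ)
  (hsurj : Function.Surjective (algebraMap W κ))
  (hker : ∀ x : W, algebraMap W κ x = 0 → x ∈ Ideal.span {π})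
  (Sα Sβ : NormSys D D') (α β : B01' →ₗ[W] B01)
  (hα0 : ∀ a : B0', ∃ a0 : B0, α (D'.ρ0 a) = D.ρ0 a0)
  (hα1 : ∀ a : B1', ∃ a1 : B1, α (D'.ρ1 a) = D.ρ1 a1)
  (hβ0 : ∀ a : B0', ∃ a0 : B0, β (D'.ρ0 a) = D.ρ0 a0)
  (hβ1 : ∀ a : B1', ∃ a1 : B1, β (D'.ρ1 a) = D.ρ1 a1)
  (hK2α : ∀ f : B01, α (Sα.trMap f) - f ∈ FD.P) (hK2β : ∀ f : B01, β (Sβ.trMap f) - f ∈ FD.Q)
  (node : Fin r → En) (hnode : Function.Injective node) (e0 : En)
  (he0 : ∀ k, node k ≠ e0) (hcov : ∀ e, e ≠ e0 → ∃ k, node k = e)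
  (O : Type u) [CommRing O] [IsDomain O] [IsDiscreteValuationRing O] [Algebra W O]
  (hO : algebraMap W O π ∈ IsLocalRing.maximalIdeal O)
  {G : Type u} [Group G] (ρ : G →* (O ≃ₐ[W] O))

/-- **The master assembly of TORIC50**: every remaining input is an explicit hypothesis. -/
def towerInput_of_base (hc : IsAdicComplete (IsLocalRing.maximalIdeal O) O) (p : ℕ) (χ : G → ℕ)
    (hχ : ∀ (s : G) (ζ : O), ζ ^ p = 1 → ρ s ζ = ζ ^ χ s)
    (β_ι : ∀ n (z : Tn r (IsLocalRing.maximalIdeal O) n),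
      βn2 Sα Sβ (IsLocalRing.maximalIdeal O) n (iota H N O hO n z) = 1)
    (h4 : ∀ n, FirstOrderToric FD (IsLocalRing.maximalIdeal O) node n (iota H N O hO (n + 1)))
    (hInj : CoordInjective c0 O)
    (hfin0 : Module.Finite O[X] (Module.AEval O (O ⊗[W] B0) (c0.baseChange O).t))
    (hnzd : ∀ v : O ⊗[W] B01, v - 1 ∈ eI (IsLocalRing.maximalIdeal O) (O ⊗[W] B01) →
      v ∈ nonZeroDivisors (O ⊗[W] B01)) :
    letI := j1Act c0 ρ
    letI : ∀ n, MulDistribMulAction G (Jn D (IsLocalRing.maximalIdeal O) n) := fun n => actJn ρ D n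
    letI : ∀ n, MulDistribMulAction G (Tn r (IsLocalRing.maximalIdeal O) n) :=
      fun n => actTn ρ r n
    letI := actTinf ρ r
    TowerInput c0 D hρ0 hρ1 O G p r
      (fun n => Jn D' (IsLocalRing.maximalIdeal O) n × Jn D' (IsLocalRing.maximalIdeal O) n) :=
  Final.towerInput c0 D hρ0 hρ1 O ρ (toricFamily H N) Sα Sβ hO hc p χ hχ β_ι
    (fun n => hfo_of_fibre FD hsurj hker Sα Sβ α β hα0 hα1 hβ0 hβ1 hK2α hK2β node hnode e0 he0 hcov
      (IsLocalRing.maximalIdeal O) hO n (iota H N O hO (n + 1)) (h4 n))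
    hInj hfin0 hnzd

end MasterAssembly

end Fermat.Agent.T1B.Toric50.Master
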