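/-
T1B (S44), sub-cell TORIC50 (helper50): **the junction CMP ⇒ formal kernel**.

The tower input of `Toric50/Master.lean` has `β n = βn2 Sα Sβ 𝔪 n` (the pair of Čech norms) and
`ι n = (Wrap.toricFamily H N).ι O hO n`; both by `rfl`.  Hence the formal kernel
`{y ∈ J̃¹(O) | ∀ n, β n (uJ n y) = 1}` of `TowerInput.exists_toricPoint_of_pow_eq_one` and of
`Union81.exists_ιΩ_eq` is the intersection of the formal kernels of the two norm systems `Sα`, `Sβ`,
which is what the comparison theorem `Cmp15.cmp_core` delivers (one application per degeneracy map).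
-/
import Mathlib
import Fermat.Agent.T1B.Toric50.Master
import Fermat.Agent.T1B.Cmp15.Main

set_option autoImplicit false
set_option linter.unusedSectionVars false
set_option linter.unusedVariables false
set_option linter.style.haveILetI false

open TensorProduct Polynomial

noncomputable section

namespace Fermat.Agent.T1B.Toric50.Junction

open Fermat.Agent.Jac Fermat.Agent.Jac.JSmooth85Alg Fermat.Agent.Jac.JGroup85Pic
open Fermat.Agent.Jac.LineOps39 Fermat.Agent.Jac.BaseChange75 Fermat.Agent.T1.Red11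
open Fermat.Agent.T1.RedIface75 Fermat.Agent.T1.CechFormal70
open Fermat.Agent.T1B.Toric11 Fermat.Agent.T1B.Toric50 Fermat.Agent.T1B.Toric50.Assemble
open Fermat.Agent.T1B.ToricGal65 Fermat.Agent.T1B.Toric98 Fermat.Agent.T1B.Toric50.Wrap
open Fermat.Agent.T1B.Toric50.Master Fermat.Agent.T1B.Cmp15
open scoped Fermat.Agent.Jac.BaseChange75

universe u uG

variable {W B0 B1 B01 : Type u} [CommRing W] [CommRing B0] [CommRing B1] [CommRing B01]
  [Algebra W B0] [Algebra W B1] [Algebra W B01]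
  {B0' B1' B01' : Type u} [CommRing B0'] [CommRing B1'] [CommRing B01']
  [Algebra W B0'] [Algebra W B1'] [Algebra W B01']
  {g g' : ℕ} {D : CechData W B0 B1 B01 g} {D' : CechData W B0' B1' B01' g'}
  [Algebra B0 B01] [Algebra B1 B01] [IsScalarTower W B0 B01] [IsScalarTower W B1 B01]
  {c0 : TwoChart W B0 B1 B01}
  {hρ0 : ∀ x, D.ρ0 x = algebraMap B0 B01 x} {hρ1 : ∀ x, D.ρ1 x = algebraMap B1 B01 x}
  {O : Type u} [CommRing O] [IsDomain O] [IsDiscreteValuationRing O] [Algebra W O]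

/-! ### Generic form: any tower input whose `β` is a pair of Čech norms -/

section Generic

variable {G : Type uG} [Group G] {p r : ℕ}
  [MulDistribMulAction G (J1 c0 O)]
  [∀ n, MulDistribMulAction G (Jn D (IsLocalRing.maximalIdeal O) n)] [∀ n, MulDistribMulAction G (Tn r (IsLocalRing.maximalIdeal O) n)]
  [MulDistribMulAction G (Tinf r (IsLocalRing.maximalIdeal O))]
  (I : TowerInput c0 D hρ0 hρ1 O G p r (fun n => Jn D' (IsLocalRing.maximalIdeal O) n × Jn D' (IsLocalRing.maximalIdeal O) n))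
  (Sα Sβ : NormSys D D') (hI : ∀ n, I.β n = βn2 Sα Sβ (IsLocalRing.maximalIdeal O) n)

include hI in
/-- the formal kernel of the pair of norms is the intersection of the two formal kernels. -/
theorem β_uJ_eq_one_iff (y : J1 c0 O) (n : ℕ) :
    I.β n (uJ c0 D hρ0 hρ1 O n y) = 1 ↔
      Sα.βn (IsLocalRing.maximalIdeal O) n (uJ c0 D hρ0 hρ1 O n y) = 1 ∧ Sβ.βn (IsLocalRing.maximalIdeal O) n (uJ c0 D hρ0 hρ1 O n y) = 1 := by
  rw [hI n]
  exact Prod.ext_iff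

include hI in
theorem β_uJ_eq_one (y : J1 c0 O)
    (hα : ∀ n, Sα.βn (IsLocalRing.maximalIdeal O) n (uJ c0 D hρ0 hρ1 O n y) = 1)
    (hβ : ∀ n, Sβ.βn (IsLocalRing.maximalIdeal O) n (uJ c0 D hρ0 hρ1 O n y) = 1) (n : ℕ) :
    I.β n (uJ c0 D hρ0 hρ1 O n y) = 1 :=
  (β_uJ_eq_one_iff I Sα Sβ hI y n).2 ⟨hα n, hβ n⟩

include hI in
/-- **CMP ⇒ formal kernel**: a line module `M` on `X_O` with class in `J̃¹(O)` whose generic fibre
has principal norm for both norm systems (`Cmp15.GenericHyp`) lies in the formal kernel of the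
tower input. -/
theorem β_uJ_eq_one_of_generic {ϖ : O} (hϖ : Irreducible ϖ) (hT : TargetHyp D' O ϖ)
    {M : QC2 O (O ⊗[W] B0) (O ⊗[W] B1) (O ⊗[W] B01)} (hM : M.IsLine)
    (hy : LinePic.mk (c0.baseChange O) M hM ∈ J1 c0 O)
    {Fα Fα' : Type*} [Field Fα] [Field Fα'] {ια : O ⊗[W] B01 →+* Fα}
    {ια' : O ⊗[W] B01' →+* Fα'} {NFα : Fα →* Fα'} {θα : M.N01 →+ Fα} {hα : Fα'}
    (hGα : GenericHyp Sα O M ια ια' NFα θα hα)
    {Fβ Fβ' : Type*} [Field Fβ] [Field Fβ'] {ιβ : O ⊗[W] B01 →+* Fβ}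
    {ιβ' : O ⊗[W] B01' →+* Fβ'} {NFβ : Fβ →* Fβ'} {θβ : M.N01 →+ Fβ} {hβ : Fβ'}
    (hGβ : GenericHyp Sβ O M ιβ ιβ' NFβ θβ hβ) (n : ℕ) :
    I.β n (uJ c0 D hρ0 hρ1 O n ⟨LinePic.mk (c0.baseChange O) M hM, hy⟩) = 1 :=
  β_uJ_eq_one I Sα Sβ hI _ (fun n => cmp_core c0 hρ0 hρ1 hϖ hT hM hy hGα n)
    (fun n => cmp_core c0 hρ0 hρ1 hϖ hT hM hy hGβ n) n

include hI in
/-- **The toric description at one level**: a `p`-torsion class of `J̃¹(O)` given by a line module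
with principal norms is a toric point of a family of `p`-th roots of unity. -/
theorem exists_toricPoint_of_generic {ϖ : O} (hϖ : Irreducible ϖ) (hT : TargetHyp D' O ϖ)
    {M : QC2 O (O ⊗[W] B0) (O ⊗[W] B1) (O ⊗[W] B01)} (hM : M.IsLine)
    (hy : LinePic.mk (c0.baseChange O) M hM ∈ J1 c0 O)
    {Fα Fα' : Type*} [Field Fα] [Field Fα'] {ια : O ⊗[W] B01 →+* Fα}
    {ια' : O ⊗[W] B01' →+* Fα'} {NFα : Fα →* Fα'} {θα : M.N01 →+ Fα} {hα : Fα'}
    (hGα : GenericHyp Sα O M ια ια' NFα θα hα)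
    {Fβ Fβ' : Type*} [Field Fβ] [Field Fβ'] {ιβ : O ⊗[W] B01 →+* Fβ}
    {ιβ' : O ⊗[W] B01' →+* Fβ'} {NFβ : Fβ →* Fβ'} {θβ : M.N01 →+ Fβ} {hβ : Fβ'}
    (hGβ : GenericHyp Sβ O M ιβ ιβ' NFβ θβ hβ)
    (hp : (⟨LinePic.mk (c0.baseChange O) M hM, hy⟩ : J1 c0 O) ^ p = 1) :
    ∃ w : Tinf r (IsLocalRing.maximalIdeal O), w ^ p = 1 ∧
      I.toricPoint w = ⟨LinePic.mk (c0.baseChange O) M hM, hy⟩ :=
  I.exists_toricPoint_of_pow_eq_one _
    (fun n => β_uJ_eq_one_of_generic I Sα Sβ hI hϖ hT hM hy hGα hGβ n) hp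

end Generic

/-! ### The tower input of `Toric50/Master.lean` -/

section MasterInput

variable (c0)
  (hρ0' : ∀ x, D.ρ0 x = algebraMap B0 B01 x) (hρ1' : ∀ x, D.ρ1 x = algebraMap B1 B01 x)
  {π : W} [hmax : (Ideal.span {π}).IsMaximal] [Algebra.FiniteType W B0] [Algebra.FiniteType W B1]
  [Algebra.FiniteType W B01]
  (H : ToricBase D π) {r : ℕ} (N : NodeSys H (Fin r))
  {En : Type} {κ : Type u} [Field κ] [Algebra W κ] [DecidableEq En]
  (FD : FibreDatum π D.ρ0 D.ρ1 En κ)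
  (hsurj : Function.Surjective (algebraMap W κ))
  (hker : ∀ x : W, algebraMap W κ x = 0 → x ∈ Ideal.span {π})
  (Sα Sβ : NormSys D D') (α β : B01' →ₗ[W] B01)
  (hα0 : ∀ a : B0', ∃ a0 : B0, α (D'.ρ0 a) = D.ρ0 a0)
  (hα1 : ∀ a : B1', ∃ a1 : B1, α (D'.ρ1 a) = D.ρ1 a1)
  (hβ0 : ∀ a : B0', ∃ a0 : B0, β (D'.ρ0 a) = D.ρ0 a0)
  (hβ1 : ∀ a : B1', ∃ a1 : B1, β (D'.ρ1 a) = D.ρ1 a1)
  (hK2α : ∀ f : B01, α (Sα.trMap f) - f ∈ FD.P) (hK2β : ∀ f : B01, β (Sβ.trMap f) - f ∈ FD.Q)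
  (node : Fin r → En) (hnode : Function.Injective node) (e0 : En)
  (he0 : ∀ k, node k ≠ e0) (hcov : ∀ e, e ≠ e0 → ∃ k, node k = e)
  (O)
  (hO : algebraMap W O π ∈ IsLocalRing.maximalIdeal O)
  {G : Type u} [Group G] (ρ : G →* (O ≃ₐ[W] O))
  (hc : IsAdicComplete (IsLocalRing.maximalIdeal O) O) (p : ℕ) (χ : G → ℕ)
  (hχ : ∀ (s : G) (ζ : O), ζ ^ p = 1 → ρ s ζ = ζ ^ χ s)
  (β_ι : ∀ n (z : Tn r (IsLocalRing.maximalIdeal O) n),
    βn2 Sα Sβ (IsLocalRing.maximalIdeal O) n (iota H N O hO n z) = 1)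
  (h4 : ∀ n, FirstOrderToric FD (IsLocalRing.maximalIdeal O) node n (iota H N O hO (n + 1)))
  (hInj : CoordInjective c0 O)
  (hfin0 : Module.Finite O[X] (Module.AEval O (O ⊗[W] B0) (c0.baseChange O).t))
  (hnzd : ∀ v : O ⊗[W] B01, v - 1 ∈ eI (IsLocalRing.maximalIdeal O) (O ⊗[W] B01) →
    v ∈ nonZeroDivisors (O ⊗[W] B01))

/-- the norm maps of the master tower input are the pairs of Čech norms. -/
theorem towerInput_of_base_β (n : ℕ) :
    letI := j1Act c0 ρ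
    letI : ∀ n, MulDistribMulAction G (Jn D (IsLocalRing.maximalIdeal O) n) := fun n => actJn ρ D n
    letI : ∀ n, MulDistribMulAction G (Tn r (IsLocalRing.maximalIdeal O) n) :=
      fun n => actTn ρ r n
    letI := actTinf ρ r
    (towerInput_of_base c0 hρ0' hρ1' H N FD hsurj hker Sα Sβ α β hα0 hα1 hβ0 hβ1 hK2α hK2β node
      hnode e0 he0 hcov O hO ρ hc p χ hχ β_ι h4 hInj hfin0 hnzd).β n =
      βn2 Sα Sβ (IsLocalRing.maximalIdeal O) n := rfl

/-- the toric maps of the master tower input are those of the toric family `Wrap.toricFamily`. -/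
theorem towerInput_of_base_ι (n : ℕ) :
    letI := j1Act c0 ρ
    letI : ∀ n, MulDistribMulAction G (Jn D (IsLocalRing.maximalIdeal O) n) := fun n => actJn ρ D n
    letI : ∀ n, MulDistribMulAction G (Tn r (IsLocalRing.maximalIdeal O) n) :=
      fun n => actTn ρ r n
    letI := actTinf ρ r
    (towerInput_of_base c0 hρ0' hρ1' H N FD hsurj hker Sα Sβ α β hα0 hα1 hβ0 hβ1 hK2α hK2β node
      hnode e0 he0 hcov O hO ρ hc p χ hχ β_ι h4 hInj hfin0 hnzd).ι n =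
      (toricFamily H N).ι O hO n := rfl

end MasterInput

end Fermat.Agent.T1B.Toric50.Junction
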