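/-
T1B (S44), sub-cell TORIC50 (helper50), brick RAT-NODES (abstract part, Mathlib only):
**the nodes become rational after enlarging the (inertial) base field**.

T-LIN (`Toric98.FibreDatum.ofNodes`) needs `hrat`: every node `m` of the nodal model over
`R = AK A K` is `R`-rational (`algebraMap R (C ⧸ m)` surjective).  This is true only for `K` large.
Route: fix a model over `R₀ = AK A K₀` (finitely many nodes, finite residue fields `k_i`), and choose
`K ⊇ K₀` inertial whose residue field contains a primitive `N`-th root of unity with
`#k_i - 1 ∣ N` for all `i`.  With `C' = R' · C` (`NodalBC23.Model.equiv01`), every node `m'` of `C'`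
contracts to a node of `C`, whose residue field embeds in `κ' = R'/π'`; hence `m'` is rational:

* `exists_eq_of_finite` : the image of a finite field `k` in a field `L` is contained in the image of
  any `κ'` into which `k` embeds (uniqueness of finite subfields);
* `nonempty_ringHom_of_splits`, `nonempty_ringHom_of_primitiveRoot` : `k ↪ κ'`;
* `finite_quotient_of_finiteType`, `isMaximal_comap_of_finite` : residue fields of closed points are
  finite, contractions of closed points are closed;
* `surjective_algebraMap_quotient` : **the rationality statement**.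
-/
import Mathlib

set_option autoImplicit false
set_option linter.style.haveILetI false

namespace Fermat.Agent.T1B.Toric50.RatNodes

open Polynomial

/-- **Finite subfields are unique**: if the finite field `k` embeds into `κ'`, then inside any field
`L` the image of `k` is contained in the image of `κ'`. -/
theorem exists_eq_of_finite {L k κ' : Type*} [Field L] [Field k] [Field κ'] [Finite k]
    (f : κ' →+* L) (g : k →+* L) (h : k →+* κ') (x : k) : ∃ y : κ', f y = g x := by
  classical
  haveI := Fintype.ofFinite k
  set n := Fintype.card k with hn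
  have hn1 : 1 < n := Fintype.one_lt_card
  -- the polynomial `X^n - X` over `L`
  set P : L[X] := X ^ n - X with hP
  have hdeg : P.natDegree = n := FiniteField.X_pow_card_sub_X_natDegree_eq L hn1
  have hP0 : P ≠ 0 := FiniteField.X_pow_card_sub_X_ne_zero L hn1
  have hroot : ∀ (u : k →+* L) (z : k), P.IsRoot (u z) := by
    intro u z
    rw [hP, IsRoot.def, eval_sub, eval_pow, eval_X, ← map_pow, FiniteField.pow_card, sub_self]
  -- the image of `f ∘ h` is the full set of roots
  set S : Finset L := Finset.univ.image (f.comp h) with hS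
  have hScard : S.card = n := by
    rw [hS, Finset.card_image_of_injective _ (f.comp h).injective, Finset.card_univ]
  have hSsub : S ⊆ P.roots.toFinset := by
    intro z hz
    obtain ⟨w, -, rfl⟩ := Finset.mem_image.1 hz
    rw [Multiset.mem_toFinset, mem_roots hP0]
    exact hroot (f.comp h) w
  have hcard : P.roots.toFinset.card ≤ S.card := by
    rw [hScard]
    calc P.roots.toFinset.card ≤ Multiset.card P.roots := Multiset.toFinset_card_le _
      _ ≤ P.natDegree := card_roots' P
      _ = n := hdeg
  have hEq : S = P.roots.toFinset := Finset.eq_of_subset_of_card_le hSsub hcard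
  have hgx : g x ∈ S := by
    rw [hEq, Multiset.mem_toFinset, mem_roots hP0]
    exact hroot g x
  obtain ⟨w, -, hw⟩ := Finset.mem_image.1 hgx
  exact ⟨h w, hw⟩

/-- a finite field embeds in every field (of the same characteristic) in which `X ^ #k - X`
splits. -/
theorem nonempty_ringHom_of_splits {k κ' : Type*} [Field k] [Field κ'] [Finite k] (q : ℕ)
    [Fact q.Prime] [CharP k q] [CharP κ' q]
    (hs : ((X : κ'[X]) ^ Nat.card k - X).Splits) : Nonempty (k →+* κ') := by
  classical
  haveI := Fintype.ofFinite k
  letI : Algebra (ZMod q) k := ZMod.algebra k q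
  letI : Algebra (ZMod q) κ' := ZMod.algebra κ' q
  haveI := FiniteField.isSplittingField_sub k (ZMod q)
  have hs' : (((X : (ZMod q)[X]) ^ Fintype.card k - X).map (algebraMap (ZMod q) κ')).Splits := by
    rw [Polynomial.map_sub, Polynomial.map_pow, map_X, ← Nat.card_eq_fintype_card]
    exact hs
  exact ⟨(IsSplittingField.lift k ((X : (ZMod q)[X]) ^ Fintype.card k - X) hs').toRingHom⟩

/-- a finite field `k` embeds in every field of the same characteristic containing a primitive
`N`-th root of unity with `#k - 1 ∣ N`. -/
theorem nonempty_ringHom_of_primitiveRoot {k κ' : Type*} [Field k] [Field κ'] [Finite k] (q : ℕ)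
    [Fact q.Prime] [CharP k q] [CharP κ' q] {N : ℕ} (hN : N ≠ 0) {ζ : κ'}
    (hζ : IsPrimitiveRoot ζ N) (hdvd : Nat.card k - 1 ∣ N) : Nonempty (k →+* κ') := by
  apply nonempty_ringHom_of_splits q
  have h1 : 1 < Nat.card k := Finite.one_lt_card
  obtain ⟨a, ha⟩ := hdvd
  have ha0 : a ≠ 0 := by
    rintro rfl
    exact hN (by rw [ha, Nat.mul_zero])
  have hprim : IsPrimitiveRoot (ζ ^ a) (Nat.card k - 1) := by
    have := hζ.pow_of_dvd ha0 (Dvd.intro_left _ ha.symm)
    rwa [ha, Nat.mul_div_cancel _ (Nat.pos_of_ne_zero ha0)] at this
  have hsplit := X_pow_sub_one_splits hprim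
  have hfac : (X : κ'[X]) ^ Nat.card k - X = X * (X ^ (Nat.card k - 1) - C (1 : κ')) := by
    have : Nat.card k = (Nat.card k - 1) + 1 := by omega
    rw [map_one, mul_sub, mul_one, ← pow_succ', ← this]
  rw [hfac]
  exact Splits.mul Splits.X hsplit

section Enlarge

variable {R' C C' : Type*} [CommRing R'] [CommRing C] [CommRing C'] [Algebra R' C']
  [Algebra.FiniteType R' C'] (φ : C →+* C') (m' : Ideal C') [hm' : m'.IsMaximal]

/-- the residue field of a closed point of a finite type algebra lying over a closed point with
finite residue field is finite. -/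
theorem finite_quotient_of_finiteType (hmax : (m'.comap (algebraMap R' C')).IsMaximal)
    (hfin : Finite (R' ⧸ m'.comap (algebraMap R' C'))) : Finite (C' ⧸ m') := by
  letI : Field (C' ⧸ m') := Ideal.Quotient.field m'
  letI : Field (R' ⧸ m'.comap (algebraMap R' C')) := Ideal.Quotient.field _
  haveI : Algebra.FiniteType R' (C' ⧸ m') :=
    Algebra.FiniteType.of_surjective (Ideal.Quotient.mkₐ R' m') Ideal.Quotient.mk_surjective
  haveI : Algebra.FiniteType (R' ⧸ m'.comap (algebraMap R' C')) (C' ⧸ m') :=
    Algebra.FiniteType.of_restrictScalars_finiteType R' _ _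
  haveI : Module.Finite (R' ⧸ m'.comap (algebraMap R' C')) (C' ⧸ m') :=
    finite_of_finite_type_of_isJacobsonRing _ _
  exact Module.finite_of_finite (R' ⧸ m'.comap (algebraMap R' C'))

/-- the contraction of a closed point with finite residue field is a closed point with finite
residue field. -/
theorem isMaximal_comap_of_finite (hL : Finite (C' ⧸ m')) :
    (m'.comap φ).IsMaximal ∧ Finite (C ⧸ m'.comap φ) := by
  have hinj : Function.Injective (Ideal.quotientMap m' φ le_rfl) :=
    Ideal.quotientMap_injective
  have hF : Finite (C ⧸ m'.comap φ) := Finite.of_injective _ hinj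
  haveI : (m'.comap φ).IsPrime := Ideal.comap_isPrime φ m'
  exact ⟨Ideal.Quotient.maximal_of_isField _ (Finite.isDomain_to_isField _), hF⟩

/-- **Rationality after enlarging the base**: `C'` is generated over `R'` by the image of `C`, `m'` a
closed point of `C'` over a closed point of `R'` with finite residue field `κ'`.  If the residue
field of the contraction of `m'` to `C` embeds into `κ'`, then `m'` is `κ'`-rational. -/
theorem surjective_algebraMap_quotient (hgen : Algebra.adjoin R' (Set.range φ) = ⊤)
    (hmax : (m'.comap (algebraMap R' C')).IsMaximal)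
    (hfin : Finite (R' ⧸ m'.comap (algebraMap R' C')))
    (h : Nonempty ((C ⧸ m'.comap φ) →+* (R' ⧸ m'.comap (algebraMap R' C')))) :
    Function.Surjective (algebraMap R' (C' ⧸ m')) := by
  have hL : Finite (C' ⧸ m') := finite_quotient_of_finiteType m' hmax hfin
  obtain ⟨hmC, hfC⟩ := isMaximal_comap_of_finite φ m' hL
  letI : Field (C' ⧸ m') := Ideal.Quotient.field m'
  letI : Field (R' ⧸ m'.comap (algebraMap R' C')) := Ideal.Quotient.field _
  letI : Field (C ⧸ m'.comap φ) := Ideal.Quotient.field _
  obtain ⟨h⟩ := h
  -- the image of `C` lies in the image of `R'`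
  have key : ∀ c : C, ∃ r : R', algebraMap R' (C' ⧸ m') r = Ideal.Quotient.mk m' (φ c) := by
    intro c
    obtain ⟨y, hy⟩ := exists_eq_of_finite
      (algebraMap (R' ⧸ m'.comap (algebraMap R' C')) (C' ⧸ m'))
      (Ideal.quotientMap m' φ le_rfl) h (Ideal.Quotient.mk _ c)
    obtain ⟨r, rfl⟩ := Ideal.Quotient.mk_surjective y
    refine ⟨r, ?_⟩
    rw [Ideal.quotientMap_mk] at hy
    rw [← hy]
    rfl
  intro z
  obtain ⟨c', rfl⟩ := Ideal.Quotient.mk_surjective z
  have hc' : c' ∈ Algebra.adjoin R' (Set.range φ) := by rw [hgen]; trivial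
  induction hc' using Algebra.adjoin_induction with
  | mem x hx =>
    obtain ⟨c, rfl⟩ := hx
    exact key c
  | algebraMap r => exact ⟨r, rfl⟩
  | add x y _ _ hx hy =>
    obtain ⟨a, ha⟩ := hx
    obtain ⟨b, hb⟩ := hy
    exact ⟨a + b, by rw [map_add, map_add, ha, hb]⟩
  | mul x y _ _ hx hy =>
    obtain ⟨a, ha⟩ := hx
    obtain ⟨b, hb⟩ := hy
    exact ⟨a * b, by rw [map_mul, map_mul, ha, hb]⟩

end Enlarge

end Fermat.Agent.T1B.Toric50.RatNodes
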