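/-
T1B (S44), sub-cell TORIC50 (helper50), brick T-TORIC: **the first order link**.

The first order term of the toric map at a node `e` is `d = q0 h0 - q1 h1` for separating functions
`h_j` (`GlueData.iota_firstOrder`).  Here we show that such a `d` is *toric* in the sense of T-LIN
(`Toric98.FibreDatum.IsToric (indic e) d`, in ideal form): it lies in `Q01` (vanishes on the second
component) and is congruent modulo `P01` to `r0 x0 - r1 x1` for chart functions `x_j` with
`x_j ≡ 1` at `e` and `x_j ≡ 0` at the other nodes.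

* `mem_of_algebraMap_mem_map` : contraction of an extended ideal which is saturated w.r.t. `s`;
* `exists_sub_mem_map_of_regAt` : patching modulo `P`;
* `sep_chart` : the chart statement;
* `GlueData.IsSep0/IsSep1`, `GlueData.exists_d_of_sep` : `q0 h0 - q1 h1` comes from `T01`;
* `GlueData.sep_toric` : the overlap statement;
* `GlueData.iota_firstOrder_nodes` : the first order formula with parameters at a family of nodes
  (extended by `1`);
* `GlueHomC.isSep0_map/isSep1_map/d_map` : transport of separating functions along a morphism of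
  gluing data at a point which is alone in its fibre;
* `GlueHomC.iota_firstOrder_nodes` : the first order formula at the upper level with first order
  terms chosen at the lower level.
-/
import Mathlib
import Fermat.Agent.T1B.Toric50.Transport

set_option autoImplicit false
set_option linter.unusedSectionVars false
set_option linter.unusedVariables false

namespace Fermat.Agent.T1B.Toric50.Glue

open Fermat.Agent.T1.CechFormal70

section ChartLink

variable {T : Type*} [CommRing T] {Ts : Type*} [CommRing Ts] [Algebra T Ts]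

theorem mem_of_pow_mul_mem (s : T) (J : Ideal T) (hsat : ∀ x, s * x ∈ J → x ∈ J) (n : ℕ) (x : T)
    (hx : s ^ n * x ∈ J) : x ∈ J := by
  induction n with
  | zero => simpa using hx
  | succ n ih =>
    apply ih
    apply hsat
    rw [← mul_assoc, ← pow_succ']
    exact hx

/-- contraction of the extension of an ideal which is saturated with respect to `s`. -/
theorem mem_of_algebraMap_mem_map (s : T) [IsLocalization.Away s Ts] (J : Ideal T)
    (hsat : ∀ x, s * x ∈ J → x ∈ J) {c : T} (hc : algebraMap T Ts c ∈ J.map (algebraMap T Ts)) :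
    c ∈ J := by
  rw [IsLocalization.mem_map_algebraMap_iff (Submonoid.powers s)] at hc
  obtain ⟨⟨a, m⟩, h⟩ := hc
  rw [← map_mul] at h
  obtain ⟨m', hm'⟩ := (IsLocalization.eq_iff_exists (Submonoid.powers s) Ts).1 h
  obtain ⟨n1, hn1⟩ := m.2
  obtain ⟨n2, hn2⟩ := m'.2
  apply mem_of_pow_mul_mem s J hsat (n2 + n1) c
  have : s ^ (n2 + n1) * c = (m' : T) * (c * (m : T)) := by
    rw [← hn1, ← hn2, pow_add]; ring
  rw [this, hm']
  exact J.mul_mem_left _ a.2

/-- **Patching modulo `P`.** -/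
theorem exists_sub_mem_map_of_regAt {E : Type*} (𝔫 : E → Ideal T) (s : T)
    [IsLocalization.Away s Ts]
    (hmax : ∀ M : Ideal T, M.IsMaximal → s ∈ M → ∃ e, M = 𝔫 e) (P : Ideal T) {h : Ts}
    (hreg : ∀ e, ∃ d : T, d ∉ 𝔫 e ∧ ∃ c : T,
      algebraMap T Ts d * h - algebraMap T Ts c ∈ P.map (algebraMap T Ts)) :
    ∃ x : T, algebraMap T Ts x - h ∈ P.map (algebraMap T Ts) := by
  let D : Ideal T :=
    { carrier := {d | ∃ c : T, algebraMap T Ts d * h - algebraMap T Ts c ∈ P.map (algebraMap T Ts)}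
      add_mem' := by
        rintro d d' ⟨c, h1⟩ ⟨c', h2⟩
        refine ⟨c + c', ?_⟩
        have := Ideal.add_mem _ h1 h2
        rw [map_add, map_add]
        convert this using 1
        ring
      zero_mem' := ⟨0, by simp⟩
      smul_mem' := by
        rintro a d ⟨c, h1⟩
        refine ⟨a * c, ?_⟩
        have := Ideal.mul_mem_left _ (algebraMap T Ts a) h1
        rw [smul_eq_mul, map_mul, map_mul]
        convert this using 1
        ring }
  by_cases hD : D = ⊤
  · have h1 : (1 : T) ∈ D := by rw [hD]; trivial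
    obtain ⟨c, h2⟩ := h1
    refine ⟨c, ?_⟩
    rw [map_one, one_mul] at h2
    have := Ideal.neg_mem_iff _ |>.2 h2
    rwa [neg_sub] at this
  · exfalso
    obtain ⟨M, hM, hDM⟩ := Ideal.exists_le_maximal D hD
    obtain ⟨N, a, hN⟩ := IsLocalization.Away.surj s h
    have hsN : s ^ N ∈ M := by
      apply hDM
      refine ⟨a, ?_⟩
      rw [map_pow, mul_comm, hN, sub_self]
      exact Ideal.zero_mem _
    have hs : s ∈ M := hM.isPrime.mem_of_pow_mem N hsN
    obtain ⟨e, rfl⟩ := hmax M hM hs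
    obtain ⟨d, hd, c, h2⟩ := hreg e
    exact hd (hDM ⟨c, h2⟩)

/-- **The chart statement**: a separating function `h` for the point `e` lies in `Q Ts` and is
congruent modulo `P Ts` to a chart function `x` with `x ≡ 1` at `e` and `x ≡ 0` at the other
nodes. -/
theorem sep_chart {E : Type*} (𝔫 : E → Ideal T) [∀ e, (𝔫 e).IsPrime] (s : T)
    [IsLocalization.Away s Ts]
    (hmax : ∀ M : Ideal T, M.IsMaximal → s ∈ M → ∃ e, M = 𝔫 e) (P Q : Ideal T)
    (hsatP : ∀ x, s * x ∈ P → x ∈ P) (hsatQ : ∀ x, s * x ∈ Q → x ∈ Q)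
    (ε : Ts) (hεP : 1 - ε ∈ P.map (algebraMap T Ts)) (hεQ : ε ∈ Q.map (algebraMap T Ts))
    (e : E) {h : Ts} (hε : h * ε = h) (h1 : RegAt (𝔫 e) ⊤ (h - ε))
    (h2 : ∀ e', e' ≠ e → RegAt (𝔫 e') ⊤ h) :
    h ∈ Q.map (algebraMap T Ts) ∧ ∃ x : T, algebraMap T Ts x - h ∈ P.map (algebraMap T Ts) ∧
      (P ⊔ Q ≤ 𝔫 e → x - 1 ∈ 𝔫 e) ∧ ∀ e', e' ≠ e → P ⊔ Q ≤ 𝔫 e' → x ∈ 𝔫 e' := by
  have hQ : h ∈ Q.map (algebraMap T Ts) := by
    rw [← hε]
    exact Ideal.mul_mem_left _ _ hεQ
  have hQ' : h - ε ∈ Q.map (algebraMap T Ts) := by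
    have : h - ε = (h - 1) * ε := by rw [sub_mul, hε, one_mul]
    rw [this]
    exact Ideal.mul_mem_left _ _ hεQ
  refine ⟨hQ, ?_⟩
  obtain ⟨x, hx⟩ := exists_sub_mem_map_of_regAt (Ts := Ts) 𝔫 s hmax P (h := h) (by
    intro e'
    by_cases he : e' = e
    · subst he
      obtain ⟨d, hd, c, -, hdc⟩ := h1
      refine ⟨d, hd, c + d, ?_⟩
      have h3 : algebraMap T Ts d * h - algebraMap T Ts (c + d) =
          -(algebraMap T Ts d * (1 - ε)) := by
        rw [map_add, ← hdc]; ring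
      rw [h3]
      exact Ideal.neg_mem_iff _ |>.2 (Ideal.mul_mem_left _ _ hεP)
    · obtain ⟨d, hd, c, -, hdc⟩ := h2 e' he
      refine ⟨d, hd, c, ?_⟩
      rw [hdc, sub_self]
      exact Ideal.zero_mem _)
  refine ⟨x, hx, ?_, ?_⟩
  · intro hle
    obtain ⟨d, hd, c, -, hdc⟩ := h1
    have hcQ : c ∈ Q := by
      apply mem_of_algebraMap_mem_map (Ts := Ts) s Q hsatQ
      rw [← hdc]
      exact Ideal.mul_mem_left _ _ hQ'
    have hP : d * (x - 1) - c ∈ P := by
      apply mem_of_algebraMap_mem_map (Ts := Ts) s P hsatP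
      have h3 : algebraMap T Ts (d * (x - 1) - c) =
          algebraMap T Ts d * ((algebraMap T Ts x - h) - (1 - ε)) := by
        rw [map_sub, map_mul, map_sub, map_one, ← hdc]; ring
      rw [h3]
      exact Ideal.mul_mem_left _ _ (Ideal.sub_mem _ hx hεP)
    have h4 : d * (x - 1) ∈ 𝔫 e := by
      have : d * (x - 1) = (d * (x - 1) - c) + c := by ring
      rw [this]
      exact hle (Submodule.add_mem_sup hP hcQ)
    exact ((inferInstance : (𝔫 e).IsPrime).mem_or_mem h4).resolve_left hd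
  · intro e' he hle
    obtain ⟨d, hd, c, -, hdc⟩ := h2 e' he
    have hcQ : c ∈ Q := by
      apply mem_of_algebraMap_mem_map (Ts := Ts) s Q hsatQ
      rw [← hdc]
      exact Ideal.mul_mem_left _ _ hQ
    have hP : d * x - c ∈ P := by
      apply mem_of_algebraMap_mem_map (Ts := Ts) s P hsatP
      have h3 : algebraMap T Ts (d * x - c) = algebraMap T Ts d * (algebraMap T Ts x - h) := by
        rw [map_sub, map_mul, ← hdc]; ring
      rw [h3]
      exact Ideal.mul_mem_left _ _ hx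
    have h4 : d * x ∈ 𝔫 e' := by
      have : d * x = (d * x - c) + c := by ring
      rw [this]
      exact hle (Submodule.add_mem_sup hP hcQ)
    exact ((inferInstance : (𝔫 e').IsPrime).mem_or_mem h4).resolve_left hd

end ChartLink

/-! ### The overlap statement -/

section Overlap

variable {Λ : Type*} [CommRing Λ] {m : Ideal Λ}
variable {T0 T1 T01 : Type*} [CommRing T0] [CommRing T1] [CommRing T01]
  [Algebra Λ T0] [Algebra Λ T1] [Algebra Λ T01] {g : ℕ}
variable {S0 S1 S01 : Type*} [CommRing S0] [CommRing S1] [CommRing S01]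
  [Algebra T0 S0] [Algebra T1 S1] [Algebra T01 S01]
  [Algebra Λ S0] [Algebra Λ S1] [Algebra Λ S01]
  [IsScalarTower Λ T0 S0] [IsScalarTower Λ T1 S1] [IsScalarTower Λ T01 S01]
variable {P : Pkg Λ T0 T1 T01 g} {E : Type*} (D : GlueData S0 S1 S01 P E)

/-- `h` is a separating function for the point `e` on the chart `0`. -/
def GlueData.IsSep0 (e : E) (h : S0) : Prop :=
  h * D.ε0 = h ∧ RegAt (D.n0 e) ⊤ (h - D.ε0) ∧ ∀ e', e' ≠ e → RegAt (D.n0 e') ⊤ h

/-- `h` is a separating function for the point `e` on the chart `1`. -/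
def GlueData.IsSep1 (e : E) (h : S1) : Prop :=
  h * D.ε1 = h ∧ RegAt (D.n1 e) ⊤ (h - D.ε1) ∧ ∀ e', e' ≠ e → RegAt (D.n1 e') ⊤ h

theorem GlueData.exists_isSep0 (e : E) : ∃ h, D.IsSep0 e h := D.sep0 e

theorem GlueData.exists_isSep1 (e : E) : ∃ h, D.IsSep1 e h := D.sep1 e

theorem GlueData.n0_le (e : E) (d : T0) (hd : d ∉ D.n0 e) : (P.r0 : T0 →+* T01) d ∉ D.n01 e := by
  intro h
  apply hd
  rw [D.n0_eq e]
  exact h

theorem GlueData.n1_le (e : E) (d : T1) (hd : d ∉ D.n1 e) : (P.r1 : T1 →+* T01) d ∉ D.n01 e := by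
  intro h
  apply hd
  rw [D.n1_eq e]
  exact h

/-- the first order term `q0 h0 - q1 h1` of separating functions comes from `T01`. -/
theorem GlueData.exists_d_of_sep (e : E) {h0 : S0} {h1 : S1} (H0 : D.IsSep0 e h0)
    (H1 : D.IsSep1 e h1) : ∃ d : T01, algebraMap T01 S01 d = D.q0 h0 - D.q1 h1 := by
  have := D.loc01
  have hreg : ∀ e', RegAt (D.n01 e') ⊤ (D.q0 h0 - D.q1 h1) := by
    intro e'
    by_cases he : e' = e
    · subst he
      have h3 : D.q0 h0 - D.q1 h1 = D.q0 (h0 - D.ε0) - D.q1 (h1 - D.ε1) := by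
        rw [map_sub, map_sub, D.q0_ε, D.q1_ε]; ring
      rw [h3]
      exact regAt_sub
        (regAt_map (P.r0 : T0 →+* T01) D.q0 D.q0_comm (D.n0_le e') (I' := ⊤) le_top H0.2.1)
        (regAt_map (P.r1 : T1 →+* T01) D.q1 D.q1_comm (D.n1_le e') (I' := ⊤) le_top H1.2.1)
    · exact regAt_sub
        (regAt_map (P.r0 : T0 →+* T01) D.q0 D.q0_comm (D.n0_le e') (I' := ⊤) le_top (H0.2.2 e' he))
        (regAt_map (P.r1 : T1 →+* T01) D.q1 D.q1_comm (D.n1_le e') (I' := ⊤) le_top (H1.2.2 e' he))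
  obtain ⟨N, a, hN⟩ := IsLocalization.Away.surj D.s01 (D.q0 h0 - D.q1 h1)
  obtain ⟨c, -, hc⟩ := exists_of_regAt (Ts := S01) D.n01 D.s01 D.max01 (I := ⊤)
    (x := D.q0 h0 - D.q1 h1) ⟨N, a, trivial, by rw [map_pow, mul_comm, hN]⟩ hreg
  exact ⟨c, hc⟩

theorem map_le_comap_map {A A' : Type*} [CommRing A] [CommRing A'] {As As' : Type*} [CommRing As]
    [CommRing As'] [Algebra A As] [Algebra A' As'] (r : A →+* A') (q : As →+* As')
    (hq : ∀ x, q (algebraMap A As x) = algebraMap A' As' (r x)) (J : Ideal A) (J' : Ideal A')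
    (hJ : J ≤ J'.comap r) {x : As} (hx : x ∈ J.map (algebraMap A As)) :
    q x ∈ J'.map (algebraMap A' As') := by
  have h1 : J.map (algebraMap A As) ≤ (J'.map (algebraMap A' As')).comap q := by
    rw [Ideal.map_le_iff_le_comap]
    intro y hy
    rw [Ideal.mem_comap, Ideal.mem_comap, hq]
    exact Ideal.mem_map_of_mem _ (hJ hy)
  exact h1 hx

/-- **The first order term is toric**: `d = q0 h0 - q1 h1` vanishes on the second component and is
`r0 x0 - r1 x1` on the first one, for chart functions `x_j` with value `1` at the node `e` and `0` at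
the other nodes. -/
theorem GlueData.sep_toric (P01 Q01 : Ideal T01)
    (hsat01P : ∀ x, D.s01 * x ∈ P01 → x ∈ P01) (hsat01Q : ∀ x, D.s01 * x ∈ Q01 → x ∈ Q01)
    (hsat0P : ∀ x, D.s0 * x ∈ P01.comap (P.r0 : T0 →+* T01) → x ∈ P01.comap (P.r0 : T0 →+* T01))
    (hsat0Q : ∀ x, D.s0 * x ∈ Q01.comap (P.r0 : T0 →+* T01) → x ∈ Q01.comap (P.r0 : T0 →+* T01))
    (hsat1P : ∀ x, D.s1 * x ∈ P01.comap (P.r1 : T1 →+* T01) → x ∈ P01.comap (P.r1 : T1 →+* T01))
    (hsat1Q : ∀ x, D.s1 * x ∈ Q01.comap (P.r1 : T1 →+* T01) → x ∈ Q01.comap (P.r1 : T1 →+* T01))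
    (hε0P : 1 - D.ε0 ∈ (P01.comap (P.r0 : T0 →+* T01)).map (algebraMap T0 S0))
    (hε0Q : D.ε0 ∈ (Q01.comap (P.r0 : T0 →+* T01)).map (algebraMap T0 S0))
    (hε1P : 1 - D.ε1 ∈ (P01.comap (P.r1 : T1 →+* T01)).map (algebraMap T1 S1))
    (hε1Q : D.ε1 ∈ (Q01.comap (P.r1 : T1 →+* T01)).map (algebraMap T1 S1))
    (e : E) {h0 : S0} {h1 : S1} (H0 : D.IsSep0 e h0) (H1 : D.IsSep1 e h1) {d : T01}
    (hd : algebraMap T01 S01 d = D.q0 h0 - D.q1 h1) :
    d ∈ Q01 ∧ ∃ (x0 : T0) (x1 : T1), d - (P.r0 x0 - P.r1 x1) ∈ P01 ∧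
      (P01 ⊔ Q01 ≤ D.n01 e → x0 - 1 ∈ D.n0 e ∧ x1 - 1 ∈ D.n1 e) ∧
      (∀ e', e' ≠ e → P01 ⊔ Q01 ≤ D.n01 e' → x0 ∈ D.n0 e' ∧ x1 ∈ D.n1 e') := by
  have := D.loc0
  have := D.loc1
  have := D.loc01
  obtain ⟨hQ0, x0, hx0, hv0, hw0⟩ := sep_chart (Ts := S0) D.n0 D.s0 D.max0 _ _ hsat0P hsat0Q D.ε0
    hε0P hε0Q e H0.1 H0.2.1 H0.2.2
  obtain ⟨hQ1, x1, hx1, hv1, hw1⟩ := sep_chart (Ts := S1) D.n1 D.s1 D.max1 _ _ hsat1P hsat1Q D.ε1
    hε1P hε1Q e H1.1 H1.2.1 H1.2.2
  have hle0 : ∀ e', P01 ⊔ Q01 ≤ D.n01 e' →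
      P01.comap (P.r0 : T0 →+* T01) ⊔ Q01.comap (P.r0 : T0 →+* T01) ≤ D.n0 e' := by
    intro e' hle
    rw [D.n0_eq e']
    exact sup_le (Ideal.comap_mono (le_sup_left.trans hle)) (Ideal.comap_mono (le_sup_right.trans hle))
  have hle1 : ∀ e', P01 ⊔ Q01 ≤ D.n01 e' →
      P01.comap (P.r1 : T1 →+* T01) ⊔ Q01.comap (P.r1 : T1 →+* T01) ≤ D.n1 e' := by
    intro e' hle
    rw [D.n1_eq e']
    exact sup_le (Ideal.comap_mono (le_sup_left.trans hle)) (Ideal.comap_mono (le_sup_right.trans hle))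
  refine ⟨?_, x0, x1, ?_, fun hle => ⟨hv0 (hle0 e hle), hv1 (hle1 e hle)⟩,
    fun e' he hle => ⟨hw0 e' he (hle0 e' hle), hw1 e' he (hle1 e' hle)⟩⟩
  · apply mem_of_algebraMap_mem_map (Ts := S01) D.s01 Q01 hsat01Q
    rw [hd]
    exact Ideal.sub_mem _
      (map_le_comap_map (P.r0 : T0 →+* T01) D.q0 D.q0_comm _ Q01 le_rfl hQ0)
      (map_le_comap_map (P.r1 : T1 →+* T01) D.q1 D.q1_comm _ Q01 le_rfl hQ1)
  · apply mem_of_algebraMap_mem_map (Ts := S01) D.s01 P01 hsat01P
    have h3 : algebraMap T01 S01 (d - (P.r0 x0 - P.r1 x1)) =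
        D.q1 (algebraMap T1 S1 x1 - h1) - D.q0 (algebraMap T0 S0 x0 - h0) := by
      rw [map_sub, map_sub, hd, map_sub, map_sub, D.q0_comm, D.q1_comm]; ring
    rw [h3]
    exact Ideal.sub_mem _
      (map_le_comap_map (P.r1 : T1 →+* T01) D.q1 D.q1_comm _ P01 le_rfl hx1)
      (map_le_comap_map (P.r0 : T0 →+* T01) D.q0 D.q0_comm _ P01 le_rfl hx0)

end Overlap

/-! ### The first order formula with parameters at the nodes only -/

section NodesFirstOrder

variable {Λ : Type*} [CommRing Λ] {m : Ideal Λ}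
variable {T0 T1 T01 : Type*} [CommRing T0] [CommRing T1] [CommRing T01]
  [Algebra Λ T0] [Algebra Λ T1] [Algebra Λ T01] {g : ℕ}
variable {S0 S1 S01 : Type*} [CommRing S0] [CommRing S1] [CommRing S01]
  [Algebra T0 S0] [Algebra T1 S1] [Algebra T01 S01]
  [Algebra Λ S0] [Algebra Λ S1] [Algebra Λ S01]
  [IsScalarTower Λ T0 S0] [IsScalarTower Λ T1 S1] [IsScalarTower Λ T01 S01]
variable {P : Pkg Λ T0 T1 T01 g} {E : Type*} (D : GlueData S0 S1 S01 P E)
  [Fintype E] [DecidableEq E]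

/-- **First order formula, parameters at the nodes**: for a family of nodes `ν : En → E` with
separating functions `h_j k` and first order terms `d k`, the toric class of the parameter
`1 + a k` at `ν k` (and `1` elsewhere) is the class of `1 + Σ a k · d k`. -/
theorem GlueData.iota_firstOrder_nodes {En : Type*} [Fintype En] (ν : En → E)
    (hν : Function.Injective ν) (hm : IsNilpotent m) {I : Ideal Λ} (hI : I ≤ m)
    (hII : ∀ a b, a ∈ I → b ∈ I → a * b = 0) (a : En → Λ) (ha : ∀ k, a k ∈ I)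
    (h0 : En → S0) (H0 : ∀ k, D.IsSep0 (ν k) (h0 k)) (h1 : En → S1)
    (H1 : ∀ k, D.IsSep1 (ν k) (h1 k)) (d : En → T01)
    (hd : ∀ k, algebraMap T01 S01 (d k) = D.q0 (h0 k) - D.q1 (h1 k)) :
    D.iota hm (extendHom ν hν (fun k => oneAddUnit hm (a k) (hI (ha k)))) =
      P.cls m (oneAddUnit (isNilpotent_map (algebraMap Λ T01) hm)
        (∑ k, algebraMap Λ T01 (a k) * d k)
        (Ideal.sum_mem _ fun k _ =>
          Ideal.mul_mem_right _ _ (Ideal.mem_map_of_mem _ (hI (ha k))))) := by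
  classical
  have hch : ∀ k, (⟨k, rfl⟩ : ∃ k', ν k' = ν k).choose = k := fun k =>
    hν (⟨k, rfl⟩ : ∃ k', ν k' = ν k).choose_spec
  let a' : E → Λ := fun e => if he : ∃ k, ν k = e then a he.choose else 0
  have ha' : ∀ e, a' e ∈ I := by
    intro e
    show (if he : ∃ k, ν k = e then a he.choose else 0) ∈ I
    split_ifs with he
    · exact ha _
    · exact I.zero_mem
  have ha'ν : ∀ k, a' (ν k) = a k := by
    intro k
    show (if he : ∃ k', ν k' = ν k then a he.choose else 0) = a k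
    rw [dif_pos ⟨k, rfl⟩, hch]
  have ha'0 : ∀ e, (¬ ∃ k, ν k = e) → a' e = 0 := by
    intro e he
    show (if he : ∃ k', ν k' = e then a he.choose else 0) = 0
    rw [dif_neg he]
  have key : ∀ e, ∃ (x0 : S0) (x1 : S1) (dd : T01), D.IsSep0 e x0 ∧ D.IsSep1 e x1 ∧
      algebraMap T01 S01 dd = D.q0 x0 - D.q1 x1 ∧ ∀ k, ν k = e → dd = d k := by
    intro e
    by_cases he : ∃ k, ν k = e
    · obtain ⟨k, rfl⟩ := he
      exact ⟨h0 k, h1 k, d k, H0 k, H1 k, hd k, fun k' hk' => by rw [hν hk']⟩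
    · obtain ⟨x0, hx0⟩ := D.sep0 e
      obtain ⟨x1, hx1⟩ := D.sep1 e
      obtain ⟨dd, hdd⟩ := D.exists_d_of_sep e hx0 hx1
      exact ⟨x0, x1, dd, hx0, hx1, hdd, fun k hk => (he ⟨k, hk⟩).elim⟩
  choose x0 x1 dd hx0 hx1 hdd hdk using key
  have hmain := D.iota_firstOrder hm hI hII a' ha' x0 (fun e => (hx0 e).1) (fun e => (hx0 e).2.1)
    (fun e e' he => (hx0 e).2.2 e' he) x1 (fun e => (hx1 e).1) (fun e => (hx1 e).2.1)
    (fun e e' he => (hx1 e).2.2 e' he) dd hdd
  have hz : (fun e => oneAddUnit hm (a' e) (hI (ha' e))) =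
      extendHom ν hν (fun k => oneAddUnit hm (a k) (hI (ha k))) := by
    funext e
    by_cases he : ∃ k, ν k = e
    · obtain ⟨k, rfl⟩ := he
      rw [extendHom_apply_node]
      apply Subtype.ext
      apply Units.ext
      show 1 + a' (ν k) = 1 + a k
      rw [ha'ν]
    · rw [extendHom_apply_of_not_mem ν hν _ e he]
      apply Subtype.ext
      apply Units.ext
      show 1 + a' e = 1
      rw [ha'0 e he, add_zero]
  have hsum : ∑ e, algebraMap Λ T01 (a' e) * dd e = ∑ k, algebraMap Λ T01 (a k) * d k := by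
    rw [← Finset.sum_subset (Finset.subset_univ (Finset.univ.image ν))]
    · rw [Finset.sum_image (fun k _ k' _ hkk => hν hkk)]
      refine Finset.sum_congr rfl fun k _ => ?_
      rw [ha'ν, hdk (ν k) k rfl]
    · intro e _ he
      have he' : ¬ ∃ k, ν k = e := by
        rintro ⟨k, rfl⟩
        exact he (Finset.mem_image_of_mem ν (Finset.mem_univ k))
      rw [ha'0 e he', map_zero, zero_mul]
  rw [← hz, hmain]
  congr 1
  apply Subtype.ext
  apply Units.ext
  show 1 + ∑ e, algebraMap Λ T01 (a' e) * dd e = 1 + ∑ k, algebraMap Λ T01 (a k) * d k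
  rw [hsum]

end NodesFirstOrder

/-! ### Transport of separating functions -/

section TransportSep

variable {Λ : Type*} [CommRing Λ] {m : Ideal Λ}
variable {T0 T1 T01 : Type*} [CommRing T0] [CommRing T1] [CommRing T01]
  [Algebra Λ T0] [Algebra Λ T1] [Algebra Λ T01] {g : ℕ}
variable {S0 S1 S01 : Type*} [CommRing S0] [CommRing S1] [CommRing S01]
  [Algebra T0 S0] [Algebra T1 S1] [Algebra T01 S01]
  [Algebra Λ S0] [Algebra Λ S1] [Algebra Λ S01]
  [IsScalarTower Λ T0 S0] [IsScalarTower Λ T1 S1] [IsScalarTower Λ T01 S01]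
variable {Λ' : Type*} [CommRing Λ'] {m' : Ideal Λ'}
variable {T0' T1' T01' : Type*} [CommRing T0'] [CommRing T1'] [CommRing T01']
  [Algebra Λ' T0'] [Algebra Λ' T1'] [Algebra Λ' T01']
variable {S0' S1' S01' : Type*} [CommRing S0'] [CommRing S1'] [CommRing S01']
  [Algebra T0' S0'] [Algebra T1' S1'] [Algebra T01' S01']
  [Algebra Λ' S0'] [Algebra Λ' S1'] [Algebra Λ' S01']
  [IsScalarTower Λ' T0' S0'] [IsScalarTower Λ' T1' S1'] [IsScalarTower Λ' T01' S01']
variable {P : Pkg Λ T0 T1 T01 g} {P' : Pkg Λ' T0' T1' T01' g} {E E' : Type*}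
variable {D : GlueData S0 S1 S01 P E} {D' : GlueData S0' S1' S01' P' E'} {f : Λ →+* Λ'}
  {h : PkgHom P P' f} {c : E' → E}

/-- separating functions are transported to a point which is alone in its fibre. -/
theorem GlueHomC.isSep0_map (H : GlueHomC D D' h c) (e' : E')
    (huniq : ∀ e'', c e'' = c e' → e'' = e') {h0 : S0} (H0 : D.IsSep0 (c e') h0) :
    D'.IsSep0 e' (H.k0 h0) := by
  refine ⟨?_, ?_, ?_⟩
  · rw [← H.k0_ε, ← map_mul, H0.1]
  · have := regAt_map h.t0 H.k0 H.k0_comm (H.n0_le e') (I' := ⊤) le_top H0.2.1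
    rwa [map_sub, H.k0_ε] at this
  · intro e'' he
    have hc : c e'' ≠ c e' := fun hh => he (huniq e'' hh)
    exact regAt_map h.t0 H.k0 H.k0_comm (H.n0_le e'') (I' := ⊤) le_top (H0.2.2 (c e'') hc)

theorem GlueHomC.isSep1_map (H : GlueHomC D D' h c) (e' : E')
    (huniq : ∀ e'', c e'' = c e' → e'' = e') {h1 : S1} (H1 : D.IsSep1 (c e') h1) :
    D'.IsSep1 e' (H.k1 h1) := by
  refine ⟨?_, ?_, ?_⟩
  · rw [← H.k1_ε, ← map_mul, H1.1]
  · have := regAt_map h.t1 H.k1 H.k1_comm (H.n1_le e') (I' := ⊤) le_top H1.2.1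
    rwa [map_sub, H.k1_ε] at this
  · intro e'' he
    have hc : c e'' ≠ c e' := fun hh => he (huniq e'' hh)
    exact regAt_map h.t1 H.k1 H.k1_comm (H.n1_le e'') (I' := ⊤) le_top (H1.2.2 (c e'') hc)

theorem GlueHomC.d_map (H : GlueHomC D D' h c) {h0 : S0} {h1 : S1} {d : T01}
    (hd : algebraMap T01 S01 d = D.q0 h0 - D.q1 h1) :
    algebraMap T01' S01' (h.t01 d) = D'.q0 (H.k0 h0) - D'.q1 (H.k1 h1) := by
  rw [← H.k01_comm, hd, map_sub, H.k_q0, H.k_q1]

/-- **First order formula by transport**: the separating functions and first order terms `d k`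
are chosen at the level of `D` (in the application: `W/π^k`, where everything is `W`-rational), the
toric map is computed at the level of `D'`. -/
theorem GlueHomC.iota_firstOrder_nodes [Fintype E'] [DecidableEq E'] (H : GlueHomC D D' h c)
    {En : Type*} [Fintype En] (ν : En → E) (ν' : En → E') (hν' : Function.Injective ν')
    (hc : ∀ k, c (ν' k) = ν k) (huniq : ∀ k e'', c e'' = ν k → e'' = ν' k)
    (hm' : IsNilpotent m') {I : Ideal Λ'} (hI : I ≤ m')
    (hII : ∀ a b, a ∈ I → b ∈ I → a * b = 0) (a : En → Λ') (ha : ∀ k, a k ∈ I)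
    (h0 : En → S0) (H0 : ∀ k, D.IsSep0 (ν k) (h0 k)) (h1 : En → S1)
    (H1 : ∀ k, D.IsSep1 (ν k) (h1 k)) (d : En → T01)
    (hd : ∀ k, algebraMap T01 S01 (d k) = D.q0 (h0 k) - D.q1 (h1 k)) :
    D'.iota hm' (extendHom ν' hν' (fun k => oneAddUnit hm' (a k) (hI (ha k)))) =
      P'.cls m' (oneAddUnit (isNilpotent_map (algebraMap Λ' T01') hm')
        (∑ k, algebraMap Λ' T01' (a k) * h.t01 (d k))
        (Ideal.sum_mem _ fun k _ =>
          Ideal.mul_mem_right _ _ (Ideal.mem_map_of_mem _ (hI (ha k))))) := by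
  refine D'.iota_firstOrder_nodes ν' hν' hm' hI hII a ha (fun k => H.k0 (h0 k)) (fun k => ?_)
    (fun k => H.k1 (h1 k)) (fun k => ?_) (fun k => h.t01 (d k)) (fun k => H.d_map (hd k))
  · apply H.isSep0_map (ν' k) (fun e'' he => huniq k e'' (by rw [he, hc]))
    rw [hc]
    exact H0 k
  · apply H.isSep1_map (ν' k) (fun e'' he => huniq k e'' (by rw [he, hc]))
    rw [hc]
    exact H1 k

end TransportSep

end Fermat.Agent.T1B.Toric50.Glue
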