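/-
T1B / TORIC50 (helper50), file 2: THE INTERFACE of bricks F5–F7 (report: kind='interface', stmt='S44').

`Package` = everything the geometry has to deliver about ONE complete discrete valuation ring `O`
(the integers of a finite extension `L` of the completed unramified base), with a group `G` acting
(`G` = inertia subgroup of `Gal(L/K₀)`), for the NODAL two-chart datum `c0` (level `M'·p`) and the SMOOTH
two-chart datum `cB` (level `M'`).  It is stated on abstract groups so that it can be instantiated
verbatim with the T1A hub objects (`RedIface75`, `CechFormal70`):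

* `A   := RedIface75.J1 c0 O`  (classes on `X_O` with trivial special fibre),
  `AB  := J1 cB O × J1 cB O`,  `βA := (π₁_*, π₂_*)`;
* `J n := ker (PicX c0 (O/𝔪^n) → PicX c0 κ)` `≃ (CechData.pkg (O/𝔪^n)).Jhat (𝔪/𝔪^n)` (`CechFormal70.Bridge`),
  `B n` the same for `cB` (twice), `u n`, `uB n` := base change (`PicX.map`);
  `LimHyp.u_inj` = `RedIface75.CoordInjective c0 O` (T1A brick R-e, special-fibre agnostic);
* `T n := Fin r → unitsOne (𝔪/𝔪^n)`, `Tinf := Fin r → unitsOne 𝔪` (`r + 1` = number of nodes),
  `ι n` := class of the line module obtained by gluing the trivial modules on the two sides of the special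
  fibre with the constant `z_e` at the node `e` (brick F6);
* `β n` := the norm on Čech units (brick F7a); `step_exact`, `step_inj` := the cotangent computation
  `ker (Tr₁, Tr₂ : H¹(X_s, O) → H¹(X'_s, O)²) = H¹(Γ, k)` (brick F7b);
* `alg` := algebraisation of the toric classes (brick F5c; needs `O` complete).

Consumers: `Package.toric` (= `KL46.LocalData.toric` for the points defined over `L`) and
`Package.toricPoint` with its properties (= the map `ι` of `KL46.exists_toric_correction`).
-/
import Mathlib
import Fermat.Agent.T1B.Toric50.Tower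

set_option autoImplicit false
set_option linter.unusedSectionVars false
set_option linter.unusedVariables false

namespace Fermat.Agent.T1B.Toric50

open Tower

universe u

/-- **The deliverable of the geometric bricks F5–F7** for one complete base `O` with a group `G`
acting.  All groups are commutative and written multiplicatively. -/
structure Package (G : Type u) [Group G] (p : ℕ) where
  /-- honest points: `J̃¹(O)` of the nodal datum -/
  A : Type u
  /-- honest points of the target: `J̃¹(O)²` of the smooth datum -/
  AB : Type u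
  /-- `(1 + 𝔪)^r` -/
  Tinf : Type u
  J : ℕ → Type u
  B : ℕ → Type u
  T : ℕ → Type u
  [instA : CommGroup A]
  [instAB : CommGroup AB]
  [instTinf : CommGroup Tinf]
  [instJ : ∀ n, CommGroup (J n)]
  [instB : ∀ n, CommGroup (B n)]
  [instT : ∀ n, CommGroup (T n)]
  [actA : MulDistribMulAction G A]
  [actTinf : MulDistribMulAction G Tinf]
  [actJ : ∀ n, MulDistribMulAction G (J n)]
  [actT : ∀ n, MulDistribMulAction G (T n)]
  pJ : ∀ n, J (n + 1) →* J n
  pB : ∀ n, B (n + 1) →* B n
  pT : ∀ n, T (n + 1) →* T n
  β : ∀ n, J n →* B n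
  ι : ∀ n, T n →* J n
  u : ∀ n, A →* J n
  uB : ∀ n, AB →* B n
  q : ∀ n, Tinf →* T n
  βA : A →* AB
  /-- the mod `p` cyclotomic character on `G`, as an exponent -/
  χ : G → ℕ
  hyp : Hyp pJ pB pT β ι
  lim : LimHyp pJ pT β u uB q βA
  /-- formal functions for the target -/
  uB_inj : ∀ y : AB, (∀ n, uB n y = 1) → y = 1
  /-- algebraisation of the toric classes -/
  alg : ∀ w : Tinf, ∃ y : A, ∀ n, u n y = ι n (q n w)
  u_smul : ∀ n (s : G) (y : A), u n (s • y) = s • u n y
  ι_smul : ∀ n (s : G) (z : T n), ι n (s • z) = s • ι n z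
  q_smul : ∀ n (s : G) (w : Tinf), q n (s • w) = s • q n w
  βA_smul : ∀ (s : G) (y : A), βA y = 1 → βA (s • y) = 1
  /-- `G` acts on `μ_p(O)^r` through `χ` -/
  χ_spec : ∀ (s : G) (w : Tinf), w ^ p = 1 → s • w = w ^ χ s

namespace Package

variable {G : Type u} [Group G] {p : ℕ} (P : Package G p)

attribute [instance] Package.instA Package.instAB Package.instTinf Package.instJ Package.instB
  Package.instT Package.actA Package.actTinf Package.actJ Package.actT

/-- **(T-a)** `G` acts through `χ` on the `p`-torsion of `ker βA`. -/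
theorem toric (y : P.A) (hy : P.βA y = 1) (hyp : y ^ p = 1) (s : G) : s • y = y ^ P.χ s :=
  P.lim.smul_eq_pow_of_pow_eq_one P.hyp P.u_smul P.ι_smul P.q_smul P.βA_smul p P.χ P.χ_spec
    y hy hyp s

/-- **(T-b)** the toric map `(1 + 𝔪)^r →* J̃¹(O)`. -/
noncomputable def toricPoint : P.Tinf →* P.A := P.lim.toricPoint P.alg

theorem u_toricPoint (w : P.Tinf) (n : ℕ) : P.u n (P.toricPoint w) = P.ι n (P.q n w) :=
  P.lim.u_toricPoint P.alg w n

theorem toricPoint_injective : Function.Injective P.toricPoint :=
  P.lim.toricPoint_injective P.hyp P.alg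

theorem βA_toricPoint (w : P.Tinf) : P.βA (P.toricPoint w) = 1 :=
  P.lim.β_toricPoint P.hyp P.alg P.uB_inj w

theorem ker_βA_eq_range : P.βA.ker = P.toricPoint.range :=
  P.lim.ker_eq_range_toricPoint P.hyp P.alg P.uB_inj

theorem toricPoint_smul (s : G) (w : P.Tinf) : P.toricPoint (s • w) = s • P.toricPoint w :=
  P.lim.toricPoint_smul P.alg P.u_smul P.ι_smul P.q_smul s w

/-- every `p`-torsion point of `ker βA` is the toric point of a `p`-torsion element of `Tinf`. -/
theorem exists_toricPoint_of_pow_eq_one (y : P.A) (hy : P.βA y = 1) (hyp : y ^ p = 1) :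
    ∃ w : P.Tinf, w ^ p = 1 ∧ P.toricPoint w = y := by
  have hmem : y ∈ P.toricPoint.range := by rw [← P.ker_βA_eq_range]; exact hy
  obtain ⟨w, rfl⟩ := hmem
  refine ⟨w, ?_, rfl⟩
  apply P.toricPoint_injective
  rw [map_pow, hyp, map_one]

end Package

end Fermat.Agent.T1B.Toric50
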