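/-
T1B (S44), sub-cell TORIC50 (helper50), brick NODE-FIBRE (abstract part, Mathlib only):
**there is exactly one prime over the image of a (rational) node under a degeneracy map**
(the hypothesis `NodeFibHyp` of helper84's `Norm84.Iota.NodeHyp`, model fact (iii) of `β_ι`).

`C` a chart of the nodal curve over `W` with branch ideals `P`, `Q2` (`P · Q2 ⊆ π C`), `A` the chart of
the smooth target, `α β : A →ₐ[W] C` the two degeneracy maps.  `W`-level model facts: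
 (a) `α` is onto `C ⧸ P`   (`SurjItems`),   (b) `β` is onto `C ⧸ Q2`   (`SurjItems`),
 (c) for every `b'` there is `x` with `α x ≡ (β b')^q mod Q2`   (CONVERSE Kronecker congruence:
     `x = g_{ψ⁻¹} b'`, the Frobenius twist, `ES/N34/KronChart15`).
For a `W`-rational point `ψ : Λ ⊗ C → k` of the node over a local artinian `Λ` (residue field `k`),
`ker ψ` is the only prime `Q` of `Λ ⊗ C` with `Q ∩ (Λ ⊗ A) = ker ψ ∩ (Λ ⊗ A)` (`eq_ker_of_comap_eq`):
`Q` contains one of the two branches; on the first branch `α` is onto, on the second branch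
`1 ⊗ (β b')^q - w^q ∈ Q` and `(u - v)^q = u^q - v^q` in the domain `(Λ ⊗ C) ⧸ Q` of characteristic `q`.
For the other degeneracy map exchange `(α, P)` and `(β, Q2)`.
-/
import Mathlib

set_option autoImplicit false
set_option linter.unusedSectionVars false
set_option linter.unusedVariables false
set_option linter.style.haveILetI false

open TensorProduct

namespace Fermat.Agent.T1B.Toric50.NodeFibre

universe u

variable {W A C Λ k : Type*} [CommRing W] [CommRing A] [CommRing C] [CommRing Λ] [Field k]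
  [Algebra W A] [Algebra W C] [Algebra W Λ] [Algebra Λ k] [Algebra W k] [IsScalarTower W Λ k]

section Kernel

variable (ψ : Λ ⊗[W] C →ₐ[Λ] k) (Q : Ideal (Λ ⊗[W] C)) [hQ : Q.IsPrime]

/-- nilpotent scalars lie in every prime. -/
theorem smul_one_mem_of_nilpotent {a : Λ} (ha : IsNilpotent a) : a • (1 : Λ ⊗[W] C) ∈ Q := by
  obtain ⟨n, hn⟩ := ha
  apply hQ.mem_of_pow_mem n
  rw [smul_pow, one_pow, hn, zero_smul]
  exact Q.zero_mem

/-- **Generators of the kernel of a rational point**: if `Q` contains all `1 ⊗ b - w_b • 1`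
(`ψ (1 ⊗ b)` the image of `w_b ∈ W`), then `ker ψ ≤ Q`. -/
theorem ker_le_of_forall (hnil : ∀ a : Λ, algebraMap Λ k a = 0 → IsNilpotent a)
    (h : ∀ b : C, ∃ w : W, ψ (1 ⊗ₜ b) = algebraMap W k w ∧
      (1 : Λ) ⊗ₜ[W] b - algebraMap W Λ w • (1 : Λ ⊗[W] C) ∈ Q) :
    RingHom.ker ψ ≤ Q := by
  have key : ∀ z : Λ ⊗[W] C, ∃ a : Λ, z - a • (1 : Λ ⊗[W] C) ∈ Q ∧ ψ z = algebraMap Λ k a := by
    intro z
    induction z using TensorProduct.induction_on with
    | zero => exact ⟨0, by simp, by simp⟩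
    | tmul a b =>
      obtain ⟨w, hw, hwQ⟩ := h b
      refine ⟨a * algebraMap W Λ w, ?_, ?_⟩
      · have e : a ⊗ₜ[W] b - (a * algebraMap W Λ w) • (1 : Λ ⊗[W] C) =
            a • ((1 : Λ) ⊗ₜ[W] b - algebraMap W Λ w • (1 : Λ ⊗[W] C)) := by
          rw [smul_sub, smul_smul, TensorProduct.smul_tmul', smul_eq_mul, mul_one]
        rw [e, Algebra.smul_def]
        exact Q.mul_mem_left _ hwQ
      · have e : a ⊗ₜ[W] b = a • ((1 : Λ) ⊗ₜ[W] b) := by
          rw [TensorProduct.smul_tmul', smul_eq_mul, mul_one]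
        rw [e, map_smul, hw, Algebra.smul_def, map_mul, ← IsScalarTower.algebraMap_apply W Λ k]
    | add x y hx hy =>
      obtain ⟨a, ha, ha'⟩ := hx
      obtain ⟨b, hb, hb'⟩ := hy
      refine ⟨a + b, ?_, by rw [map_add, map_add, ha', hb']⟩
      have e : x + y - (a + b) • (1 : Λ ⊗[W] C) = (x - a • 1) + (y - b • 1) := by
        rw [add_smul]; ring
      rw [e]
      exact Q.add_mem ha hb
  intro z hz
  obtain ⟨a, ha, ha'⟩ := key z
  rw [RingHom.mem_ker] at hz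
  have hz' : ψ z = 0 := hz
  rw [hz'] at ha'
  have h2 := smul_one_mem_of_nilpotent (W := W) (C := C) Q (hnil a ha'.symm)
  have : z = (z - a • (1 : Λ ⊗[W] C)) + a • 1 := by ring
  rw [this]
  exact Q.add_mem ha h2

end Kernel

section Main

variable (α β : A →ₐ[W] C) (P Q2 : Ideal C) (π : W) (q : ℕ) [hq : Fact q.Prime]
  (ψ : Λ ⊗[W] C →ₐ[Λ] k)

/-- **One prime over the image of a rational node** (radiciality of `α` on the second branch).
`C` a chart of the nodal curve with branches `P`, `Q2` (`P · Q2 ⊆ π C`), `A` the corresponding chart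
of the target; `α` is onto `C/P`, `β` is onto `C/Q2` and `α x ≡ (β b')^q mod Q2` has a solution `x`
for every `b'` (converse Kronecker congruence).  `ψ : Λ ⊗ C → k` a `W`-rational point of the node
(`ψ` kills `1 ⊗ P`, `1 ⊗ Q2`), `Λ → k` onto with nil kernel, `π`, `q` nilpotent in `Λ`.  Then `ker ψ`
is the only prime of `Λ ⊗ C` with the same contraction to `Λ ⊗ A` along `Λ ⊗ α`. -/
theorem eq_ker_of_comap_eq
    (hsurjk : Function.Surjective (algebraMap Λ k))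
    (hnil : ∀ a : Λ, algebraMap Λ k a = 0 → IsNilpotent a)
    (hπ : IsNilpotent (algebraMap W Λ π))
    (hqΛ : IsNilpotent ((q : ℕ) : Λ))
    (hW : ∀ b : C, ∃ w : W, ψ (1 ⊗ₜ b) = algebraMap W k w)
    (hψP : ∀ p ∈ P, ψ (1 ⊗ₜ p) = 0) (hψQ : ∀ p ∈ Q2, ψ (1 ⊗ₜ p) = 0)
    (hPQ : ∀ p ∈ P, ∀ p' ∈ Q2, ∃ c : C, p * p' = π • c)
    (ha : ∀ b : C, ∃ x : A, b - α x ∈ P)
    (hb : ∀ b : C, ∃ x : A, b - β x ∈ Q2)
    (hc : ∀ b' : A, ∃ x : A, α x - (β b') ^ q ∈ Q2)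
    (Q : Ideal (Λ ⊗[W] C)) [hQ : Q.IsPrime]
    (hcomap : Q.comap (Algebra.TensorProduct.map (AlgHom.id Λ Λ) α) =
      (RingHom.ker ψ).comap (Algebra.TensorProduct.map (AlgHom.id Λ Λ) α)) :
    Q = RingHom.ker ψ := by
  set T : Λ ⊗[W] A →ₐ[Λ] Λ ⊗[W] C := Algebra.TensorProduct.map (AlgHom.id Λ Λ) α with hT
  -- `ψ` is onto, so its kernel is maximal
  have hψsurj : Function.Surjective ψ := by
    intro z
    obtain ⟨a, rfl⟩ := hsurjk z
    exact ⟨a • 1, by rw [map_smul, map_one, Algebra.smul_def, mul_one]⟩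
  have hmax : (RingHom.ker ψ).IsMaximal := RingHom.ker_isMaximal_of_surjective ψ hψsurj
  -- basic facts
  have hψw : ∀ w : W, ψ (algebraMap W Λ w • (1 : Λ ⊗[W] C)) = algebraMap W k w := by
    intro w
    rw [map_smul, map_one, Algebra.smul_def, mul_one, ← IsScalarTower.algebraMap_apply W Λ k]
  have hnilW : ∀ w : W, algebraMap W k w = 0 → algebraMap W Λ w • (1 : Λ ⊗[W] C) ∈ Q := by
    intro w hw
    apply smul_one_mem_of_nilpotent Q
    apply hnil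
    rw [← IsScalarTower.algebraMap_apply W Λ k, hw]
  have hπQ : ∀ c : C, (1 : Λ) ⊗ₜ[W] (π • c) ∈ Q := by
    intro c
    obtain ⟨n, hn⟩ := hπ
    apply hQ.mem_of_pow_mem n
    have e : (1 : Λ) ⊗ₜ[W] (π • c) = algebraMap W Λ π • ((1 : Λ) ⊗ₜ[W] c) := by
      rw [TensorProduct.tmul_smul, algebraMap_smul]
    rw [e, smul_pow, hn, zero_smul]
    exact Q.zero_mem
  have hfromker : ∀ y : Λ ⊗[W] A, ψ (T y) = 0 → T y ∈ Q := by
    intro y hy
    have : y ∈ (RingHom.ker ψ).comap T := by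
      rw [Ideal.mem_comap, RingHom.mem_ker]; exact hy
    rw [← hcomap, Ideal.mem_comap] at this
    exact this
  have hTx : ∀ (x : A) (a : Λ), T ((1 : Λ) ⊗ₜ[W] x - a • (1 : Λ ⊗[W] A)) =
      (1 : Λ) ⊗ₜ[W] α x - a • (1 : Λ ⊗[W] C) := by
    intro x a
    rw [map_sub, map_smul, map_one, hT, Algebra.TensorProduct.map_tmul]
    rfl
  -- one of the two branches lies in `Q`
  have hbranch : (∀ p ∈ P, (1 : Λ) ⊗ₜ[W] p ∈ Q) ∨ (∀ p ∈ Q2, (1 : Λ) ⊗ₜ[W] p ∈ Q) := by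
    by_contra hcon
    push Not at hcon
    obtain ⟨⟨p, hp, hpQ⟩, ⟨p', hp', hp'Q⟩⟩ := hcon
    obtain ⟨c, hc'⟩ := hPQ p hp p' hp'
    have : (1 : Λ) ⊗ₜ[W] p * (1 : Λ) ⊗ₜ[W] p' ∈ Q := by
      rw [Algebra.TensorProduct.tmul_mul_tmul, mul_one, hc']
      exact hπQ c
    rcases hQ.mem_or_mem this with h | h
    · exact hpQ h
    · exact hp'Q h
  refine (hmax.eq_of_le hQ.ne_top ?_).symm
  apply ker_le_of_forall ψ Q hnil
  intro b
  obtain ⟨w, hw⟩ := hW b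
  refine ⟨w, hw, ?_⟩
  rcases hbranch with hPb | hQb
  · -- first branch: `b = α x + p`
    obtain ⟨x, hx⟩ := ha b
    have h1 : T ((1 : Λ) ⊗ₜ[W] x - algebraMap W Λ w • (1 : Λ ⊗[W] A)) ∈ Q := by
      apply hfromker
      rw [hTx, map_sub, hψw]
      have : (1 : Λ) ⊗ₜ[W] α x = (1 : Λ) ⊗ₜ[W] b - (1 : Λ) ⊗ₜ[W] (b - α x) := by
        rw [← TensorProduct.tmul_sub]; congr 1; ring
      rw [this, map_sub, hw, hψP _ hx, sub_zero, sub_self]
    rw [hTx] at h1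
    have e : (1 : Λ) ⊗ₜ[W] b - algebraMap W Λ w • (1 : Λ ⊗[W] C) =
        ((1 : Λ) ⊗ₜ[W] α x - algebraMap W Λ w • (1 : Λ ⊗[W] C)) + (1 : Λ) ⊗ₜ[W] (b - α x) := by
      rw [TensorProduct.tmul_sub]; ring
    rw [e]
    exact Q.add_mem h1 (hPb _ hx)
  · -- second branch: `b = β x' + q2`, `α x ≡ (β x')^q`
    obtain ⟨x', hx'⟩ := hb b
    obtain ⟨x, hx⟩ := hc x'
    obtain ⟨wc, hwc⟩ := hW (β x')
    have hψpow : ψ ((1 : Λ) ⊗ₜ[W] ((β x') ^ q)) = algebraMap W k wc ^ q := by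
      have : (1 : Λ) ⊗ₜ[W] ((β x') ^ q) = ((1 : Λ) ⊗ₜ[W] β x') ^ q := by
        rw [Algebra.TensorProduct.tmul_pow, one_pow]
      rw [this, map_pow, hwc]
    have h1 : T ((1 : Λ) ⊗ₜ[W] x - (algebraMap W Λ wc) ^ q • (1 : Λ ⊗[W] A)) ∈ Q := by
      apply hfromker
      rw [hTx, map_sub]
      have e1 : (1 : Λ) ⊗ₜ[W] α x = (1 : Λ) ⊗ₜ[W] ((β x') ^ q) +
          (1 : Λ) ⊗ₜ[W] (α x - (β x') ^ q) := by
        rw [← TensorProduct.tmul_add]; congr 1; ring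
      have e2 : ψ ((algebraMap W Λ wc) ^ q • (1 : Λ ⊗[W] C)) = algebraMap W k wc ^ q := by
        rw [← map_pow, hψw, map_pow]
      rw [e1, map_add, hψpow, hψQ _ hx, add_zero, e2, sub_self]
    rw [hTx] at h1
    -- `1 ⊗ (β x')^q - wc^q • 1 ∈ Q`
    have h2 : (1 : Λ) ⊗ₜ[W] ((β x') ^ q) - (algebraMap W Λ wc) ^ q • (1 : Λ ⊗[W] C) ∈ Q := by
      have e : (1 : Λ) ⊗ₜ[W] ((β x') ^ q) - (algebraMap W Λ wc) ^ q • (1 : Λ ⊗[W] C) =
          ((1 : Λ) ⊗ₜ[W] α x - (algebraMap W Λ wc) ^ q • (1 : Λ ⊗[W] C)) -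
            (1 : Λ) ⊗ₜ[W] (α x - (β x') ^ q) := by
        rw [TensorProduct.tmul_sub]; ring
      rw [e]
      exact Q.sub_mem h1 (hQb _ hx)
    -- Frobenius in the domain `(Λ ⊗ C) ⧸ Q` of characteristic `q`
    have h3 : (1 : Λ) ⊗ₜ[W] β x' - algebraMap W Λ wc • (1 : Λ ⊗[W] C) ∈ Q := by
      haveI : IsDomain ((Λ ⊗[W] C) ⧸ Q) := Ideal.Quotient.isDomain Q
      have hq0 : ((q : ℕ) : (Λ ⊗[W] C) ⧸ Q) = 0 := by
        have h4 : ((q : ℕ) : Λ ⊗[W] C) = ((q : ℕ) : Λ) • (1 : Λ ⊗[W] C) := by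
          rw [Nat.cast_smul_eq_nsmul, nsmul_eq_mul, mul_one]
        have h5 : ((q : ℕ) : Λ ⊗[W] C) ∈ Q := by
          rw [h4]; exact smul_one_mem_of_nilpotent Q hqΛ
        rw [← map_natCast (Ideal.Quotient.mk Q)]
        exact Ideal.Quotient.eq_zero_iff_mem.2 h5
      haveI : CharP ((Λ ⊗[W] C) ⧸ Q) q := (CharP.charP_iff_prime_eq_zero hq.out).2 hq0
      rw [← Ideal.Quotient.eq_zero_iff_mem]
      apply pow_eq_zero_iff (Nat.Prime.ne_zero hq.out) |>.1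
      rw [map_sub, sub_pow_char, ← map_pow, ← map_pow, ← map_sub,
        Ideal.Quotient.eq_zero_iff_mem]
      have e : ((1 : Λ) ⊗ₜ[W] β x') ^ q - (algebraMap W Λ wc • (1 : Λ ⊗[W] C)) ^ q =
          (1 : Λ) ⊗ₜ[W] ((β x') ^ q) - (algebraMap W Λ wc) ^ q • (1 : Λ ⊗[W] C) := by
        rw [Algebra.TensorProduct.tmul_pow, one_pow, smul_pow, one_pow]
      rw [e]
      exact h2
    -- conclude
    have hwwc : algebraMap W k (wc - w) = 0 := by
      rw [map_sub, ← hwc, ← hw, ← map_sub, ← TensorProduct.tmul_sub]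
      have : β x' - b = -(b - β x') := by ring
      rw [this, TensorProduct.tmul_neg, map_neg, hψQ _ hx', neg_zero]
    have e : (1 : Λ) ⊗ₜ[W] b - algebraMap W Λ w • (1 : Λ ⊗[W] C) =
        ((1 : Λ) ⊗ₜ[W] β x' - algebraMap W Λ wc • (1 : Λ ⊗[W] C)) +
          (1 : Λ) ⊗ₜ[W] (b - β x') + algebraMap W Λ (wc - w) • (1 : Λ ⊗[W] C) := by
      rw [TensorProduct.tmul_sub, map_sub, sub_smul]; ring
    rw [e]
    exact Q.add_mem (Q.add_mem h3 (hQb _ hx')) (hnilW _ hwwc)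

end Main

end Fermat.Agent.T1B.Toric50.NodeFibre
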