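/-
Programme T1B (row 38 via S44), sub-cell TORIC50, brick TORIC-UNION, last step, EXISTENTIAL form
(helper50): **the binder `toric` of `Local66.Glue.localGeom_of_fields` on
`Local66.Objects.J1top c0 P00 hPP`, from the EXISTENTIAL statement of CMP.**

`Toric50/UnionGlue.toric_J1top` takes the statement of the sub-cell CMP level-wise (`∀ E y, …`); the
level `E` produced by `mem_J1top` need not contain the field of definition of the point, and CMP can
only be run after enlarging the level.  Here `hcmp` is the existential form (CMP chooses the level):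

`hcmp : ∀ x, ker x → j x ∈ J1top c0 P00 hPP → ∃ E (y : J̃¹(O_E)), ofMul (bcO c0 E ↑y) = j x ∧
          ∀ n, (I E).β n (uJ … n y) = 1`.

It is `Toric50/UnionFields.toric_field` at `P := P00` (`J1top c0 P00 hPP` is by definition
`unionSub c0 (fun E => P00 E ⊓ J1Fam c0 E) _`).
-/
import Mathlib
import Fermat.Agent.T1B.Toric50.UnionGlue

set_option autoImplicit false
set_option linter.unusedSectionVars false
set_option linter.unusedVariables false
set_option linter.style.haveILetI false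
set_option linter.overlappingInstances false
set_option synthInstance.maxHeartbeats 400000
set_option maxHeartbeats 1000000

noncomputable section

namespace Fermat.Agent.T1B.Toric50.UnionGlueEx

open Fermat.Agent.TW.B5.Iface Fermat.Agent.RED.Interface4 Fermat.Agent.T1.HubInst98
open Fermat.Agent.T1.IntSub47 Fermat.Agent.Jac Fermat.Agent.T1.RedIface75
open Fermat.Agent.T1B.Local66.LocalBase Fermat.Agent.T1B.Local66.Union
open Fermat.Agent.T1B.Local66.Objects
open Fermat.Agent.T1B.Plumb66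
open Fermat.Agent.T1B.Bridge54.IpAction Fermat.Agent.T1B.Bridge54.IpInst
open Fermat.Agent.T1B.Bridge54.IpUnion
open Fermat.Agent.T1.CechFormal70 Fermat.Agent.T1B.Toric11 Fermat.Agent.T1B.ToricGal65
open Fermat.Agent.T1B.Union81 Fermat.Agent.T1B.GalInput65 Fermat.Agent.T1B.Toric50.Assemble
open Fermat.Agent.T1B.Toric50.UnionFields

variable {p : ℕ} [Fact p.Prime] {K : IntermediateField ℚ Qbar}

attribute [local instance] algWKbar

variable {B0 B1 B01 : Type} [CommRing B0] [CommRing B1] [CommRing B01]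
  [Algebra (Wb p K) B0] [Algebra (Wb p K) B1] [Algebra (Wb p K) B01] [Algebra B0 B01]
  [Algebra B1 B01] [IsScalarTower (Wb p K) B0 B01] [IsScalarTower (Wb p K) B1 B01]
  {c0 : TwoChart (Wb p K) B0 B1 B01}
  [FiniteDimensional ℚ K] {g : ℕ} {D : CechData (Wb p K) B0 B1 B01 g}
  {hρ0 : ∀ x, D.ρ0 x = algebraMap B0 B01 x} {hρ1 : ∀ x, D.ρ1 x = algebraMap B1 B01 x}
  {G : NLevel p K → Type} [∀ L, Group (G L)] {r : ℕ} {Bt : NLevel p K → ℕ → Type}
  [∀ L n, CommGroup (Bt L n)]
  [∀ L, MulDistribMulAction (G L) (J1 c0 ((levelFamilyN p K).O L))]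
  [∀ L n, MulDistribMulAction (G L)
    (Jn D (IsLocalRing.maximalIdeal ((levelFamilyN p K).O L)) n)]
  [∀ L n, MulDistribMulAction (G L)
    (Tn r (IsLocalRing.maximalIdeal ((levelFamilyN p K).O L)) n)]
  [∀ L, MulDistribMulAction (G L) (Tinf r (IsLocalRing.maximalIdeal ((levelFamilyN p K).O L)))]
  (I : ∀ L, TowerInput c0 D hρ0 hρ1 ((levelFamilyN p K).O L) (G L) p r (Bt L))
  {good : ∀ (O : Type) [CommRing O] [IsDomain O] [IsDiscreteValuationRing O]
    [Algebra (Wb p K) O], Prop}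
  (F : TorFam r D good) (hO : ∀ L, good ((levelFamilyN p K).O L))
  (hI : ∀ L n, (I L).ι n = F.ι ((levelFamilyN p K).O L) (hO L) n)
  (P00 : ∀ E : NLevel p K, Subgroup (PicO c0 E)) (hPP : Compatible c0 P00)

/-- **The binder `toric` of `Local66.Glue.localGeom_of_fields`** for an abstract bridge `j`, from the
EXISTENTIAL statement of CMP (CMP chooses the level). -/
theorem toric_J1top_ex {T : Type*} [AddCommGroup T] (j : T →+ Atop p K c0)
    (hpT : ∀ x : T, p • x = 0) (ker : T → Prop)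
    (hinjE : ∀ E : NLevel p K, Function.Injective (bcE c0 E))
    (hext : ∀ E : NLevel p K, ∀ x ∈ J1Fam c0 E, bcOE c0 E x = 1 → x = 1)
    (hcmp : ∀ x : T, ker x → j x ∈ J1top c0 P00 hPP →
      ∃ (E : NLevel p K) (y : J1 c0 ((levelFamilyN p K).O E)),
        Additive.ofMul (bcO c0 E (y : PicX c0 ((levelFamilyN p K).O E))) = j x ∧
          ∀ n, (I E).β n (uJ c0 D hρ0 hρ1 ((levelFamilyN p K).O E) n y) = 1)
    (x : T) (hx : ker x) (hxJ : j x ∈ J1top c0 P00 hPP) :
    ∃ z : Fin r → ↥(OneUnits.oneUnits p), (∀ e, z e ^ p = 1) ∧ ιTop I F hO hI z = j x :=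
  toric_field I F hO hI j hpT ker hinjE hext hcmp x hx hxJ

/-- The level-wise form implies the existential form (so `toric_J1top_ex` subsumes
`UnionGlue.toric_J1top`). -/
theorem hcmp_ex_of_levelwise {T : Type*} [AddCommGroup T] (j : T →+ Atop p K c0) (ker : T → Prop)
    (hcmp : ∀ x : T, ker x → ∀ (E : NLevel p K) (y : J1 c0 ((levelFamilyN p K).O E)),
      Additive.ofMul (bcO c0 E (y : PicX c0 ((levelFamilyN p K).O E))) = j x →
        ∀ n, (I E).β n (uJ c0 D hρ0 hρ1 ((levelFamilyN p K).O E) n y) = 1)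
    (x : T) (hx : ker x) (hxJ : j x ∈ J1top c0 P00 hPP) :
    ∃ (E : NLevel p K) (y : J1 c0 ((levelFamilyN p K).O E)),
      Additive.ofMul (bcO c0 E (y : PicX c0 ((levelFamilyN p K).O E))) = j x ∧
        ∀ n, (I E).β n (uJ c0 D hρ0 hρ1 ((levelFamilyN p K).O E) n y) = 1 := by
  obtain ⟨E, a, ha, hae⟩ := (mem_J1top c0 P00 hPP).1 hxJ
  have ha1 : a ∈ J1Fam c0 E := (Subgroup.mem_inf.1 ha).2
  exact ⟨E, ⟨a, ha1⟩, hae, hcmp x hx E ⟨a, ha1⟩ hae⟩

end Fermat.Agent.T1B.Toric50.UnionGlueEx
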